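import Mathlib.MeasureTheory.Covering.Besicovitch
import Mathlib.MeasureTheory.Covering.BesicovitchVectorSpace
import Mathlib.MeasureTheory.Measure.Decomposition.RadonNikodym
import Mathlib.MeasureTheory.Measure.Lebesgue.Basic

/-!
# Absolute continuity of a family of laws

If two independent values of a random variable depending on a parameter come within `r` of each
other for a set of parameters of mean measure `O(r)`, then almost every parameter gives an
absolutely continuous law: the lower derivative is finite almost surely (Peres and Solomyak).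
-/

set_option autoImplicit false

noncomputable section

open MeasureTheory Filter Topology Metric
open scoped ENNReal

namespace FA.BernoulliConvolution

/-- A finite lower derivative almost everywhere gives absolute continuity. -/
theorem absolutelyContinuous_of_liminf_lt_top (ν : Measure ℝ) [IsFiniteMeasure ν]
    (h : ∀ᵐ x ∂ν, liminf (fun k : ℕ => ν (closedBall x (1 / ((k : ℝ) + 1))) /
      ENNReal.ofReal (1 / ((k : ℝ) + 1))) atTop < ∞) : ν ≪ volume := by
  refine Measure.AbsolutelyContinuous.mk fun S hS hS0 => ?_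
  have h0 : ∀ᵐ x ∂ν.restrict S, (volume : Measure ℝ).rnDeriv ν x = 0 :=
    (lintegral_eq_zero_iff (Measure.measurable_rnDeriv _ _)).1
      (le_antisymm ((Measure.setLIntegral_rnDeriv_le S).trans_eq hS0) zero_le)
  rw [← Measure.restrict_apply_univ S, Measure.measure_univ_eq_zero, ← ae_eq_bot,
    ← Filter.empty_mem_iff_bot]
  filter_upwards [h0, ae_restrict_of_ae h,
    ae_restrict_of_ae (Besicovitch.ae_tendsto_rnDeriv (volume : Measure ℝ) ν)] with x hx hl ht
  rw [hx] at ht
  have hr : Tendsto (fun k : ℕ => 1 / ((k : ℝ) + 1)) atTop (𝓝[>] 0) :=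
    tendsto_nhdsWithin_iff.2 ⟨tendsto_one_div_add_atTop_nhds_zero_nat,
      Eventually.of_forall fun k => Set.mem_Ioi.2 (by positivity)⟩
  have htop : Tendsto (fun k : ℕ => ν (closedBall x (1 / ((k : ℝ) + 1))) /
      ENNReal.ofReal (1 / ((k : ℝ) + 1))) atTop (𝓝 ∞) := by
    have h2 : Tendsto (fun k : ℕ => (volume (closedBall x (1 / ((k : ℝ) + 1))) /
        ν (closedBall x (1 / ((k : ℝ) + 1))))⁻¹) atTop (𝓝 ∞) := by
      simpa [Function.comp_def] using tendsto_inv_iff.2 (ht.comp hr)
    refine tendsto_nhds_top_mono' h2 fun k => ?_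
    have hv : 0 < 1 / ((k : ℝ) + 1) := by positivity
    rw [Real.volume_closedBall, ENNReal.inv_div (Or.inl (measure_ne_top ν _))
      (Or.inr (ENNReal.ofReal_pos.2 (by positivity)).ne')]
    exact ENNReal.div_le_div_left (ENNReal.ofReal_le_ofReal (by linarith)) _
  rw [htop.liminf_eq] at hl
  exact (lt_irrefl _ hl).elim

/-- **The criterion.** If two independent values come within `r` of each other for a set of
parameters of mean measure `O(r)`, then almost every parameter gives an absolutely continuous
law. -/
theorem ae_absolutelyContinuous_of_close {α β : Type*} [MeasurableSpace α]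
    [MeasurableSpace β] {μ : Measure α} [IsFiniteMeasure μ] {S : β → α → ℝ}
    (hS : Measurable fun p : β × α => S p.1 p.2) (I : Measure β) [SFinite I] {C : ℝ}
    (h : ∀ r : ℝ, 0 < r → ∫⁻ q, I {l | |S l q.1 - S l q.2| ≤ r} ∂(μ.prod μ) ≤
      ENNReal.ofReal (C * r)) :
    ∀ᵐ l ∂I, μ.map (S l) ≪ volume := by
  set ρ : ℕ → ℝ := fun k => 1 / ((k : ℝ) + 1) with hρ
  have hρ0 : ∀ k, 0 < ρ k := fun k => by positivity
  set G : ℕ → β × α → ℝ≥0∞ :=
    fun k p => μ {ω' | |S p.1 p.2 - S p.1 ω'| ≤ ρ k} / ENNReal.ofReal (ρ k)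
  have hm : ∀ r : ℝ, Measurable fun p : β × α =>
      μ {ω' | |S p.1 p.2 - S p.1 ω'| ≤ r} := fun r =>
    measurable_measure_prodMk_left
      (s := {q : (β × α) × α | |S q.1.1 q.1.2 - S q.1.1 q.2| ≤ r})
      (measurableSet_le (continuous_abs.measurable.comp ((hS.comp measurable_fst).sub
        (hS.comp ((measurable_fst.comp measurable_fst).prodMk measurable_snd)))) measurable_const)
  have hG : ∀ k, Measurable (G k) := fun k => (hm _).div_const _
  have hbound : ∀ k, ∫⁻ p, G k p ∂(I.prod μ) ≤ ENNReal.ofReal C := fun k => by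
    have hEm : MeasurableSet {p : β × α × α |
        |S p.1 p.2.1 - S p.1 p.2.2| ≤ ρ k} :=
      measurableSet_le (continuous_abs.measurable.comp
        ((hS.comp (measurable_fst.prodMk (measurable_fst.comp measurable_snd))).sub
          (hS.comp (measurable_fst.prodMk (measurable_snd.comp measurable_snd))))) measurable_const
    have h1 : ∫⁻ p, μ {ω' | |S p.1 p.2 - S p.1 ω'| ≤ ρ k} ∂(I.prod μ) =
        (I.prod (μ.prod μ)) {p | |S p.1 p.2.1 - S p.1 p.2.2| ≤ ρ k} := by
      rw [lintegral_prod _ (hm _).aemeasurable, Measure.prod_apply hEm]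
      refine lintegral_congr fun l => ?_
      rw [Measure.prod_apply (measurable_prodMk_left hEm)]
      rfl
    simp only [G, div_eq_mul_inv]
    rw [lintegral_mul_const _ (hm _), ← div_eq_mul_inv, h1, Measure.prod_apply_symm hEm]
    refine (ENNReal.div_le_div_right (h _ (hρ0 k)) _).trans_eq ?_
    rw [← ENNReal.ofReal_div_of_pos (hρ0 k), mul_div_assoc, div_self (hρ0 k).ne', mul_one]
  have hfin : ∀ᵐ p ∂(I.prod μ), liminf (fun k => G k p) atTop < ∞ := by
    refine ae_lt_top (Measurable.liminf hG) (ne_top_of_le_ne_top ENNReal.ofReal_ne_top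
      ((lintegral_liminf_le hG).trans ((liminf_le_liminf (Eventually.of_forall hbound)).trans_eq
        (liminf_const _))))
  filter_upwards [Measure.ae_ae_of_ae_prod hfin] with l hl
  have hSl : Measurable (S l) := hS.comp measurable_prodMk_left
  refine absolutelyContinuous_of_liminf_lt_top _ ?_
  have hball : ∀ x ε : ℝ, μ.map (S l) (closedBall x ε) = μ {ω' | |x - S l ω'| ≤ ε} := fun x ε => by
    rw [Measure.map_apply hSl measurableSet_closedBall]
    congr 1
    ext ω'
    simp [Real.dist_eq, abs_sub_comm]
  have hmeas : ∀ ε : ℝ, Measurable fun x : ℝ => μ.map (S l) (closedBall x ε) :=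
    fun ε => measurable_measure_prodMk_left (ν := μ.map (S l))
      (s := {q : ℝ × ℝ | dist q.2 q.1 ≤ ε})
      (measurableSet_le (measurable_snd.dist measurable_fst) measurable_const)
  rw [ae_map_iff hSl.aemeasurable
    (measurableSet_lt (Measurable.liminf fun k => (hmeas _).div_const _) measurable_const)]
  filter_upwards [hl] with ω hω
  simpa only [hball, G, ρ] using hω

end FA.BernoulliConvolution

end
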