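import Fermat.Agent.BernoulliConvolution.Main
import Fermat.Agent.Root.SummaryPisot

/-!
# Salem's theorem on the decay of the transform

If the transform stays above `c` at arbitrarily large `t = π l θ ^ N`, `l ∈ [1, θ)`, then a limit
point of the `l` has `∑ sin (π l θ ^ j) ^ 2 ≤ -2 log c`, so `θ` is Pisot by the criterion of
Pisot. At `θ = 2` the product telescopes to `sin (2 t) / (2 t)`.
-/

set_option autoImplicit false

noncomputable section

open MeasureTheory Filter Topology Real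

namespace FA.BernoulliConvolution

/-- The transform is below each partial product. -/
theorem norm_charFun_le {θ : ℝ} (hθ : 1 < θ) (t : ℝ) (M : ℕ) :
    ‖charFun (bernoulliConvolution θ) t‖ ≤ ∏ n ∈ Finset.range M, |Real.cos (t / θ ^ n)| := by
  refine le_of_tendsto (charFun_eq hθ t).norm (eventually_atTop.2 ⟨M, fun L hL => ?_⟩)
  rw [norm_prod]
  simp only [Complex.norm_real, Real.norm_eq_abs]
  rw [← Finset.prod_sdiff (Finset.range_subset_range.2 hL)]
  exact mul_le_of_le_one_left (Finset.prod_nonneg fun _ _ => abs_nonneg _)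
    (Finset.prod_le_one (fun _ _ => abs_nonneg _) fun _ _ => Real.abs_cos_le_one _)

theorem sum_sin_sq_le {c : ℝ} (hc : 0 < c) {J : ℕ} {f : ℕ → ℝ}
    (h : c ≤ ∏ j ∈ Finset.range J, |Real.cos (f j)|) :
    ∑ j ∈ Finset.range J, Real.sin (f j) ^ 2 ≤ -2 * log c := by
  have h2 : c ^ 2 ≤ ∏ j ∈ Finset.range J, exp (-Real.sin (f j) ^ 2) := by
    refine (pow_le_pow_left₀ hc.le h 2).trans ?_
    rw [← Finset.prod_pow]
    refine Finset.prod_le_prod (fun j _ => sq_nonneg _) fun j _ => ?_
    rw [sq_abs, Real.cos_sq']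
    linarith [Real.add_one_le_exp (-Real.sin (f j) ^ 2)]
  rw [← Real.exp_sum, Finset.sum_neg_distrib] at h2
  have := log_le_log (pow_pos hc 2) h2
  rw [log_exp, log_pow] at this
  push_cast at this
  linarith

/-- **Salem's converse.** -/
theorem isPisot_of_frequently_le {θ : ℝ} (hθ : 1 < θ) {c : ℝ} (hc : 0 < c)
    (h : ∃ᶠ t in atTop, c ≤ ‖charFun (bernoulliConvolution θ) t‖) :
    FA.PisotCriterion.IsPisot θ := by
  have hθ0 : 0 < θ := zero_lt_one.trans hθ
  have key : ∀ k : ℕ, ∃ l ∈ Set.Icc 1 θ,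
      ∀ J ≤ k, ∑ j ∈ Finset.range J, Real.sin (π * (l * θ ^ j)) ^ 2 ≤ -2 * log c := fun k => by
    obtain ⟨t, hct, ht⟩ := (h.and_eventually (eventually_ge_atTop (π * θ ^ k))).exists
    have hkt : θ ^ k ≤ t / π := by rw [le_div_iff₀ pi_pos]; linarith
    obtain ⟨N, hN1, hN2⟩ := exists_nat_pow_near (le_trans (one_le_pow₀ hθ.le) hkt) hθ
    have hNk : k ≤ N := Nat.lt_succ_iff.1 ((pow_lt_pow_iff_right₀ hθ).1 (hkt.trans_lt hN2))
    refine ⟨t / π / θ ^ N, ⟨(one_le_div (by positivity)).2 hN1, (div_le_iff₀ (by positivity)).2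
      (by rw [← pow_succ']; exact hN2.le)⟩, fun J hJ => sum_sin_sq_le hc ?_⟩
    refine (hct.trans (norm_charFun_le hθ t (N + 1))).trans ?_
    rw [← Finset.prod_range_reflect]
    rw [← Finset.prod_sdiff (Finset.range_subset_range.2 (show J ≤ N + 1 by omega))]
    refine (mul_le_of_le_one_left (Finset.prod_nonneg fun _ _ => abs_nonneg _)
      (Finset.prod_le_one (fun _ _ => abs_nonneg _) fun _ _ => Real.abs_cos_le_one _)).trans
      (le_of_eq (Finset.prod_congr rfl fun j hj => ?_))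
    have hjN : j ≤ N := by have := Finset.mem_range.1 hj; omega
    rw [show N + 1 - 1 - j = N - j by omega, pow_sub₀ θ hθ0.ne' hjN]
    congr 2
    field_simp
  choose l hl hsum using key
  obtain ⟨m, hm, φ, hφ, hlim⟩ := isCompact_Icc.tendsto_subseq hl
  refine (FA.PisotCriterion.isPisot_iff hθ).2 ⟨m, (zero_lt_one.trans_le hm.1).ne', ?_⟩
  refine summable_of_sum_range_le (fun j => sq_nonneg _) (c := -2 * log c / 4) fun J => ?_
  have hle : ∑ j ∈ Finset.range J, Real.sin (π * (m * θ ^ j)) ^ 2 ≤ -2 * log c :=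
    le_of_tendsto (((continuous_finsetSum (Finset.range J) fun j _ => by fun_prop :
      Continuous fun x : ℝ => ∑ j ∈ Finset.range J, Real.sin (π * (x * θ ^ j)) ^ 2).tendsto m).comp
        hlim) (eventually_atTop.2 ⟨J, fun i hi => hsum _ J (hi.trans (hφ.id_le i))⟩)
  rw [le_div_iff₀ four_pos, Finset.sum_mul]
  refine (Finset.sum_le_sum fun j _ => ?_).trans hle
  set y := m * θ ^ j
  have hd : |π * (y - round y)| ≤ π / 2 := by
    rw [abs_mul, abs_of_pos pi_pos]
    have := mul_le_mul_of_nonneg_left (abs_sub_round y) pi_pos.le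
    linarith
  have h1 := Real.mul_abs_le_abs_sin hd
  have h2 : |Real.sin (π * (y - round y))| = |Real.sin (π * y)| := by
    rw [mul_sub, mul_comm π (round y : ℝ), Real.sin_sub_int_mul_pi, abs_mul, abs_neg_one_zpow,
      one_mul]
  rw [h2, abs_mul, abs_of_pos pi_pos, ← mul_assoc, div_mul_cancel₀ _ pi_ne_zero] at h1
  have := pow_le_pow_left₀ (by positivity) h1 2
  rw [mul_pow, sq_abs, sq_abs] at this
  linarith

theorem prod_cos_two_mul_sin (t : ℝ) : ∀ M : ℕ,
    (∏ n ∈ Finset.range (M + 1), Real.cos (t / 2 ^ n)) * (2 ^ (M + 1) * Real.sin (t / 2 ^ M)) =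
      Real.sin (2 * t)
  | 0 => by simp [Real.sin_two_mul]; ring
  | M + 1 => by
    rw [← prod_cos_two_mul_sin t M, Finset.prod_range_succ _ (M + 1),
      show t / 2 ^ M = 2 * (t / 2 ^ (M + 1)) by rw [pow_succ]; ring, Real.sin_two_mul]
    ring

theorem norm_charFun_two_le {t : ℝ} (ht : t ≠ 0) :
    ‖charFun (bernoulliConvolution 2) t‖ ≤ π / (4 * |t|) := by
  obtain ⟨M, hM⟩ := pow_unbounded_of_one_lt (2 * |t| / π) (show (1 : ℝ) < 2 by norm_num)
  refine (norm_charFun_le one_lt_two t (M + 1)).trans ?_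
  have h2 : (0 : ℝ) < 2 ^ M := by positivity
  have hsmall : |t / 2 ^ M| ≤ π / 2 := by
    rw [abs_div, abs_of_pos h2, div_le_iff₀ h2]
    rw [div_lt_iff₀ pi_pos] at hM
    linarith
  have h1 := Real.mul_abs_le_abs_sin hsmall
  have he := congrArg abs (prod_cos_two_mul_sin t M)
  rw [abs_mul, Finset.abs_prod, abs_mul,
    abs_of_pos (show (0 : ℝ) < 2 ^ (M + 1) by positivity)] at he
  have hs := (Real.abs_sin_le_one (2 * t))
  rw [← he] at hs
  rw [abs_div, abs_of_pos h2] at h1
  rw [le_div_iff₀ (by positivity)]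
  have h3 : 4 * |t| ≤ π * (2 ^ (M + 1) * |Real.sin (t / 2 ^ M)|) := by
    calc 4 * |t| = π * 2 ^ (M + 1) * (2 / π * (|t| / 2 ^ M)) := by rw [pow_succ]; field_simp; ring
      _ ≤ π * 2 ^ (M + 1) * |Real.sin (t / 2 ^ M)| := mul_le_mul_of_nonneg_left h1 (by positivity)
      _ = _ := by ring
  have hP : 0 ≤ ∏ n ∈ Finset.range (M + 1), |Real.cos (t / 2 ^ n)| :=
    Finset.prod_nonneg fun _ _ => abs_nonneg _
  have h4 := mul_le_mul_of_nonneg_left h3 hP
  have h5 := mul_le_mul_of_nonneg_left hs pi_pos.le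
  linarith

/-- **The dichotomy of Erdős and Salem.** -/
theorem tendsto_charFun_iff {θ : ℝ} (hθ : 1 < θ) :
    Tendsto (charFun (bernoulliConvolution θ)) (cocompact ℝ) (𝓝 0) ↔
      θ = 2 ∨ ¬FA.PisotCriterion.IsPisot θ := by
  refine ⟨fun h => or_iff_not_imp_left.2 fun h2 hP => ?_, fun h => ?_⟩
  · obtain ⟨c, hc, hle⟩ := exists_le_norm_charFun hP h2
    have hw : Tendsto (fun N : ℕ => π * θ ^ N) atTop (cocompact ℝ) :=
      ((tendsto_pow_atTop_atTop_of_one_lt hθ).const_mul_atTop pi_pos).mono_right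
        atTop_le_cocompact
    have hlim := (h.comp hw).norm
    rw [norm_zero] at hlim
    obtain ⟨N, hN⟩ := (hlim.eventually_lt_const hc).exists
    exact absurd (hle N) (not_le.2 hN)
  · suffices hT : Tendsto (fun t => ‖charFun (bernoulliConvolution θ) t‖) atTop (𝓝 0) by
      rw [tendsto_zero_iff_norm_tendsto_zero, cocompact_eq_atBot_atTop, tendsto_sup]
      refine ⟨(hT.comp tendsto_neg_atBot_atTop).congr fun t => ?_, hT⟩
      rw [Function.comp_apply, charFun_neg, Complex.norm_conj]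
    rcases h with rfl | hP
    · refine squeeze_zero' (Eventually.of_forall fun _ => norm_nonneg _)
        ((eventually_gt_atTop 0).mono fun t ht => norm_charFun_two_le ht.ne') ?_
      exact tendsto_const_nhds.div_atTop (tendsto_abs_atTop_atTop.const_mul_atTop four_pos)
    · rw [Metric.tendsto_nhds]
      intro ε hε
      by_contra hne
      refine hP (isPisot_of_frequently_le hθ hε ((not_eventually.1 hne).mono fun t ht => ?_))
      rw [Real.dist_eq, sub_zero, abs_norm, not_lt] at ht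
      exact ht

end FA.BernoulliConvolution

end
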