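import Fermat.Agent.BernoulliConvolution.Main
import Mathlib.MeasureTheory.Measure.CharacteristicFunction.TaylorExpansion
import Mathlib.MeasureTheory.Measure.Lebesgue.Basic

/-!
# The law of pure type

A Bernoulli convolution is the mean of its two images under `x ↦ ± 1 + x / θ`, and a finite measure
with this property is a multiple of it, by the Fourier transform. The images keep singular and
absolutely continuous measures apart, so the singular part of a Bernoulli convolution is such a
measure: it is everything or nothing (Jessen and Wintner).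
-/

set_option autoImplicit false

noncomputable section

open MeasureTheory Filter Topology Real
open scoped ENNReal

namespace FA.BernoulliConvolution

/-- The two-branch operator. -/
def selfMap (θ : ℝ) (μ : Measure ℝ) : Measure ℝ :=
  (2⁻¹ : ℝ≥0∞) • μ.map (fun x => 1 + x / θ) + (2⁻¹ : ℝ≥0∞) • μ.map (fun x => -1 + x / θ)

theorem isFiniteMeasure_selfMap (θ : ℝ) (μ : Measure ℝ) [IsFiniteMeasure μ] :
    IsFiniteMeasure (selfMap θ μ) :=
  ⟨by simp [selfMap, measure_lt_top, ENNReal.mul_lt_top]⟩

theorem charFun_map_affine (θ c : ℝ) (μ : Measure ℝ) (t : ℝ) :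
    charFun (μ.map fun x => c + x / θ) t =
      Complex.exp ((c * t : ℝ) * Complex.I) * charFun μ (t / θ) := by
  rw [charFun_apply_real, charFun_apply_real, integral_map (by fun_prop) (by fun_prop),
    ← integral_const_mul]
  refine integral_congr_ae (Eventually.of_forall fun x => ?_)
  simp only [← Complex.exp_add]
  congr 1
  push_cast
  ring

theorem charFun_selfMap (θ : ℝ) (μ : Measure ℝ) [IsFiniteMeasure μ] (t : ℝ) :
    charFun (selfMap θ μ) t = (Real.cos t : ℂ) * charFun μ (t / θ) := by
  have hint : ∀ c : ℝ, Integrable (fun x : ℝ => Complex.exp (t * x * Complex.I))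
      ((2⁻¹ : ℝ≥0∞) • μ.map fun x => c + x / θ) := fun c => by
    refine ((integrable_const (1 : ℝ)).mono' (by fun_prop) (Eventually.of_forall fun x => ?_))
      |>.smul_measure (by simp)
    rw [← Complex.ofReal_mul, Complex.norm_exp_ofReal_mul_I]
  rw [charFun_apply_real, selfMap, integral_add_measure (hint 1) (hint (-1)),
    integral_smul_measure, integral_smul_measure, ← charFun_apply_real, ← charFun_apply_real,
    charFun_map_affine, charFun_map_affine, ENNReal.toReal_inv, ENNReal.toReal_ofNat,
    Complex.real_smul, Complex.real_smul, Complex.ofReal_cos, Complex.cos]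
  push_cast
  ring_nf

theorem isProbabilityMeasure_bernoulliConvolution {θ : ℝ} (hθ : 1 < θ) :
    IsProbabilityMeasure (bernoulliConvolution θ) :=
  Measure.isProbabilityMeasure_map (measurable_signedSeries hθ).aemeasurable

theorem selfMap_bernoulliConvolution {θ : ℝ} (hθ : 1 < θ) :
    selfMap θ (bernoulliConvolution θ) = bernoulliConvolution θ := by
  have := isProbabilityMeasure_bernoulliConvolution hθ
  have := isFiniteMeasure_selfMap θ (bernoulliConvolution θ)
  refine Measure.ext_of_charFun (funext fun t => ?_)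
  rw [charFun_selfMap]
  refine tendsto_nhds_unique ((charFun_eq hθ (t / θ)).const_mul ((Real.cos t : ℝ) : ℂ)) ?_
  refine ((charFun_eq hθ t).comp (tendsto_add_atTop_nat 1)).congr fun M => ?_
  rw [Function.comp_apply, Finset.prod_range_succ', pow_zero, div_one, mul_comm]
  congr 1
  refine Finset.prod_congr rfl fun n _ => ?_
  rw [pow_succ', div_div]

/-- **Uniqueness.** -/
theorem eq_smul_of_selfMap_eq {θ : ℝ} (hθ : 1 < θ) (μ : Measure ℝ) [IsFiniteMeasure μ]
    (h : selfMap θ μ = μ) : μ = μ Set.univ • bernoulliConvolution θ := by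
  have := isProbabilityMeasure_bernoulliConvolution hθ
  have : IsFiniteMeasure (μ Set.univ • bernoulliConvolution θ) :=
    Measure.smul_finite _ (measure_ne_top μ _)
  refine Measure.ext_of_charFun (funext fun t => ?_)
  have hiter : ∀ M : ℕ, charFun μ t =
      (∏ n ∈ Finset.range M, ((Real.cos (t / θ ^ n) : ℝ) : ℂ)) * charFun μ (t / θ ^ M) :=
    fun M => by
    induction M with
    | zero => simp
    | succ M ih =>
      have e := charFun_selfMap θ μ (t / θ ^ M)
      rw [h] at e
      rw [ih, e, Finset.prod_range_succ, div_div, ← pow_succ, mul_assoc]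
  have h0 : Tendsto (fun M : ℕ => charFun μ (t / θ ^ M)) atTop (𝓝 (charFun μ 0)) :=
    ((continuous_charFun (μ := μ)).tendsto 0).comp
      ((tendsto_pow_atTop_atTop_of_one_lt hθ).const_div_atTop t)
  have hl := ((charFun_eq hθ t).mul h0).congr fun M => (hiter M).symm
  rw [tendsto_nhds_unique tendsto_const_nhds hl, charFun_zero, charFun_apply_real (μ := _ • _),
    integral_smul_measure, ← charFun_apply_real, measureReal_def, Complex.real_smul, mul_comm]

theorem volume_preimage_affine {r : ℝ} (hr : r ≠ 0) (c : ℝ) {S : Set ℝ} (hS : volume S = 0) :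
    volume ((fun y => r * (y + c)) ⁻¹' S) = 0 := by
  rw [show (fun y => r * (y + c)) ⁻¹' S = (fun y => y + c) ⁻¹' ((r * ·) ⁻¹' S) from rfl,
    measure_preimage_add_right, Real.volume_preimage_mul_left hr, hS, mul_zero]

theorem absolutelyContinuous_map_affine {θ : ℝ} (hθ : θ ≠ 0) (c : ℝ) {μ : Measure ℝ}
    (h : μ ≪ volume) : (μ.map fun x => c + x / θ) ≪ volume := by
  refine Measure.AbsolutelyContinuous.mk fun S hS hS0 => ?_
  rw [Measure.map_apply (by fun_prop) hS]
  refine h ?_
  convert volume_preimage_affine (inv_ne_zero hθ) (c * θ) hS0 using 3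
  funext x
  field_simp
  ring

theorem mutuallySingular_map_affine {θ : ℝ} (hθ : θ ≠ 0) (c : ℝ) {μ : Measure ℝ}
    (h : μ ⟂ₘ (volume : Measure ℝ)) : (μ.map fun x => c + x / θ) ⟂ₘ (volume : Measure ℝ) := by
  obtain ⟨N, hN, h1, h2⟩ := h
  refine ⟨(fun y => θ * (y + -c)) ⁻¹' N, (by fun_prop : Measurable _) hN, ?_, ?_⟩
  · rw [Measure.map_apply (by fun_prop) ((by fun_prop : Measurable _) hN)]
    convert h1 using 2
    ext x
    rw [Set.mem_preimage, Set.mem_preimage, show θ * (c + x / θ + -c) = x by field_simp; ring]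
  · rw [← Set.preimage_compl]
    exact volume_preimage_affine hθ (-c) h2

/-- **The law of pure type.** -/
theorem pure_type {θ : ℝ} (hθ : 1 < θ) :
    bernoulliConvolution θ ≪ volume ∨ bernoulliConvolution θ ⟂ₘ (volume : Measure ℝ) := by
  have := isProbabilityMeasure_bernoulliConvolution hθ
  have hθ0 : θ ≠ 0 := (zero_lt_one.trans hθ).ne'
  set s := (bernoulliConvolution θ).singularPart volume with hs
  set a := (volume : Measure ℝ).withDensity ((bernoulliConvolution θ).rnDeriv volume)
  have hdec : bernoulliConvolution θ = s + a := Measure.haveLebesgueDecomposition_add _ _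
  have hsing : s ⟂ₘ (volume : Measure ℝ) := Measure.mutuallySingular_singularPart _ _
  have hac : a ≪ volume := withDensity_absolutelyContinuous _ _
  have hTs : selfMap θ s ⟂ₘ (volume : Measure ℝ) :=
    ((mutuallySingular_map_affine hθ0 1 hsing).smul _).add_left
      ((mutuallySingular_map_affine hθ0 (-1) hsing).smul _)
  have hTa : selfMap θ a ≪ volume :=
    Measure.AbsolutelyContinuous.add_left ((absolutelyContinuous_map_affine hθ0 1 hac).smul_left _)
      ((absolutelyContinuous_map_affine hθ0 (-1) hac).smul_left _)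
  have := isFiniteMeasure_selfMap θ a
  have hfix : selfMap θ s = s := by
    refine Measure.eq_singularPart (f := (selfMap θ a).rnDeriv volume)
      (Measure.measurable_rnDeriv _ _) hTs ?_
    rw [Measure.withDensity_rnDeriv_eq _ _ hTa]
    conv_lhs => rw [← selfMap_bernoulliConvolution hθ, hdec]
    simp only [selfMap, Measure.map_add _ _ (by fun_prop : Measurable fun x : ℝ => 1 + x / θ),
      Measure.map_add _ _ (by fun_prop : Measurable fun x : ℝ => -1 + x / θ), smul_add]
    abel
  have hm := eq_smul_of_selfMap_eq hθ s hfix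
  rcases eq_or_ne (s Set.univ) 0 with h0 | h0
  · left
    rw [hdec, Measure.measure_univ_eq_zero.1 h0, zero_add]
    exact hac
  · right
    rw [show bernoulliConvolution θ = (s Set.univ)⁻¹ • s by
      conv_rhs => arg 2; rw [hm]
      rw [smul_smul, ENNReal.inv_mul_cancel h0 (measure_ne_top s _), one_smul]]
    exact hsing.smul _

/-- **Erdős's theorem in full strength.** -/
theorem mutuallySingular_of_isPisot {θ : ℝ} (h : FA.PisotCriterion.IsPisot θ) (h2 : θ ≠ 2) :
    bernoulliConvolution θ ⟂ₘ (volume : Measure ℝ) :=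
  (pure_type h.1).resolve_left (not_absolutelyContinuous h h2)

theorem map_restrict_half (c a b : ℝ) :
    (volume.restrict (Set.Icc a b)).map (fun x => c + x / 2) =
      (2 : ℝ≥0∞) • volume.restrict (Set.Icc (c + a / 2) (c + b / 2)) := by
  refine Measure.ext fun S hS => ?_
  rw [Measure.map_apply (by fun_prop) hS, Measure.restrict_apply ((by fun_prop : Measurable _) hS),
    Measure.smul_apply, Measure.restrict_apply hS, smul_eq_mul]
  have e : (fun x => c + x / 2) ⁻¹' S ∩ Set.Icc a b =
      (fun y => y + c * 2) ⁻¹' (((2 : ℝ)⁻¹ * ·) ⁻¹' (S ∩ Set.Icc (c + a / 2) (c + b / 2))) := by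
    ext x
    simp only [Set.mem_inter_iff, Set.mem_preimage, Set.mem_Icc,
      show (2 : ℝ)⁻¹ * (x + c * 2) = c + x / 2 by ring]
    refine and_congr_right fun _ => ⟨fun h => ⟨?_, ?_⟩, fun h => ⟨?_, ?_⟩⟩ <;> linarith [h.1, h.2]
  rw [e, measure_preimage_add_right, Real.volume_preimage_mul_left (inv_ne_zero two_ne_zero),
    inv_inv, abs_two, ENNReal.ofReal_ofNat]

/-- **The uniform law at `θ = 2`.** -/
theorem bernoulliConvolution_two :
    bernoulliConvolution 2 = (4⁻¹ : ℝ≥0∞) • volume.restrict (Set.Icc (-2) 2) := by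
  set μ := (4⁻¹ : ℝ≥0∞) • volume.restrict (Set.Icc (-2 : ℝ) 2)
  have huniv : μ Set.univ = 1 := by
    simp only [μ, Measure.smul_apply, Measure.restrict_apply_univ, Real.volume_Icc, smul_eq_mul]
    rw [show (2 : ℝ) - -2 = 4 by norm_num, ENNReal.ofReal_ofNat,
      ENNReal.inv_mul_cancel (by norm_num) (by norm_num)]
  have : IsFiniteMeasure μ := ⟨by rw [huniv]; exact ENNReal.one_lt_top⟩
  have hsplit : volume.restrict (Set.Icc (-2 : ℝ) 2) =
      volume.restrict (Set.Icc (-2 : ℝ) 0) + volume.restrict (Set.Icc (0 : ℝ) 2) := by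
    rw [← Set.Icc_union_Icc_eq_Icc (by norm_num : (-2 : ℝ) ≤ 0) zero_le_two]
    refine Measure.restrict_union₀ ?_ measurableSet_Icc.nullMeasurableSet
    rw [AEDisjoint, Set.Icc_inter_Icc, Real.volume_Icc]
    norm_num
  have hfix : selfMap 2 μ = μ := by
    simp only [selfMap, μ, Measure.map_smul, map_restrict_half, smul_smul]
    norm_num
    rw [hsplit, smul_add, add_comm]
    congr 2 <;>
      rw [mul_left_comm, ENNReal.inv_mul_cancel two_ne_zero ENNReal.ofNat_ne_top, mul_one]
  rw [eq_smul_of_selfMap_eq one_lt_two μ hfix, huniv, one_smul]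

end FA.BernoulliConvolution

end
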