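import Fermat.Agent.BernoulliConvolution.Decay
import Fermat.Agent.BernoulliConvolution.PureType
import Mathlib.Analysis.SpecialFunctions.Pow.Deriv
import Mathlib.MeasureTheory.Function.Jacobian
import Mathlib.MeasureTheory.OuterMeasure.BorelCantelli

/-!
# The theorem of Erdős and Kahane

If the transform at `π l θ ^ N` is not exponentially small in `N`, all but `N / q` of the numbers
`l θ ^ j` are nearly integers, and the next nearest integer is then `round (K' ^ 2 / K)`. So there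
are few integer sequences, each confining `θ` to an interval of length `O(a ^ (-N))`, and almost
every `θ` has a transform of power decay. Split by `θ ^ k`, the exponent grows without bound as
`θ` tends to `1`.
-/

set_option autoImplicit false

noncomputable section

open MeasureTheory Filter Topology Real
open scoped ENNReal

namespace FA.BernoulliConvolution

theorem abs_cos_pi_mul_le (y : ℝ) :
    |Real.cos (π * y)| ≤ exp (-2 * |y - round y| ^ 2) := by
  set d := y - round y with hd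
  have h : |Real.cos (π * y)| = |Real.cos (π * d)| := by
    rw [hd, mul_sub, mul_comm π (round y : ℝ), Real.cos_sub_int_mul_pi, abs_mul,
      abs_neg_one_zpow, one_mul]
  have hdh : |π * d| ≤ π / 2 := by
    rw [abs_mul, abs_of_pos pi_pos]
    nlinarith [abs_sub_round y, pi_pos]
  have hs := Real.mul_abs_le_abs_sin hdh
  rw [abs_mul, abs_of_pos pi_pos, ← mul_assoc, div_mul_cancel₀ _ pi_ne_zero] at hs
  have hs2 : 4 * |d| ^ 2 ≤ Real.sin (π * d) ^ 2 := by
    rw [← sq_abs (Real.sin _)]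
    nlinarith [abs_nonneg d]
  have hc : Real.cos (π * d) ^ 2 ≤ exp (-2 * |d| ^ 2) ^ 2 := by
    rw [← exp_nat_mul, Real.cos_sq']
    push_cast
    nlinarith [Real.add_one_le_exp (2 * (-2 * |d| ^ 2))]
  rw [h]
  exact abs_le_of_sq_le_sq hc (exp_pos _).le

/-- The rate of perturbation. -/
def errRate (b : ℝ) : ℝ := 4 * b + 1 + 2 * b ^ 2

theorem abs_sq_div_sub_le {θ b x K K' : ℝ} (hθ0 : 0 ≤ θ) (hθb : θ ≤ b) (hx : 1 ≤ x) (hK : 1 ≤ K)
    (he : |K - x| ≤ 1 / 2) (he' : |K' - θ * x| ≤ 1 / 2) :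
    |K' ^ 2 / K - θ ^ 2 * x| ≤ errRate b * (|K - x| + |K' - θ * x|) := by
  set e := K - x with hed
  set e' := K' - θ * x with hed'
  have hK0 : 0 < K := by linarith
  have hid : K' ^ 2 / K - θ ^ 2 * x = (2 * θ * x * e' + e' ^ 2 - θ ^ 2 * x * e) / K := by
    rw [eq_div_iff hK0.ne', sub_mul, div_mul_cancel₀ _ hK0.ne', hed, hed']
    ring
  rw [hid, abs_div, abs_of_pos hK0, div_le_iff₀ hK0]
  have hxK : x ≤ 2 * K := by linarith [(abs_le.1 he).1]
  have hb : 0 ≤ b := hθ0.trans hθb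
  have h1 : |2 * θ * x * e'| ≤ 2 * b * (2 * K) * |e'| := by
    rw [abs_mul, abs_of_nonneg (show 0 ≤ 2 * θ * x by positivity)]
    gcongr
  have h2 : |e' ^ 2| ≤ K * |e'| := by
    rw [abs_pow, sq]
    exact mul_le_mul_of_nonneg_right (by linarith) (abs_nonneg _)
  have h3 : |θ ^ 2 * x * e| ≤ b ^ 2 * (2 * K) * |e| := by
    rw [abs_mul, abs_of_nonneg (show 0 ≤ θ ^ 2 * x by positivity)]
    gcongr
  refine (abs_sub _ _).trans ((add_le_add ((abs_add_le _ _).trans (add_le_add h1 h2)) h3).trans ?_)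
  unfold errRate
  have hKb : 0 ≤ b * K := mul_nonneg hb hK0.le
  nlinarith [mul_nonneg hKb (abs_nonneg e), mul_nonneg hK0.le (abs_nonneg e),
    mul_nonneg (mul_nonneg (sq_nonneg b) hK0.le) (abs_nonneg e')]

/-- The indices up to `L` where `l θ ^ j` is not nearly an integer. -/
def farIndices (ρ l θ : ℝ) (L : ℕ) : Finset ℕ :=
  (Finset.range (L + 1)).filter fun j => ρ < |l * θ ^ j - round (l * θ ^ j)|

/-- The transform is small when many indices are far from integers. -/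
theorem norm_charFun_le_exp {θ ρ : ℝ} (hθ : 0 < θ) (hθ1 : 1 < θ) (hρ : 0 ≤ ρ) (l : ℝ) (L : ℕ) :
    ‖charFun (bernoulliConvolution θ) (π * (l * θ ^ L))‖ ≤
      exp (-2 * ρ ^ 2 * (farIndices ρ l θ L).card) := by
  refine (norm_charFun_le hθ1 _ (L + 1)).trans ?_
  rw [← Finset.prod_range_reflect]
  have e : ∀ j ∈ Finset.range (L + 1), |Real.cos (π * (l * θ ^ L) / θ ^ (L + 1 - 1 - j))| =
      |Real.cos (π * (l * θ ^ j))| := fun j hj => by
    have hjL : j ≤ L := Nat.lt_succ_iff.1 (Finset.mem_range.1 hj)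
    rw [show L + 1 - 1 - j = L - j by omega, pow_sub₀ θ hθ.ne' hjL]
    congr 2
    field_simp
  rw [Finset.prod_congr rfl e]
  refine (Finset.prod_le_prod (fun j _ => abs_nonneg _) fun j _ => abs_cos_pi_mul_le _).trans ?_
  rw [← exp_sum, exp_le_exp]
  calc ∑ j ∈ Finset.range (L + 1), -2 * |l * θ ^ j - round (l * θ ^ j)| ^ 2
      ≤ ∑ j ∈ farIndices ρ l θ L, -2 * |l * θ ^ j - round (l * θ ^ j)| ^ 2 := by
        rw [← Finset.sum_filter_add_sum_filter_not (Finset.range (L + 1))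
          (fun j => ρ < |l * θ ^ j - round (l * θ ^ j)|)]
        exact add_le_of_nonpos_right (Finset.sum_nonpos fun j _ => by
          nlinarith [sq_nonneg (|l * θ ^ j - round (l * θ ^ j)|)])
    _ ≤ ∑ _j ∈ farIndices ρ l θ L, -2 * ρ ^ 2 := Finset.sum_le_sum fun j hj => by
        nlinarith [(Finset.mem_filter.1 hj).2]
    _ = _ := by rw [Finset.sum_const, nsmul_eq_mul]; ring

/-- The integers rebuilt from two of them and the corrections. -/
def rebuild (k₀ k₁ : ℤ) (δ : ℕ → ℤ) : ℕ → ℤ × ℤ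
  | 0 => (k₀, k₁)
  | j + 1 => ((rebuild k₀ k₁ δ j).2,
      round (((rebuild k₀ k₁ δ j).2 : ℝ) ^ 2 / (rebuild k₀ k₁ δ j).1) + δ j)

theorem rebuild_eq (K δ : ℕ → ℤ) : ∀ {N : ℕ},
    (∀ j < N, K (j + 2) = round ((K (j + 1) : ℝ) ^ 2 / K j) + δ j) →
    rebuild (K 0) (K 1) δ N = (K N, K (N + 1))
  | 0, _ => rfl
  | N + 1, h => by
    rw [rebuild, rebuild_eq K δ fun j hj => h j (hj.trans (Nat.lt_succ_self N)),
      h N (Nat.lt_succ_self N)]

/-- The corrections with few nonzero terms. -/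
def sparseWords (D : ℤ) (q N : ℕ) : Finset (Fin N → ℤ) :=
  (Fintype.piFinset fun _ => Finset.Icc (-D) D).filter fun δ =>
    (Finset.univ.filter fun j => δ j ≠ 0).card * q ≤ 3 * N

theorem card_sparseWords_le {D : ℕ} {σ : ℝ} (hσ0 : 0 < σ) (hσ1 : σ ≤ 1) (q N : ℕ) :
    ((sparseWords D q N).card : ℝ) * σ ^ (3 * N) ≤ (1 + 2 * D * σ ^ q) ^ N := by
  classical
  calc ((sparseWords D q N).card : ℝ) * σ ^ (3 * N)
      = ∑ _δ ∈ sparseWords D q N, σ ^ (3 * N) := by rw [Finset.sum_const, nsmul_eq_mul]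
    _ ≤ ∑ δ ∈ sparseWords D q N, ∏ j, if δ j = 0 then 1 else σ ^ q :=
        Finset.sum_le_sum fun δ hδ => by
          rw [Finset.prod_ite, Finset.prod_const_one, one_mul, Finset.prod_const, ← pow_mul]
          refine pow_le_pow_of_le_one hσ0.le hσ1 ?_
          rw [mul_comm]
          exact (Finset.mem_filter.1 hδ).2
    _ ≤ ∑ δ ∈ Fintype.piFinset fun _ : Fin N => Finset.Icc (-(D : ℤ)) D,
          ∏ j, if δ j = 0 then 1 else σ ^ q :=
        Finset.sum_le_sum_of_subset_of_nonneg (Finset.filter_subset _ _) fun δ _ _ =>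
          Finset.prod_nonneg fun j _ => by split_ifs <;> positivity
    _ = _ := by
        rw [Finset.sum_prod_piFinset (Finset.Icc (-(D : ℤ)) D)
          fun (_ : Fin N) (z : ℤ) => if z = 0 then (1 : ℝ) else σ ^ q, Finset.prod_const,
          Finset.card_univ, Fintype.card_fin, ← Finset.add_sum_erase _ _
            (show (0 : ℤ) ∈ Finset.Icc (-(D : ℤ)) D by simp), if_pos rfl,
          Finset.sum_congr rfl (g := fun _ => σ ^ q) fun z hz => if_neg (Finset.ne_of_mem_erase hz),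
          Finset.sum_const, Finset.card_erase_of_mem (by simp), Int.card_Icc, nsmul_eq_mul]
        congr 2
        rw [show ((D : ℤ) + 1 - -(D : ℤ)).toNat - 1 = 2 * D by omega]
        push_cast
        ring

/-- The exceptional bases at the scale `N`. -/
def badBases (a b ρ : ℝ) (q N : ℕ) : Set ℝ :=
  {θ | θ ∈ Set.Icc a b ∧ ∃ l ∈ Set.Icc 1 θ, (farIndices ρ l θ (N + 1)).card * q < N}

theorem badBases_subset {a b : ℝ} (ha : 1 ≤ a) {q N : ℕ} :
    badBases a b (1 / (4 * (1 + 2 * errRate b))) q N ⊆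
      ⋃ k₀ ∈ Finset.Icc 1 ⌈b + 1⌉, ⋃ k₁ ∈ Finset.Icc 1 ⌈b ^ 2 + 1⌉,
        ⋃ δ ∈ sparseWords (⌈errRate b⌉₊ + 1 : ℕ) q N,
          Metric.closedBall
            (((rebuild k₀ k₁ (fun j => if h : j < N then δ ⟨j, h⟩ else 0) N).2 : ℝ) /
              (rebuild k₀ k₁ (fun j => if h : j < N then δ ⟨j, h⟩ else 0) N).1)
            ((b + 1) / a ^ N) := by
  classical
  rintro θ ⟨hθ, l, hl, hcard⟩
  have hθ1 : 1 ≤ θ := ha.trans hθ.1
  have hb : 1 ≤ b := hθ1.trans hθ.2
  have hB : 0 < errRate b := by unfold errRate; positivity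
  set ρ := 1 / (4 * (1 + 2 * errRate b)) with hρ
  set x : ℕ → ℝ := fun j => l * θ ^ j with hx
  set K : ℕ → ℤ := fun j => round (x j) with hK
  have hx1 : ∀ j, 1 ≤ x j := fun j => one_le_mul_of_one_le_of_one_le hl.1 (one_le_pow₀ hθ1)
  have he : ∀ j, |(K j : ℝ) - x j| ≤ 1 / 2 := fun j => by
    rw [abs_sub_comm]; exact abs_sub_round _
  have hK1 : ∀ j, 1 ≤ K j := fun j => by
    by_contra hlt
    have hle : K j ≤ 0 := by omega
    have : ((K j : ℤ) : ℝ) ≤ 0 := by exact_mod_cast hle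
    linarith [(abs_le.1 (he j)).1, hx1 j]
  have hK1' : ∀ j, (1 : ℝ) ≤ K j := fun j => by exact_mod_cast hK1 j
  have hxs : ∀ j, x (j + 1) = θ * x j := fun j => by simp only [hx, pow_succ]; ring
  have hstep : ∀ j, |(K (j + 2) : ℝ) - (K (j + 1) : ℝ) ^ 2 / K j| ≤
      |(K (j + 2) : ℝ) - x (j + 2)| +
        errRate b * (|(K j : ℝ) - x j| + |(K (j + 1) : ℝ) - x (j + 1)|) := fun j => by
    have h := abs_sq_div_sub_le (K' := (K (j + 1) : ℝ)) (zero_le_one.trans hθ1) hθ.2 (hx1 j)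
      (hK1' j) (he j) (hxs j ▸ he (j + 1))
    rw [← hxs j] at h
    rw [show θ ^ 2 * x j = x (j + 2) by rw [hxs, hxs]; ring] at h
    exact (abs_sub_le _ (x (j + 2)) _).trans (add_le_add le_rfl (by rwa [abs_sub_comm]))
  set Δ : ℕ → ℤ := fun j => K (j + 2) - round ((K (j + 1) : ℝ) ^ 2 / K j) with hΔ
  have hΔD : ∀ j, |Δ j| ≤ ((⌈errRate b⌉₊ + 1 : ℕ) : ℤ) := fun j => by
    rw [← Int.cast_le (R := ℝ), Int.cast_abs, hΔ]
    push_cast
    refine (abs_sub_le _ ((K (j + 1) : ℝ) ^ 2 / K j) _).trans ?_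
    have := Nat.le_ceil (errRate b)
    have := abs_sub_round ((K (j + 1) : ℝ) ^ 2 / K j)
    nlinarith [hstep j, he j, he (j + 1), he (j + 2)]
  have hΔ0 : ∀ j, j < N → Δ j ≠ 0 → j ∈ farIndices ρ l θ (N + 1) ∨
      j + 1 ∈ farIndices ρ l θ (N + 1) ∨ j + 2 ∈ farIndices ρ l θ (N + 1) := fun j hj hne => by
    by_contra hcon
    simp only [farIndices, Finset.mem_filter, Finset.mem_range, not_or, not_and, not_lt] at hcon
    have hg : ∀ i, i < N + 1 + 1 → (|x i - round (x i)| ≤ ρ) → |(K i : ℝ) - x i| ≤ ρ :=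
      fun i _ hi => by rw [abs_sub_comm]; exact hi
    have h0 := hg j (by omega) (hcon.1 (by omega))
    have h1 := hg (j + 1) (by omega) (hcon.2.1 (by omega))
    have h2 := hg (j + 2) (by omega) (hcon.2.2 (by omega))
    refine hne (sub_eq_zero.2 (Eq.symm (round_eq_iff.2 ?_)))
    have hlt : ρ + errRate b * (ρ + ρ) < 1 / 2 := by
      rw [show ρ + errRate b * (ρ + ρ) = ρ * (1 + 2 * errRate b) by ring, hρ,
        div_mul_eq_mul_div, div_lt_iff₀ (by positivity)]
      linarith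
    have h3 := abs_lt.1 ((hstep j).trans_lt (lt_of_le_of_lt
      (add_le_add h2 (mul_le_mul_of_nonneg_left (add_le_add h0 h1) hB.le)) hlt))
    constructor <;> linarith [h3.1, h3.2]
  set δ : Fin N → ℤ := fun j => Δ j with hδ
  have hδS : δ ∈ sparseWords ((⌈errRate b⌉₊ + 1 : ℕ) : ℤ) q N := by
    rw [sparseWords, Finset.mem_filter, Fintype.mem_piFinset]
    refine ⟨fun j => Finset.mem_Icc.2 (abs_le.1 (hΔD j)), ?_⟩
    have hsub : (Finset.univ.filter fun j => δ j ≠ 0).card ≤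
        3 * (farIndices ρ l θ (N + 1)).card := by
      set F := farIndices ρ l θ (N + 1)
      refine le_trans (Finset.card_le_card_of_injOn (fun j : Fin N => (j : ℕ))
        (t := F ∪ F.image (· - 1) ∪ F.image (· - 2)) (fun j hj => ?_)
        fun j _ i _ h => Fin.ext h) ?_
      · simp only [Finset.coe_filter, Finset.mem_univ, true_and, Set.mem_ofPred_eq] at hj
        simp only [Finset.coe_union, Set.mem_union, Finset.mem_coe, Finset.mem_image]
        rcases hΔ0 j j.2 hj with h | h | h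
        · exact Or.inl (Or.inl h)
        · exact Or.inl (Or.inr ⟨_, h, by omega⟩)
        · exact Or.inr ⟨_, h, by omega⟩
      · refine (Finset.card_union_le _ _).trans ?_
        have := Finset.card_union_le F (F.image (· - 1))
        have := Finset.card_image_le (s := F) (f := (· - 1))
        have := Finset.card_image_le (s := F) (f := (· - 2))
        omega
    calc _ ≤ 3 * (farIndices ρ l θ (N + 1)).card * q := Nat.mul_le_mul_right q hsub
      _ ≤ 3 * N := by rw [mul_assoc]; exact Nat.mul_le_mul_left 3 hcard.le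
  have hreb : rebuild (K 0) (K 1) (fun j => if h : j < N then δ ⟨j, h⟩ else 0) N =
      (K N, K (N + 1)) := rebuild_eq K _ fun j hj => by
    rw [dif_pos hj]
    simp only [hδ, hΔ]
    ring
  have hKle : ∀ j, (K j : ℝ) ≤ x j + 1 / 2 := fun j => by linarith [(abs_le.1 (he j)).2]
  refine Set.mem_biUnion (x := K 0) ?_ (Set.mem_biUnion (x := K 1) ?_
    (Set.mem_biUnion (x := δ) hδS ?_))
  · refine Finset.mem_Icc.2 ⟨hK1 0, ?_⟩
    rw [← Int.cast_le (R := ℝ)]
    refine le_trans ?_ (Int.le_ceil _)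
    have h0 : x 0 = l := by simp [hx]
    linarith [hKle 0, hl.2, hθ.2]
  · refine Finset.mem_Icc.2 ⟨hK1 1, ?_⟩
    rw [← Int.cast_le (R := ℝ)]
    refine le_trans ?_ (Int.le_ceil _)
    have h1 : x 1 = l * θ := by simp [hx]
    nlinarith [hKle 1, hl.1, hl.2, hθ.2]
  rw [hreb, Metric.mem_closedBall, Real.dist_eq]
  have hKN : 0 < (K N : ℝ) := by linarith [hK1' N]
  rw [sub_div' hKN.ne', abs_div, abs_of_pos hKN, div_le_iff₀ hKN]
  have haN : a ^ N ≤ 2 * K N := by
    have h1 : a ^ N ≤ x N := (pow_le_pow_left₀ (zero_le_one.trans ha) hθ.1 N).trans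
      (le_mul_of_one_le_left (by positivity) hl.1)
    linarith [(abs_le.1 (he N)).1, hK1' N]
  have hnum : |θ * K N - K (N + 1)| ≤ (b + 1) / 2 := by
    rw [show θ * (K N : ℝ) - K (N + 1) = θ * ((K N : ℝ) - x N) - ((K (N + 1) : ℝ) - x (N + 1)) by
      rw [hxs]; ring]
    refine (abs_sub _ _).trans ?_
    rw [abs_mul, abs_of_nonneg (zero_le_one.trans hθ1)]
    nlinarith [he N, he (N + 1), hθ.2, abs_nonneg ((K N : ℝ) - x N)]
  have haN0 : 0 < a ^ N := pow_pos (zero_lt_one.trans_le ha) N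
  calc |θ * K N - K (N + 1)| ≤ (b + 1) / 2 := hnum
    _ = (b + 1) / 2 * 1 := (mul_one _).symm
    _ ≤ (b + 1) / 2 * (2 * K N / a ^ N) := mul_le_mul_of_nonneg_left
        ((one_le_div haN0).2 haN) (by linarith)
    _ = _ := by ring

/-- **The theorem of Erdős and Kahane** on an interval, with a uniform exponent. -/
theorem ae_rpow_decay {a b : ℝ} (ha : 1 < a) (hab : a ≤ b) :
    ∃ γ : ℝ, 0 < γ ∧ ∀ᵐ θ ∂(volume : Measure ℝ), θ ∈ Set.Icc a b →
      ∃ C : ℝ, ∀ t : ℝ, t ≠ 0 → ‖charFun (bernoulliConvolution θ) t‖ ≤ C * |t| ^ (-γ) := by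
  have ha0 : 0 < a := zero_lt_one.trans ha
  have hb : 1 < b := ha.trans_le hab
  have hB : 0 < errRate b := by unfold errRate; positivity
  set ρ := 1 / (4 * (1 + 2 * errRate b)) with hρ
  have hρ0 : 0 < ρ := by positivity
  set D := ⌈errRate b⌉₊ + 1
  set σ : ℝ := a ^ (-(1 : ℝ) / 4) with hσ
  have hσ0 : 0 < σ := rpow_pos_of_pos ha0 _
  have hσ1 : σ < 1 := rpow_lt_one_of_one_lt_of_neg ha (by norm_num)
  have hσa : σ ^ 3 * a > 1 := by
    rw [hσ, ← rpow_natCast (a ^ (-(1 : ℝ) / 4)) 3, ← rpow_mul ha0.le]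
    calc (1 : ℝ) < a ^ (1 / 4 : ℝ) := one_lt_rpow ha (by norm_num)
      _ = _ := by
        rw [← rpow_add_one ha0.ne']
        norm_num
  obtain ⟨q, hq⟩ : ∃ q : ℕ, (1 + 2 * D * σ ^ q) < σ ^ 3 * a := by
    have h : Tendsto (fun q : ℕ => 1 + 2 * (D : ℝ) * σ ^ q) atTop (𝓝 (1 + 2 * D * 0)) :=
      ((tendsto_pow_atTop_nhds_zero_of_lt_one hσ0.le hσ1).const_mul _).const_add _
    rw [mul_zero, add_zero] at h
    exact (h.eventually_lt_const hσa).exists
  set p := (1 + 2 * D * σ ^ q) / (σ ^ 3 * a) with hp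
  have hp0 : 0 ≤ p := by positivity
  have hp1 : p < 1 := (div_lt_one (by positivity)).2 hq
  set Q : ℝ := (Finset.Icc 1 ⌈b + 1⌉).card * (Finset.Icc 1 ⌈b ^ 2 + 1⌉).card * (2 * (b + 1))
  have hQ : 0 ≤ Q := by positivity
  have hvol : ∀ N, volume (badBases a b ρ q N) ≤ ENNReal.ofReal (Q * p ^ N) := fun N => by
    refine (measure_mono (badBases_subset ha.le)).trans ((measure_biUnion_finset_le _ _).trans
      ((Finset.sum_le_sum fun k₀ _ => (measure_biUnion_finset_le _ _).trans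
        (Finset.sum_le_sum fun k₁ _ => (measure_biUnion_finset_le _ _).trans
          (Finset.sum_le_sum (g := fun _ => ENNReal.ofReal (2 * ((b + 1) / a ^ N))) fun δ _ =>
            (Real.volume_closedBall _ _).le))).trans ?_))
    simp only [Finset.sum_const, nsmul_eq_mul]
    rw [← ENNReal.ofReal_natCast, ← ENNReal.ofReal_natCast, ← ENNReal.ofReal_natCast,
      ← ENNReal.ofReal_mul (by positivity), ← ENNReal.ofReal_mul (by positivity),
      ← ENNReal.ofReal_mul (by positivity)]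
    refine ENNReal.ofReal_le_ofReal ?_
    have hcard := card_sparseWords_le (D := D) hσ0 hσ1.le q N
    rw [← le_div_iff₀ (by positivity)] at hcard
    refine le_trans (mul_le_mul_of_nonneg_left (mul_le_mul_of_nonneg_left
      (mul_le_mul_of_nonneg_right hcard (by positivity)) (by positivity)) (by positivity)) ?_
    refine le_of_eq ?_
    simp only [Q, hp, div_pow, mul_pow, pow_mul]
    field_simp
  have hfin : ∑' N, volume (badBases a b ρ q N) ≠ ∞ := by
    refine ne_top_of_le_ne_top ?_ (ENNReal.tsum_le_tsum hvol)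
    rw [← ENNReal.ofReal_tsum_of_nonneg (fun N => by positivity)
      ((summable_geometric_of_lt_one hp0 hp1).mul_left Q)]
    exact ENNReal.ofReal_ne_top
  have hq0 : 0 < q := by
    rcases Nat.eq_zero_or_pos q with rfl | h
    · rw [pow_zero, mul_one] at hq
      have hD1 : (1 : ℝ) ≤ D := by exact_mod_cast Nat.le_add_left 1 _
      have hσle : σ ^ 3 * a ≤ b :=
        (mul_le_of_le_one_left ha0.le (pow_le_one₀ hσ0.le hσ1.le)).trans hab
      have hDb : errRate b ≤ D := (Nat.le_ceil _).trans (Nat.cast_le.2 (Nat.le_succ _))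
      unfold errRate at hDb
      nlinarith
    · exact h
  set γ := 2 * ρ ^ 2 / (q * log b) with hγ
  have hlb : 0 < log b := log_pos hb
  have hγ0 : 0 < γ := by positivity
  refine ⟨γ, hγ0, ?_⟩
  filter_upwards [ae_eventually_notMem hfin] with θ hev hθ
  obtain ⟨N₀, hN₀⟩ := eventually_atTop.1 hev
  have hθ1 : 1 < θ := ha.trans_le hθ.1
  have hθ0 : 0 < θ := zero_lt_one.trans hθ1
  set C := (π * b ^ (N₀ + 2)) ^ γ + π ^ γ * exp (2 * log b * γ) with hC
  refine ⟨C, fun t ht => ?_⟩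
  wlog htp : 0 < t generalizing t
  · have h := this (-t) (neg_ne_zero.2 ht) (by
      rcases lt_or_gt_of_ne ht with h' | h'
      · linarith
      · exact absurd h' htp)
    rwa [charFun_neg, Complex.norm_conj, abs_neg] at h
  have htγ : 0 < t ^ γ := rpow_pos_of_pos htp _
  rw [abs_of_pos htp, rpow_neg htp.le, ← div_eq_mul_inv, le_div_iff₀ htγ]
  rcases lt_or_ge t (π * b ^ (N₀ + 2)) with hsmall | hbig
  · calc ‖charFun (bernoulliConvolution θ) t‖ * t ^ γ ≤ 1 * (π * b ^ (N₀ + 2)) ^ γ := by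
          have := isProbabilityMeasure_bernoulliConvolution hθ1
          gcongr
          exact norm_charFun_le_one t
      _ ≤ C := by
          rw [one_mul, hC]
          exact le_add_of_nonneg_right (by positivity)
  have hy : θ ^ (N₀ + 2) ≤ t / π := by
    rw [le_div_iff₀ pi_pos]
    calc θ ^ (N₀ + 2) * π ≤ b ^ (N₀ + 2) * π := by gcongr; exact hθ.2
      _ ≤ t := by linarith
  obtain ⟨L, hL1, hL2⟩ := exists_nat_pow_near ((one_le_pow₀ hθ1.le).trans hy) hθ1
  have hLN : N₀ + 1 < L + 1 := by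
    have := (pow_lt_pow_iff_right₀ hθ1).1 (hy.trans_lt hL2)
    omega
  obtain ⟨N, rfl⟩ : ∃ N, L = N + 1 := ⟨L - 1, by omega⟩
  set l := t / π / θ ^ (N + 1) with hl
  have hlI : l ∈ Set.Icc 1 θ := ⟨(one_le_div (by positivity)).2 hL1,
    (div_le_iff₀ (by positivity)).2 (by rw [← pow_succ']; exact hL2.le)⟩
  have hcard : N ≤ (farIndices ρ l θ (N + 1)).card * q := by
    by_contra hlt
    exact hN₀ N (by omega) ⟨hθ, l, hlI, not_le.1 hlt⟩
  have hexp := norm_charFun_le_exp hθ0 hθ1 hρ0.le l (N + 1)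
  rw [show π * (l * θ ^ (N + 1)) = t by rw [hl]; field_simp] at hexp
  have hcard' : (N : ℝ) ≤ ((farIndices ρ l θ (N + 1)).card : ℝ) * q := by exact_mod_cast hcard
  have hdec : -2 * ρ ^ 2 * (farIndices ρ l θ (N + 1)).card ≤ -(log b * γ) * N := by
    have : log b * γ = 2 * ρ ^ 2 / q := by rw [hγ]; field_simp
    rw [this]
    simp only [neg_mul, neg_le_neg_iff]
    rw [div_mul_eq_mul_div, div_le_iff₀ (by exact_mod_cast hq0 : (0 : ℝ) < q)]
    nlinarith [sq_nonneg ρ]
  have htN : t ^ γ ≤ π ^ γ * exp (log b * γ * ((N : ℝ) + 2)) := by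
    have h1 : t ≤ π * b ^ (N + 2) := by
      have : t / π ≤ b ^ (N + 2) := hL2.le.trans (pow_le_pow_left₀ hθ0.le hθ.2 _)
      rw [div_le_iff₀ pi_pos] at this
      linarith
    refine (rpow_le_rpow htp.le h1 hγ0.le).trans_eq ?_
    rw [mul_rpow pi_pos.le (by positivity), rpow_def_of_pos (x := b ^ (N + 2)) (by positivity),
      log_pow]
    push_cast
    ring_nf
  calc ‖charFun (bernoulliConvolution θ) t‖ * t ^ γ
      ≤ exp (-(log b * γ) * N) * (π ^ γ * exp (log b * γ * ((N : ℝ) + 2))) := by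
        gcongr
        exact hexp.trans (exp_le_exp.2 hdec)
    _ = π ^ γ * exp (2 * log b * γ) := by
        rw [mul_left_comm, ← exp_add]
        ring_nf
    _ ≤ C := le_add_of_nonneg_left (by positivity)

theorem prod_range_mul_split {M : Type*} [CommMonoid M] (f : ℕ → M) (k : ℕ) : ∀ n : ℕ,
    ∏ i ∈ Finset.range (k * n), f i = ∏ i ∈ Finset.range k, ∏ q ∈ Finset.range n, f (k * q + i)
  | 0 => by simp
  | n + 1 => by
    rw [mul_add_one, Finset.prod_range_add, prod_range_mul_split f k n, ← Finset.prod_mul_distrib]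
    exact Finset.prod_congr rfl fun i _ => (Finset.prod_range_succ _ _).symm

/-- **Splitting the transform** by a power of the base. -/
theorem charFun_split {θ : ℝ} (hθ : 1 < θ) {k : ℕ} (hk : 0 < k) (t : ℝ) :
    charFun (bernoulliConvolution θ) t =
      ∏ i ∈ Finset.range k, charFun (bernoulliConvolution (θ ^ k)) (t / θ ^ i) := by
  have hθk : 1 < θ ^ k := one_lt_pow₀ hθ hk.ne'
  refine tendsto_nhds_unique
    ((charFun_eq hθ t).comp (tendsto_id.const_mul_atTop' hk : Tendsto (fun n => k * n) atTop atTop))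
    ((tendsto_finsetProd _ fun i _ => charFun_eq hθk (t / θ ^ i)).congr fun n => ?_)
  rw [Function.comp_apply, prod_range_mul_split]
  refine Finset.prod_congr rfl fun i _ => Finset.prod_congr rfl fun q _ => ?_
  rw [div_div, ← pow_mul, ← pow_add, add_comm]

/-- **Erdős's theorem near `1`**: decay of any order. -/
theorem ae_decay_near_one (m : ℕ) :
    ∃ η : ℝ, 0 < η ∧ ∀ᵐ θ ∂(volume : Measure ℝ), θ ∈ Set.Ioo 1 (1 + η) →
      ∃ C : ℝ, ∀ t : ℝ, 1 ≤ |t| →
        ‖charFun (bernoulliConvolution θ) t‖ ≤ C * |t| ^ (-(m : ℝ)) := by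
  obtain ⟨γ, hγ, hae⟩ := ae_rpow_decay (a := 2) (b := 4) one_lt_two (by norm_num)
  obtain ⟨k₀, hk₀⟩ := exists_nat_gt ((m : ℝ) / γ)
  have hk₀1 : 0 < k₀ := by
    have : (0 : ℝ) < k₀ := lt_of_le_of_lt (by positivity) hk₀
    exact_mod_cast this
  set η := (2 : ℝ) ^ ((k₀ : ℝ)⁻¹) - 1 with hη
  have hη0 : 0 < η := sub_pos.2 (one_lt_rpow one_lt_two (by positivity))
  refine ⟨η, hη0, ?_⟩
  have hnull : ∀ k : ℕ, 0 < k → ∀ᵐ θ ∂(volume : Measure ℝ), 0 < θ →
      θ ^ k ∈ Set.Icc (2 : ℝ) 4 → ∃ C : ℝ, ∀ t : ℝ, t ≠ 0 →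
        ‖charFun (bernoulliConvolution (θ ^ k)) t‖ ≤ C * |t| ^ (-γ) := fun k hk => by
    rw [ae_iff] at hae ⊢
    refine measure_mono_null (t := (fun y : ℝ => y ^ ((k : ℝ)⁻¹)) '' {y : ℝ | ¬ (y ∈ Set.Icc 2 4 →
      ∃ C : ℝ, ∀ t : ℝ, t ≠ 0 → ‖charFun (bernoulliConvolution y) t‖ ≤ C * |t| ^ (-γ))}) ?_ ?_
    · intro θ hθ
      simp only [Set.mem_ofPred_eq, Classical.not_imp] at hθ
      refine ⟨θ ^ k, ?_, ?_⟩
      · simp only [Set.mem_ofPred_eq, Classical.not_imp]
        exact hθ.2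
      · exact pow_rpow_inv_natCast hθ.1.le hk.ne'
    · refine addHaar_image_eq_zero_of_differentiableOn_of_addHaar_eq_zero volume (fun y hy => ?_)
        hae
      simp only [Set.mem_ofPred_eq, Classical.not_imp] at hy
      exact (Real.differentiableAt_rpow_const_of_ne _ (by linarith [hy.1.1])).differentiableWithinAt
  filter_upwards [ae_all_iff.2 fun k => ae_all_iff.2 (hnull k)] with θ hθ hI
  have hθ0 : 0 < θ := by linarith [hI.1]
  have hlt2 : θ ^ k₀ < 2 := by
    calc θ ^ k₀ < ((2 : ℝ) ^ ((k₀ : ℝ)⁻¹)) ^ k₀ :=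
          pow_lt_pow_left₀ (by linarith [hI.2]) hθ0.le hk₀1.ne'
      _ = 2 := rpow_inv_natCast_pow zero_le_two hk₀1.ne'
  obtain ⟨j, hj1, hj2⟩ := exists_nat_pow_near one_le_two hI.1
  have hk : k₀ < j + 1 := (pow_lt_pow_iff_right₀ hI.1).1 (hlt2.trans hj2)
  have h4 : θ ^ (j + 1) ≤ 4 := by
    rw [pow_succ]
    have hθ2 : θ ≤ 2 := (le_self_pow₀ hI.1.le hk₀1.ne').trans hlt2.le
    nlinarith [pow_pos hθ0 j]
  set k := j + 1
  obtain ⟨C, hC⟩ := hθ k (Nat.succ_pos j) hθ0 ⟨hj2.le, h4⟩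
  have hC0 : 0 ≤ C := by
    have := (norm_nonneg _).trans (hC 1 one_ne_zero)
    simpa using this
  refine ⟨(C * 4 ^ γ) ^ k, fun t ht => ?_⟩
  have ht0 : t ≠ 0 := fun h => by rw [h, abs_zero] at ht; linarith
  rw [charFun_split hI.1 (Nat.succ_pos j), norm_prod]
  calc ∏ i ∈ Finset.range k, ‖charFun (bernoulliConvolution (θ ^ k)) (t / θ ^ i)‖
      ≤ ∏ _i ∈ Finset.range k, C * 4 ^ γ * |t| ^ (-γ) := by
        refine Finset.prod_le_prod (fun i _ => norm_nonneg _) fun i hi => ?_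
        refine (hC _ (div_ne_zero ht0 (pow_ne_zero i hθ0.ne'))).trans ?_
        rw [abs_div, abs_of_pos (pow_pos hθ0 i), div_rpow (abs_nonneg t) (by positivity),
          rpow_neg (by positivity) γ (x := θ ^ i), div_inv_eq_mul, mul_assoc, mul_comm (4 ^ γ)]
        gcongr
        exact (pow_le_pow_right₀ hI.1.le (Finset.mem_range.1 hi).le).trans h4
    _ = (C * 4 ^ γ) ^ k * |t| ^ (-γ * k) := by
        rw [Finset.prod_const, Finset.card_range, mul_pow, ← rpow_natCast (|t| ^ (-γ)),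
          ← rpow_mul (abs_nonneg t)]
    _ ≤ _ := mul_le_mul_of_nonneg_left (rpow_le_rpow_of_exponent_le ht (by
        rw [div_lt_iff₀ hγ] at hk₀
        have : (k₀ : ℝ) ≤ k := by exact_mod_cast hk.le
        nlinarith)) (by positivity)

/-- **The theorem of Erdős and Kahane.** -/
theorem ae_exists_rpow_decay : ∀ᵐ θ ∂(volume : Measure ℝ), 1 < θ →
    ∃ γ : ℝ, 0 < γ ∧ ∃ C : ℝ, ∀ t : ℝ, t ≠ 0 →
      ‖charFun (bernoulliConvolution θ) t‖ ≤ C * |t| ^ (-γ) := by
  have h1 : ∀ n : ℕ, (1 : ℝ) < 1 + 1 / ((n : ℝ) + 1) := fun n =>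
    lt_add_of_pos_right _ (by positivity)
  choose γ hγ hae using fun n : ℕ => ae_rpow_decay (a := 1 + 1 / ((n : ℝ) + 1)) (b := (n : ℝ) + 2)
    (h1 n) (by
      have : 1 / ((n : ℝ) + 1) ≤ 1 := by rw [div_le_one (by positivity)]; simp
      linarith [(n.cast_nonneg : (0 : ℝ) ≤ n)])
  filter_upwards [ae_all_iff.2 hae] with θ hθ h
  obtain ⟨n, hn⟩ := exists_nat_one_div_lt (sub_pos.2 h)
  obtain ⟨n', hn'⟩ := exists_nat_gt θ
  set M := max n n'
  have hM1 : 1 / ((M : ℝ) + 1) ≤ 1 / ((n : ℝ) + 1) :=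
    one_div_le_one_div_of_le (by positivity) (by gcongr; exact le_max_left n n')
  have hM2 : (n' : ℝ) ≤ M := Nat.cast_le.2 (le_max_right n n')
  exact ⟨γ M, hγ M, hθ M ⟨by linarith, by linarith⟩⟩

end FA.BernoulliConvolution

end
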