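import Fermat.Agent.BernoulliConvolution.PureType
import Mathlib.Analysis.Complex.Polynomial.Basic
import Mathlib.FieldTheory.Minpoly.IsIntegrallyClosed
import Mathlib.MeasureTheory.Measure.Stieltjes
import Mathlib.RingTheory.Polynomial.Eisenstein.Criterion
import Mathlib.RingTheory.Polynomial.Resultant.Basic

/-!
# Garsia's theorem

Let `θ > 1` be an algebraic integer of norm `± 2` whose conjugates all lie outside the unit circle.
A polynomial with coefficients `0, ± 1` cannot vanish at `θ`, so the product of its values at the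
conjugates is a nonzero integer: the `2 ^ n` partial sums of `∑ ± θ ^ (-k)` of length `n` are
separated by a constant times `2 ^ (-n)`. An interval of length `L` thus has probability `O(L)`,
and the Bernoulli convolution is absolutely continuous with bounded density.
-/

set_option autoImplicit false

noncomputable section

open MeasureTheory Filter Topology Polynomial
open scoped ENNReal

namespace FA.BernoulliConvolution

/-- The product of the values at the roots of a monic integer polynomial is at least `1`. -/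
theorem one_le_prod_norm {p : ℤ[X]} (hp : p.Monic) (P : ℤ[X])
    (hne : ∀ z ∈ (p.map (Int.castRingHom ℂ)).roots, aeval z P ≠ 0) :
    1 ≤ ((p.map (Int.castRingHom ℂ)).roots.map fun z => ‖aeval z P‖).prod := by
  set pc := p.map (Int.castRingHom ℂ) with hpc
  have key : ((resultant p P p.natDegree P.natDegree : ℤ) : ℂ) =
      (pc.roots.map fun z => aeval z P).prod := by
    have h := resultant_eq_prod_eval pc (P.map (Int.castRingHom ℂ)) P.natDegree natDegree_map_le
      (IsAlgClosed.splits _)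
    rw [(hp.map _).leadingCoeff, one_pow, one_mul, hpc, hp.natDegree_map, resultant_map_map,
      ← hpc] at h
    rw [← eq_intCast (Int.castRingHom ℂ), h]
    congr 1
    refine Multiset.map_congr rfl fun z _ => ?_
    rw [eval_map, aeval_def, algebraMap_int_eq]
  have hnorm : ‖(pc.roots.map fun z => aeval z P).prod‖ =
      (pc.roots.map fun z => ‖aeval z P‖).prod := by
    rw [← normHom_apply, map_multiset_prod, Multiset.map_map]
    rfl
  rw [← hnorm, ← key, Complex.norm_intCast, ← Int.cast_abs]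
  refine Int.cast_one_le_of_pos (abs_pos.2 fun h0 => ?_)
  rw [h0, Int.cast_zero, eq_comm, Multiset.prod_eq_zero_iff, Multiset.mem_map] at key
  obtain ⟨z, hz, hz0⟩ := key
  exact hne z hz hz0

/-- A polynomial with coefficients of size at most `1` is not a multiple of one with constant
coefficient of size `2`. -/
theorem not_dvd_of_coeff {p P : ℤ[X]} (h2 : |p.coeff 0| = 2) (hP : P ≠ 0)
    (hb : ∀ j, |P.coeff j| ≤ 1) : ¬ p ∣ P := by
  rintro ⟨Q, hQ⟩
  have h0 : p.coeff 0 ≠ 0 := fun h => by simp [h] at h2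
  have hQ0 : Q ≠ 0 := fun h => hP (by rw [hQ, h, mul_zero])
  have e : P.trailingCoeff = p.coeff 0 * Q.trailingCoeff := by
    rw [hQ, trailingCoeff_mul, trailingCoeff, natTrailingDegree_eq_zero.2 (Or.inr h0)]
  have h1 : |P.trailingCoeff| ≤ 1 := hb _
  rw [e, abs_mul, h2] at h1
  have := Int.one_le_abs (trailingCoeff_nonzero_iff_nonzero.2 hQ0)
  omega

theorem norm_aeval_le {z : ℂ} (hz : 1 < ‖z‖) {n : ℕ} (e : Fin n → ℤ) (he : ∀ j, |e j| ≤ 1) :
    ‖∑ j : Fin n, (e j : ℂ) * z ^ (j : ℕ)‖ ≤ ‖z‖ ^ n / (‖z‖ - 1) := by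
  calc ‖∑ j : Fin n, (e j : ℂ) * z ^ (j : ℕ)‖ ≤ ∑ j : Fin n, ‖z‖ ^ (j : ℕ) := by
        refine norm_sum_le_of_le _ fun j _ => ?_
        rw [norm_mul, norm_pow, Complex.norm_intCast]
        refine mul_le_of_le_one_left (by positivity) ?_
        exact_mod_cast he j
    _ = (‖z‖ ^ n - 1) / (‖z‖ - 1) := by
        rw [Fin.sum_univ_eq_sum_range fun j => ‖z‖ ^ j, geom_sum_eq hz.ne']
    _ ≤ _ := by
        have : 0 < ‖z‖ - 1 := by linarith
        gcongr
        linarith

/-- **The lower bound.** A `0, ± 1` polynomial of length `n` is at least `K (θ / 2) ^ n` at `θ`. -/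
theorem exists_le_abs_eval {θ : ℝ} (hθ : 1 < θ) (hint : IsIntegral ℤ θ)
    (h2 : |(minpoly ℤ θ).coeff 0| = 2)
    (hconj : ∀ z : ℂ, aeval z (minpoly ℤ θ) = 0 → 1 < ‖z‖) :
    ∃ K : ℝ, 0 < K ∧ ∀ (n : ℕ) (e : Fin n → ℤ), (∀ j, |e j| ≤ 1) → e ≠ 0 →
      K * (θ / 2) ^ n ≤ |∑ j : Fin n, (e j : ℝ) * θ ^ (j : ℕ)| := by
  classical
  set p := minpoly ℤ θ with hp
  have hm : p.Monic := minpoly.monic hint
  set pc := p.map (Int.castRingHom ℂ) with hpc
  have hroot : ∀ z : ℂ, z ∈ pc.roots ↔ aeval z p = 0 := fun z => by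
    rw [mem_roots (hm.map _).ne_zero, IsRoot.def, eval_map, aeval_def, algebraMap_int_eq]
  have hθmem : (θ : ℂ) ∈ pc.roots := by
    rw [hroot, ← Complex.coe_algebraMap, aeval_algebraMap_apply, hp, minpoly.aeval, map_zero]
  obtain ⟨R, hR⟩ := Multiset.exists_cons_of_mem hθmem
  have hR1 : ∀ z ∈ R, 1 < ‖z‖ := fun z hz =>
    hconj z ((hroot z).1 (hR ▸ Multiset.mem_cons_of_mem hz))
  have hnormθ : ‖(θ : ℂ)‖ = θ := by
    rw [Complex.norm_real, Real.norm_of_nonneg (zero_lt_one.trans hθ).le]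
  have hnorm : θ * (R.map norm).prod = 2 := by
    have h := congrArg norm ((IsAlgClosed.splits pc).coeff_zero_eq_prod_roots_of_monic (hm.map _))
    rw [norm_mul, norm_pow, norm_neg, norm_one, one_pow, one_mul, hpc, coeff_map, eq_intCast,
      Complex.norm_intCast, ← hpc, ← normHom_apply, map_multiset_prod, hR, Multiset.map_cons,
      Multiset.prod_cons, normHom_apply, hnormθ, ← Int.cast_abs, h2] at h
    rw [show (R.map norm).prod = (R.map fun z => normHom z).prod from rfl]
    simpa using h.symm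
  set M := (R.map fun z => ‖z‖ - 1).prod with hM
  have hM0 : 0 < M := by
    refine Multiset.prod_pos fun x hx => ?_
    obtain ⟨z, hz, rfl⟩ := Multiset.mem_map.1 hx
    linarith [hR1 z hz]
  refine ⟨M, hM0, fun n e he hne => ?_⟩
  set P : ℤ[X] := ∑ j : Fin n, C (e j) * X ^ (j : ℕ) with hP
  have hcoeff : ∀ i : Fin n, P.coeff (i : ℕ) = e i := fun i => by
    simp [hP, finsetSum_coeff, coeff_X_pow, Fin.val_inj]
  have hb : ∀ j, |P.coeff j| ≤ 1 := fun j => by
    by_cases hj : j < n
    · rw [show j = ((⟨j, hj⟩ : Fin n) : ℕ) from rfl, hcoeff]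
      exact he _
    · simp [hP, finsetSum_coeff, coeff_X_pow,
        fun i : Fin n => (ne_of_lt (lt_of_lt_of_le i.2 (not_lt.1 hj))).symm]
  have hP0 : P ≠ 0 := by
    obtain ⟨i, hi⟩ := Function.ne_iff.1 hne
    exact fun h => hi (by rw [← hcoeff, h, coeff_zero]; rfl)
  have haev : ∀ z : ℂ, aeval z P = ∑ j : Fin n, (e j : ℂ) * z ^ (j : ℕ) := fun z => by
    simp [hP, map_sum]
  have hnv : ∀ z ∈ pc.roots, aeval z P ≠ 0 := fun z hz hz0 => by
    have hzi : IsIntegral ℤ z := ⟨p, hm, by simpa [aeval_def] using (hroot z).1 hz⟩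
    have hass := (minpoly.irreducible hzi).associated_of_dvd (minpoly.irreducible hint)
      (minpoly.isIntegrallyClosed_dvd hzi ((hroot z).1 hz))
    exact not_dvd_of_coeff h2 hP0 hb
      (hass.symm.dvd.trans (minpoly.isIntegrallyClosed_dvd hzi hz0))
  have h1 := one_le_prod_norm hm P hnv
  rw [hR, Multiset.map_cons, Multiset.prod_cons] at h1
  have hprod : (R.map fun z => ‖aeval z P‖).prod ≤ (2 / θ) ^ n / M := by
    calc (R.map fun z => ‖aeval z P‖).prod ≤ (R.map fun z => ‖z‖ ^ n / (‖z‖ - 1)).prod :=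
          Multiset.prod_map_le_prod_map₀ _ _ (fun z _ => norm_nonneg _) fun z hz => by
            rw [haev]
            exact norm_aeval_le (hR1 z hz) e he
      _ = _ := by
          rw [Multiset.prod_map_div, Multiset.prod_map_pow, hM, ← hnorm,
            mul_div_cancel_left₀ _ (zero_lt_one.trans hθ).ne']
  have e2 : ‖aeval (θ : ℂ) P‖ = |∑ j : Fin n, (e j : ℝ) * θ ^ (j : ℕ)| := by
    rw [haev, ← Real.norm_eq_abs, ← Complex.norm_real]
    push_cast
    rfl
  rw [← e2]
  have h2n : 0 < (2 / θ) ^ n := by positivity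
  have h3 : 1 ≤ ‖aeval (θ : ℂ) P‖ * ((2 / θ) ^ n / M) :=
    h1.trans (mul_le_mul_of_nonneg_left hprod (norm_nonneg _))
  rw [← mul_div_assoc, le_div_iff₀ hM0, one_mul] at h3
  rwa [show θ / 2 = (2 / θ)⁻¹ by rw [inv_div], inv_pow, ← div_eq_mul_inv, div_le_iff₀ h2n]

/-- A word's partial sum. -/
def wordSum (θ : ℝ) {n : ℕ} (w : Fin n → Bool) : ℝ := ∑ k : Fin n, coinSign (w k) / θ ^ (k : ℕ)

theorem abs_signedSeries_sub_wordSum_le {θ : ℝ} (hθ : 1 < θ) (ω : ℕ → Bool) (n : ℕ) :
    |signedSeries θ ω - wordSum θ (fun k : Fin n => ω k)| ≤ (θ ^ n)⁻¹ * (1 - θ⁻¹)⁻¹ := by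
  rw [signedSeries, wordSum, Fin.sum_univ_eq_sum_range fun k => coinSign (ω k) / θ ^ k,
    ← (summable_series hθ ω).sum_add_tsum_nat_add n, add_sub_cancel_left, ← Real.norm_eq_abs]
  refine tsum_of_norm_bounded ((hasSum_geometric_of_lt_one (by positivity)
    (inv_lt_one_of_one_lt₀ hθ)).mul_left (θ ^ n)⁻¹) fun k => le_of_eq ?_
  rw [norm_div, Real.norm_eq_abs, abs_coinSign, Real.norm_eq_abs,
    abs_of_pos (pow_pos (zero_lt_one.trans hθ) _), pow_add, mul_comm (θ ^ k), inv_pow, one_div,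
    mul_inv]

/-- **The separation.** -/
theorem exists_le_abs_wordSum_sub {θ : ℝ} (hθ : 1 < θ) (hint : IsIntegral ℤ θ)
    (h2 : |(minpoly ℤ θ).coeff 0| = 2)
    (hconj : ∀ z : ℂ, aeval z (minpoly ℤ θ) = 0 → 1 < ‖z‖) :
    ∃ c : ℝ, 0 < c ∧ ∀ (n : ℕ) (w w' : Fin n → Bool), w ≠ w' →
      c / 2 ^ n ≤ |wordSum θ w - wordSum θ w'| := by
  obtain ⟨K, hK, hKb⟩ := exists_le_abs_eval hθ hint h2 hconj
  refine ⟨2 * θ * K, by positivity, fun n w w' hne => ?_⟩
  have hθ0 : 0 < θ := zero_lt_one.trans hθ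
  let s : Bool → Bool → ℤ := fun a b => if a = b then 0 else if a then 1 else -1
  have hs : ∀ a b, (2 : ℝ) * (s a b : ℝ) = coinSign a - coinSign b := fun a b => by
    cases a <;> cases b <;> norm_num [s, coinSign]
  have hs1 : ∀ a b, |s a b| ≤ 1 := fun a b => by cases a <;> cases b <;> simp [s]
  have hs0 : ∀ a b, s a b = 0 → a = b := fun a b => by cases a <;> cases b <;> simp [s]
  set e : Fin n → ℤ := fun j => s (w j.rev) (w' j.rev) with he
  have he0 : e ≠ 0 := fun h => hne (funext fun k => hs0 _ _ (by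
    simpa [he] using congrFun h k.rev))
  have hn : 0 < n := by
    rcases Nat.eq_zero_or_pos n with rfl | h
    · exact absurd (funext fun k : Fin 0 => k.elim0) hne
    · exact h
  have hdiff : wordSum θ w - wordSum θ w' =
      2 * θ * (∑ j : Fin n, (e j : ℝ) * θ ^ (j : ℕ)) / θ ^ n := by
    simp only [wordSum, ← Finset.sum_sub_distrib, Finset.mul_sum, Finset.sum_div]
    refine Fintype.sum_equiv Fin.revPerm _ _ fun k => ?_
    rw [Fin.revPerm_apply, Fin.val_rev]
    simp only [he, Fin.rev_rev]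
    rw [← sub_div, ← hs, div_eq_div_iff (pow_pos hθ0 _).ne' (pow_pos hθ0 _).ne']
    have : θ * θ ^ (n - ((k : ℕ) + 1)) * θ ^ (k : ℕ) = θ ^ n := by
      rw [mul_assoc, ← pow_add, ← pow_succ']
      congr 1
      omega
    rw [← this]
    ring
  rw [hdiff, abs_div, abs_mul, abs_of_pos (by positivity : 0 < 2 * θ),
    abs_of_pos (pow_pos hθ0 n), le_div_iff₀ (pow_pos hθ0 n)]
  calc 2 * θ * K / 2 ^ n * θ ^ n = 2 * θ * (K * (θ / 2) ^ n) := by rw [div_pow]; ring
    _ ≤ _ := mul_le_mul_of_nonneg_left (hKb n e (fun j => hs1 _ _) he0) (by positivity)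

theorem infinitePi_coin_word {n : ℕ} (w : Fin n → Bool) :
    (Measure.infinitePi fun _ : ℕ => coin) {ω | (fun k : Fin n => ω k) = w} = 2⁻¹ ^ n := by
  have e : {ω : ℕ → Bool | (fun k : Fin n => ω k) = w} = Set.pi ↑(Finset.range n)
      fun k => if h : k < n then {w ⟨k, h⟩} else Set.univ := by
    ext ω
    simp only [Set.mem_ofPred_eq, Set.mem_pi, Finset.coe_range, Set.mem_Iio, funext_iff]
    refine ⟨fun h k hk => ?_, fun h k => ?_⟩
    · rw [dif_pos hk, Set.mem_singleton_iff]
      exact h ⟨k, hk⟩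
    · have := h k k.2
      rwa [dif_pos k.2, Set.mem_singleton_iff] at this
  rw [e, Measure.infinitePi_pi _ fun k _ => MeasurableSet.of_discrete]
  rw [Finset.prod_congr rfl (g := fun _ => (2⁻¹ : ℝ≥0∞)) fun k hk => ?_, Finset.prod_const,
    Finset.card_range]
  rw [dif_pos (Finset.mem_range.1 hk)]
  cases w ⟨k, Finset.mem_range.1 hk⟩ <;> simp [coin]

/-- **Intervals.** -/
theorem bernoulliConvolution_Icc_le {θ c : ℝ} (hθ : 1 < θ) (hc : 0 < c)
    (hsep : ∀ (n : ℕ) (w w' : Fin n → Bool), w ≠ w' →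
      c / 2 ^ n ≤ |wordSum θ w - wordSum θ w'|) {a b : ℝ} (hab : a ≤ b) :
    bernoulliConvolution θ (Set.Icc a b) ≤ ENNReal.ofReal ((b - a) / c) := by
  classical
  set r : ℕ → ℝ := fun n => (θ ^ n)⁻¹ * (1 - θ⁻¹)⁻¹ with hr
  have hr0 : ∀ n, 0 ≤ r n := fun n => mul_nonneg (by positivity)
    (inv_nonneg.2 (sub_nonneg.2 (inv_le_one_of_one_le₀ hθ.le)))
  have main : ∀ n : ℕ, bernoulliConvolution θ (Set.Icc a b) ≤
      ENNReal.ofReal ((b - a + 2 * r n) / c + (2⁻¹ : ℝ) ^ n) := fun n => by
    set A := Finset.univ.filter fun w : Fin n → Bool =>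
      wordSum θ w ∈ Set.Icc (a - r n) (b + r n) with hA
    set δ := c / 2 ^ n with hδ
    have hδ0 : 0 < δ := by positivity
    have hle : bernoulliConvolution θ (Set.Icc a b) ≤ A.card * 2⁻¹ ^ n := by
      rw [bernoulliConvolution, Measure.map_apply (measurable_signedSeries hθ) measurableSet_Icc]
      refine (measure_mono (t := ⋃ w ∈ A, {ω | (fun k : Fin n => ω k) = w}) fun ω hω => ?_).trans
        ((measure_biUnion_finset_le A _).trans ?_)
      · refine Set.mem_biUnion (x := fun k : Fin n => ω k) ?_ rfl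
        simp only [hA, Finset.mem_coe, Finset.mem_filter, Finset.mem_univ, true_and, Set.mem_Icc]
        have := abs_le.1 (abs_signedSeries_sub_wordSum_le hθ ω n)
        rw [Set.mem_preimage, Set.mem_Icc] at hω
        constructor <;> linarith [this.1, this.2, hω.1, hω.2]
      · simp only [infinitePi_coin_word, Finset.sum_const, nsmul_eq_mul, le_refl]
    have hcard : (A.card : ℝ) ≤ (b - a + 2 * r n) / δ + 1 := by
      have hL : 0 ≤ b - a + 2 * r n := by linarith [hr0 n]
      have h := Finset.card_le_card_of_injOn (t := Finset.range (⌊(b - a + 2 * r n) / δ⌋₊ + 1))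
        (fun w => ⌊(wordSum θ w - (a - r n)) / δ⌋₊) (s := A) ?_ ?_
      · rw [Finset.card_range] at h
        refine (Nat.cast_le.2 h).trans ?_
        push_cast
        linarith [Nat.floor_le (div_nonneg hL hδ0.le)]
      · intro w hw
        simp only [hA, Finset.mem_coe, Finset.mem_filter, Finset.mem_univ, true_and,
          Set.mem_Icc] at hw
        simp only [Finset.mem_coe, Finset.mem_range, Nat.lt_succ_iff]
        exact Nat.floor_mono (div_le_div_of_nonneg_right (by linarith [hw.2]) hδ0.le)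
      · intro w hw w' hw' heq
        simp only [hA, Finset.mem_coe, Finset.mem_filter, Finset.mem_univ, true_and,
          Set.mem_Icc] at hw hw'
        by_contra hne
        have h1 : 0 ≤ (wordSum θ w - (a - r n)) / δ := div_nonneg (by linarith [hw.1]) hδ0.le
        have h2 : 0 ≤ (wordSum θ w' - (a - r n)) / δ := div_nonneg (by linarith [hw'.1]) hδ0.le
        have hlt : |wordSum θ w - wordSum θ w'| < δ := by
          have e1 := Nat.floor_le h1
          have e2 := Nat.lt_floor_add_one ((wordSum θ w - (a - r n)) / δ)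
          have e3 := Nat.floor_le h2
          have e4 := Nat.lt_floor_add_one ((wordSum θ w' - (a - r n)) / δ)
          simp only at heq
          rw [← heq] at e3 e4
          rw [le_div_iff₀ hδ0] at e1 e3
          rw [div_lt_iff₀ hδ0] at e2 e4
          rw [abs_lt]
          constructor <;> nlinarith
        exact absurd (hsep n w w' hne) (not_le.2 hlt)
    refine hle.trans ?_
    rw [← ENNReal.ofReal_ofNat 2, ← ENNReal.ofReal_inv_of_pos two_pos,
      ← ENNReal.ofReal_pow (by positivity), ← ENNReal.ofReal_natCast,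
      ← ENNReal.ofReal_mul (by positivity)]
    refine ENNReal.ofReal_le_ofReal ((mul_le_mul_of_nonneg_right hcard (by positivity)).trans_eq ?_)
    rw [hδ]
    field_simp
    rw [div_pow, one_pow]
    field_simp
  have hlim : Tendsto (fun n => ENNReal.ofReal ((b - a + 2 * r n) / c + (2⁻¹ : ℝ) ^ n)) atTop
      (𝓝 (ENNReal.ofReal ((b - a) / c))) := by
    refine ENNReal.tendsto_ofReal ?_
    have h1 : Tendsto r atTop (𝓝 0) := by
      simpa [hr, inv_pow] using ((tendsto_pow_atTop_nhds_zero_of_lt_one (by positivity)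
        (inv_lt_one_of_one_lt₀ hθ)).mul_const (1 - θ⁻¹)⁻¹)
    simpa using ((h1.const_mul 2).const_add (b - a) |>.div_const c).add
      (tendsto_pow_atTop_nhds_zero_of_lt_one (by norm_num : (0 : ℝ) ≤ 2⁻¹) (by norm_num))
  exact ge_of_tendsto' hlim main

/-- A finite measure giving intervals at most `C` times their length is at most `C • volume`. -/
theorem measure_le_smul_volume (ν : Measure ℝ) [IsFiniteMeasure ν] {C : ℝ} (hC : 0 ≤ C)
    (h : ∀ a b : ℝ, a ≤ b → ν (Set.Ioc a b) ≤ ENNReal.ofReal (C * (b - a))) :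
    ν ≤ ENNReal.ofReal C • volume := by
  set G : ℝ → ℝ := fun x => ν.real (Set.Iic x)
  have hG : ∀ x y : ℝ, x ≤ y → G y = G x + ν.real (Set.Ioc x y) := fun x y hxy => by
    simp only [G]
    rw [← Set.Iic_union_Ioc_eq_Iic hxy, measureReal_union (Set.Iic_disjoint_Ioc le_rfl)
      measurableSet_Ioc]
  have hreal : ∀ x y : ℝ, x ≤ y → ν.real (Set.Ioc x y) ≤ C * (y - x) := fun x y hxy =>
    ENNReal.toReal_le_of_le_ofReal (mul_nonneg hC (sub_nonneg.2 hxy)) (h x y hxy)
  have hmono : Monotone fun x => C * x - G x := fun x y hxy => by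
    simp only
    rw [hG x y hxy]
    linarith [hreal x y hxy]
  have hlip : LipschitzWith C.toNNReal fun x => C * x - G x := by
    refine LipschitzWith.of_le_add_mul _ fun x y => ?_
    rw [Real.coe_toNNReal _ hC, Real.dist_eq]
    rcases le_total x y with hxy | hxy
    · have : 0 ≤ C * |x - y| := by positivity
      linarith [hmono hxy]
    · rw [abs_of_nonneg (sub_nonneg.2 hxy), hG y x hxy]
      linarith [measureReal_nonneg (μ := ν) (s := Set.Ioc y x)]
  set F : StieltjesFunction ℝ :=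
    ⟨fun x => C * x - G x, hmono, fun x => hlip.continuous.continuousWithinAt⟩ with hF
  have e : ν + F.measure = ENNReal.ofReal C • volume := by
    have key : ∀ a b : ℝ, a < b →
        (ν + F.measure) (Set.Ioc a b) = (ENNReal.ofReal C • volume) (Set.Ioc a b) := by
      intro a b hab
      rw [Measure.add_apply, StieltjesFunction.measure_Ioc, Measure.smul_apply, Real.volume_Ioc,
        smul_eq_mul, ← ENNReal.ofReal_mul hC, ← ofReal_measureReal,
        ← ENNReal.ofReal_add measureReal_nonneg (sub_nonneg.2 (hmono hab.le))]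
      congr 1
      show _ + ((C * b - G b) - (C * a - G a)) = _
      rw [hG a b hab.le]
      ring
    refine Measure.ext_of_Ioc' _ _ (fun a b hab => ?_) key
    rw [key a b hab, Measure.smul_apply, Real.volume_Ioc]
    exact ENNReal.mul_ne_top ENNReal.ofReal_ne_top ENNReal.ofReal_ne_top
  rw [← e]
  exact Measure.le_add_right le_rfl

/-- **Garsia's theorem.** -/
theorem le_smul_volume_of_garsia {θ : ℝ} (hθ : 1 < θ) (hint : IsIntegral ℤ θ)
    (h2 : |(minpoly ℤ θ).coeff 0| = 2)
    (hconj : ∀ z : ℂ, aeval z (minpoly ℤ θ) = 0 → 1 < ‖z‖) :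
    ∃ C : ℝ, 0 < C ∧ bernoulliConvolution θ ≤ ENNReal.ofReal C • volume := by
  obtain ⟨c, hc, hsep⟩ := exists_le_abs_wordSum_sub hθ hint h2 hconj
  have := isProbabilityMeasure_bernoulliConvolution hθ
  refine ⟨c⁻¹, inv_pos.2 hc, measure_le_smul_volume _ (inv_pos.2 hc).le fun a b hab => ?_⟩
  rw [inv_mul_eq_div]
  exact (measure_mono Set.Ioc_subset_Icc_self).trans (bernoulliConvolution_Icc_le hθ hc hsep hab)

/-- Garsia's Bernoulli convolutions are absolutely continuous. -/
theorem absolutelyContinuous_of_garsia {θ : ℝ} (hθ : 1 < θ) (hint : IsIntegral ℤ θ)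
    (h2 : |(minpoly ℤ θ).coeff 0| = 2)
    (hconj : ∀ z : ℂ, aeval z (minpoly ℤ θ) = 0 → 1 < ‖z‖) :
    bernoulliConvolution θ ≪ volume := by
  obtain ⟨C, -, h⟩ := le_smul_volume_of_garsia hθ hint h2 hconj
  exact (Measure.absolutelyContinuous_of_le h).trans
    (Measure.smul_absolutelyContinuous)

theorem irreducible_X_pow_sub_two {m : ℕ} (hm : 0 < m) : Irreducible (X ^ m - C (2 : ℤ)) := by
  have hmon : (X ^ m - C (2 : ℤ)).Monic := monic_X_pow_sub_C _ hm.ne'
  have hprime : (Ideal.span {(2 : ℤ)}).IsPrime :=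
    (Ideal.span_singleton_prime two_ne_zero).2 Int.prime_two
  refine irreducible_of_eisenstein_criterion hprime ?_ (fun j hj => ?_) ?_ ?_ hmon.isPrimitive
  · rw [hmon.leadingCoeff, Ideal.mem_span_singleton]
    norm_num
  · rw [degree_X_pow_sub_C hm, Nat.cast_lt] at hj
    rw [Ideal.mem_span_singleton, coeff_sub, coeff_X_pow, if_neg hj.ne, coeff_C]
    split_ifs <;> norm_num
  · rw [degree_X_pow_sub_C hm]
    exact_mod_cast hm
  · rw [Ideal.span_singleton_pow, Ideal.mem_span_singleton, coeff_sub, coeff_X_pow,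
      if_neg hm.ne, coeff_C_zero]
    norm_num

/-- **Example.** The roots of `2`. -/
theorem le_smul_volume_root_two {m : ℕ} (hm : 0 < m) :
    ∃ C : ℝ, 0 < C ∧
      bernoulliConvolution ((2 : ℝ) ^ ((m : ℝ)⁻¹)) ≤ ENNReal.ofReal C • volume := by
  set θ : ℝ := (2 : ℝ) ^ ((m : ℝ)⁻¹) with hθdef
  have hpow : θ ^ m = 2 := Real.rpow_inv_natCast_pow zero_le_two hm.ne'
  have hθ : 1 < θ := Real.one_lt_rpow one_lt_two (by positivity)
  have hmon : (X ^ m - C (2 : ℤ)).Monic := monic_X_pow_sub_C _ hm.ne'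
  have haev : aeval θ (X ^ m - C (2 : ℤ)) = 0 := by simp [hpow, map_ofNat]
  have hint : IsIntegral ℤ θ := ⟨_, hmon, by simpa [aeval_def] using haev⟩
  have hmin : minpoly ℤ θ = X ^ m - C (2 : ℤ) :=
    eq_of_monic_of_associated (minpoly.monic hint) hmon
      ((minpoly.irreducible hint).associated_of_dvd (irreducible_X_pow_sub_two hm)
        (minpoly.isIntegrallyClosed_dvd hint haev))
  refine le_smul_volume_of_garsia hθ hint ?_ fun z hz => ?_
  · simp [hmin, coeff_X_pow, hm.ne]
  · rw [hmin] at hz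
    simp [sub_eq_zero, map_ofNat] at hz
    have hn : ‖z‖ ^ m = 2 := by rw [← norm_pow, hz, Complex.norm_ofNat]
    by_contra hle
    linarith [pow_le_one₀ (norm_nonneg z) (not_lt.1 hle) (n := m)]

end FA.BernoulliConvolution

end
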