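import Fermat.Agent.PisotCriterion.Converse
import Mathlib.Analysis.Fourier.RiemannLebesgueLemma
import Mathlib.Analysis.SpecialFunctions.Log.Summable
import Mathlib.Analysis.SpecialFunctions.Trigonometric.Bounds
import Mathlib.FieldTheory.IsAlgClosed.Basic
import Mathlib.MeasureTheory.Integral.Pi
import Mathlib.MeasureTheory.Measure.CharacteristicFunction.Basic
import Mathlib.MeasureTheory.Measure.Decomposition.RadonNikodym
import Mathlib.NumberTheory.Real.GoldenRatio
import Mathlib.Probability.ProductMeasure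

/-!
# Bernoulli convolutions at Pisot numbers

The law of `∑ ± θ ^ (-n)` has the Fourier transform `∏ cos (t θ ^ (-n))`. At `t = π θ ^ N` the
factors are `cos (π θ ^ j)`, `j ≤ N`, and `cos (π θ ^ (-i))`: none vanishes unless `θ = 2`, and the
sums of `1 - |cos|` converge, so the transform stays away from zero.
-/

set_option autoImplicit false

noncomputable section

open MeasureTheory Filter Topology Real Polynomial
open scoped ENNReal FourierTransform

namespace FA.BernoulliConvolution

/-- A fair coin. -/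
def coin : Measure Bool := (2⁻¹ : ℝ≥0∞) • Measure.dirac true + (2⁻¹ : ℝ≥0∞) • Measure.dirac false

instance : IsProbabilityMeasure coin :=
  ⟨by simp [coin, ENNReal.inv_two_add_inv_two]⟩

/-- The sign of a toss. -/
def coinSign (b : Bool) : ℝ := if b then 1 else -1

/-- The random series. -/
def signedSeries (θ : ℝ) (ω : ℕ → Bool) : ℝ := ∑' n, coinSign (ω n) / θ ^ n

/-- **The Bernoulli convolution.** -/
def bernoulliConvolution (θ : ℝ) : Measure ℝ :=
  (Measure.infinitePi fun _ : ℕ => coin).map (signedSeries θ)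

theorem integral_coin (f : Bool → ℂ) : ∫ b, f b ∂coin = (f true + f false) / 2 := by
  rw [integral_fintype .of_finite, Fintype.sum_bool]
  simp [coin, measureReal_def, Complex.real_smul]
  ring

theorem abs_coinSign (b : Bool) : |coinSign b| = 1 := by cases b <;> simp [coinSign]

theorem summable_series {θ : ℝ} (hθ : 1 < θ) (ω : ℕ → Bool) :
    Summable fun n => coinSign (ω n) / θ ^ n :=
  Summable.of_norm_bounded
    (summable_geometric_of_lt_one (by positivity) (inv_lt_one_of_one_lt₀ hθ)) fun n => by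
      rw [norm_div, Real.norm_eq_abs, abs_coinSign, norm_pow, Real.norm_eq_abs,
        abs_of_pos (zero_lt_one.trans hθ), one_div, inv_pow]

theorem measurable_partial (θ : ℝ) (M : ℕ) :
    Measurable fun ω : ℕ → Bool => ∑ n ∈ Finset.range M, coinSign (ω n) / θ ^ n :=
  Finset.measurable_sum _ fun n _ =>
    ((measurable_of_finite coinSign).comp (measurable_pi_apply n)).div_const _

theorem measurable_signedSeries {θ : ℝ} (hθ : 1 < θ) : Measurable (signedSeries θ) :=
  measurable_of_tendsto_metrizable (measurable_partial θ)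
    (tendsto_pi_nhds.2 fun ω => (summable_series hθ ω).hasSum.tendsto_sum_nat)

theorem integral_exp_partial (θ t : ℝ) (M : ℕ) :
    ∫ ω, Complex.exp ((t * ∑ n ∈ Finset.range M, coinSign (ω n) / θ ^ n : ℝ) * Complex.I)
      ∂(Measure.infinitePi fun _ : ℕ => coin) =
        ∏ n ∈ Finset.range M, ((Real.cos (t / θ ^ n) : ℝ) : ℂ) := by
  have e : ∀ ω : ℕ → Bool,
      Complex.exp ((t * ∑ n ∈ Finset.range M, coinSign (ω n) / θ ^ n : ℝ) * Complex.I) =
        (fun y : Finset.range M → Bool =>
          ∏ n, Complex.exp (((t * (coinSign (y n) / θ ^ (n : ℕ)) : ℝ) : ℂ) * Complex.I))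
          ((Finset.range M).restrict ω) := fun ω => by
    simp only
    rw [← Complex.exp_sum, ← Finset.sum_mul, ← Complex.ofReal_sum, Finset.mul_sum]
    congr 3
    exact (Finset.sum_coe_sort (Finset.range M) fun n => t * (coinSign (ω n) / θ ^ n)).symm
  rw [integral_congr_ae (Eventually.of_forall e)]
  refine (integral_restrict_infinitePi (μ := fun _ : ℕ => coin) (s := Finset.range M)
    (f := fun y : Finset.range M → Bool =>
      ∏ n, Complex.exp (((t * (coinSign (y n) / θ ^ (n : ℕ)) : ℝ) : ℂ) * Complex.I))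
    (measurable_of_finite _).aestronglyMeasurable).trans ?_
  rw [integral_fintype_prod_eq_prod fun (n : Finset.range M) (b : Bool) =>
      Complex.exp (((t * (coinSign b / θ ^ (n : ℕ)) : ℝ) : ℂ) * Complex.I),
    ← Finset.prod_coe_sort (Finset.range M)]
  refine Finset.prod_congr rfl fun n _ => ?_
  rw [integral_coin, Complex.ofReal_cos, Complex.cos]
  simp only [coinSign, ↓reduceIte, Bool.false_eq_true]
  push_cast
  congr 2
  · ring_nf
  · ring_nf

theorem charFun_eq {θ : ℝ} (hθ : 1 < θ) (t : ℝ) :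
    Tendsto (fun M => ∏ n ∈ Finset.range M, ((Real.cos (t / θ ^ n) : ℝ) : ℂ)) atTop
      (𝓝 (charFun (bernoulliConvolution θ) t)) := by
  rw [charFun_apply_real, bernoulliConvolution,
    integral_map (measurable_signedSeries hθ).aemeasurable
    (by fun_prop)]
  simp only [← integral_exp_partial θ t]
  refine tendsto_integral_of_dominated_convergence (fun _ => 1) (fun M => ?_) (integrable_const 1)
    (fun M => Eventually.of_forall fun ω => (Complex.norm_exp_ofReal_mul_I _).le)
    (Eventually.of_forall fun ω => ?_)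
  · exact (Complex.continuous_exp.measurable.comp ((Complex.continuous_ofReal.measurable.comp
      ((measurable_partial θ M).const_mul t)).mul_const Complex.I)).aestronglyMeasurable
  · rw [show ((t : ℂ) * (signedSeries θ ω : ℂ)) = ((t * signedSeries θ ω : ℝ) : ℂ) by
      push_cast; rfl]
    exact ((Complex.continuous_exp.comp (Complex.continuous_ofReal.mul continuous_const)).tendsto
      _).comp ((summable_series hθ ω).hasSum.tendsto_sum_nat.const_mul t)

/-- A product of numbers in `(0, 1]` with `∑ (1 - a n)` finite is bounded below. -/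
theorem exists_le_prod {a : ℕ → ℝ} (h0 : ∀ n, 0 < a n) (h1 : ∀ n, a n ≤ 1)
    (hs : Summable fun n => 1 - a n) : ∃ c : ℝ, 0 < c ∧ ∀ n, c ≤ ∏ i ∈ Finset.range n, a i := by
  have hl : Summable fun n => -log (a n) := by
    have := (Real.summable_log_one_add_of_summable hs.neg).neg
    simpa using this
  refine ⟨exp (-∑' n, -log (a n)), exp_pos _, fun n => ?_⟩
  rw [← exp_log (Finset.prod_pos fun i _ => h0 i), log_prod fun i _ => (h0 i).ne', exp_le_exp]
  have := hl.sum_le_tsum (Finset.range n) fun i _ => neg_nonneg.2 (log_nonpos (h0 i).le (h1 i))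
  rw [Finset.sum_neg_distrib] at this
  linarith

theorem one_sub_abs_cos_le (y : ℝ) (k : ℤ) : 1 - |Real.cos (π * y)| ≤ π ^ 2 / 2 * (y - k) ^ 2 := by
  have h : |Real.cos (π * y)| = |Real.cos (π * (y - k))| := by
    rw [mul_sub, mul_comm π (k : ℝ), Real.cos_sub_int_mul_pi, abs_mul, abs_neg_one_zpow, one_mul]
  rw [h]
  have := one_sub_sq_div_two_le_cos (x := π * (y - k))
  have := le_abs_self (Real.cos (π * (y - k)))
  nlinarith

theorem exists_half_odd {y : ℝ} (h : Real.cos (π * y) = 0) : ∃ k : ℤ, 2 * y = 2 * k + 1 := by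
  obtain ⟨k, hk⟩ := Real.cos_eq_zero_iff.1 h
  refine ⟨k, mul_left_cancel₀ pi_ne_zero ?_⟩
  linarith

theorem exists_int_of_integral {y : ℝ} (hy : IsIntegral ℤ y) (r : ℚ) (h : (r : ℝ) = y) :
    ∃ z : ℤ, (z : ℝ) = y := by
  have hr : IsIntegral ℤ r := by
    rw [← h] at hy
    exact (isIntegral_algebraMap_iff (algebraMap ℚ ℝ).injective).1 hy
  obtain ⟨z, hz⟩ := IsIntegrallyClosed.isIntegral_iff.1 hr
  exact ⟨z, by rw [← h, ← hz]; simp⟩

/-- `θ ^ i = 2` only for `θ = 2`. -/
theorem eq_two_of_pow_eq_two {θ : ℝ} (h : FA.PisotCriterion.IsPisot θ) {i : ℕ} (hi : θ ^ i = 2) :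
    θ = 2 := by
  obtain ⟨hθ, hint, hconj⟩ := h
  have hi0 : i ≠ 0 := fun e => by rw [e, pow_zero] at hi; norm_num at hi
  have hdvd : minpoly ℤ θ ∣ X ^ i - C 2 :=
    minpoly.isIntegrallyClosed_dvd hint (by simp [hi, map_ofNat])
  have hroot : ∀ z : ℂ, aeval z (minpoly ℤ θ) = 0 → z = (θ : ℂ) := fun z hz => by
    by_contra hne
    obtain ⟨g, hg⟩ := hdvd
    have hzi : z ^ i = 2 := by
      have := congrArg (aeval z) hg
      simpa [hz, sub_eq_zero, map_ofNat] using this
    have h2 := congrArg norm hzi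
    rw [norm_pow] at h2
    norm_num at h2
    have := pow_lt_one₀ (norm_nonneg z) (hconj z hz hne) hi0
    linarith
  have hx : IsIntegral ℚ θ := hint.tower_top
  have hsplit : ((minpoly ℚ θ).map (algebraMap ℚ ℂ)).Splits := IsAlgClosed.splits _
  have hsep : ((minpoly ℚ θ).map (algebraMap ℚ ℂ)).Separable :=
    (minpoly.irreducible hx).separable.map
  have hle : ((minpoly ℚ θ).map (algebraMap ℚ ℂ)).roots.card ≤ 1 := by
    rw [← Multiset.toFinset_card_of_nodup (nodup_roots hsep), Finset.card_le_one]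
    intro a ha b hb
    have key : ∀ z ∈ ((minpoly ℚ θ).map (algebraMap ℚ ℂ)).roots.toFinset, z = (θ : ℂ) :=
      fun z hz => by
        refine hroot z ?_
        rw [Multiset.mem_toFinset, mem_roots', IsRoot, eval_map_algebraMap,
          minpoly.isIntegrallyClosed_eq_field_fractions' ℚ hint, aeval_map_algebraMap] at hz
        exact hz.2
    rw [key a ha, key b hb]
  rw [← hsplit.natDegree_eq_card_roots, natDegree_map] at hle
  have hdeg : (minpoly ℚ θ).natDegree = 1 := le_antisymm hle (minpoly.natDegree_pos hx)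
  obtain ⟨r, hr⟩ := minpoly.natDegree_eq_one_iff.1 hdeg
  obtain ⟨z, hz⟩ := exists_int_of_integral hint r (by simpa using hr)
  have hz2 : 2 ≤ z := by
    rw [← hz] at hθ
    exact_mod_cast hθ
  have hle2 : θ ≤ 2 := by
    rw [← hi]
    exact le_self_pow₀ hθ.le hi0
  have hge2 : 2 ≤ θ := by rw [← hz]; exact_mod_cast hz2
  exact le_antisymm hle2 hge2

/-- **The transform does not tend to zero.** -/
theorem exists_le_norm_charFun {θ : ℝ} (h : FA.PisotCriterion.IsPisot θ) (h2 : θ ≠ 2) :
    ∃ c : ℝ, 0 < c ∧ ∀ N : ℕ, c ≤ ‖charFun (bernoulliConvolution θ) (π * θ ^ N)‖ := by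
  obtain ⟨C, r, hC, hr0, hr1, hnear⟩ := FA.PisotCriterion.exists_round_pow_le h
  have hθ := h.1
  have hθ0 : 0 < θ := zero_lt_one.trans hθ
  have hA0 : ∀ j, 0 < |Real.cos (π * θ ^ j)| := fun j => abs_pos.2 fun e => by
    obtain ⟨k, hk⟩ := exists_half_odd e
    obtain ⟨z, hz⟩ := exists_int_of_integral (h.2.1.pow j) ((2 * k + 1) / 2) (by
      push_cast
      linarith)
    rw [← hz] at hk
    have : 2 * z = 2 * k + 1 := by exact_mod_cast hk
    omega
  have hB0 : ∀ i, 0 < |Real.cos (π * (θ ^ (i + 1))⁻¹)| := fun i => abs_pos.2 fun e => by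
    obtain ⟨k, hk⟩ := exists_half_odd e
    have hpos : 0 < (θ ^ (i + 1))⁻¹ := by positivity
    have hk0 : (0 : ℤ) ≤ k := by
      have h' : ((-1 : ℤ) : ℝ) < ((2 * k : ℤ) : ℝ) := by push_cast; linarith
      have := Int.cast_lt.1 h'
      omega
    have hk1 : (0 : ℝ) < 2 * k + 1 := by
      have : (0 : ℝ) ≤ k := by exact_mod_cast hk0
      linarith
    have hpow : θ ^ (i + 1) = 2 / (2 * k + 1) := by
      rw [eq_div_iff hk1.ne', ← hk]
      field_simp
    obtain ⟨z, hz⟩ := exists_int_of_integral (h.2.1.pow (i + 1)) (2 / (2 * k + 1)) (by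
      push_cast
      exact hpow.symm)
    have hz1 : (1 : ℤ) < z := by
      have := one_lt_pow₀ hθ i.succ_ne_zero
      rw [← hz] at this
      exact_mod_cast this
    have hz2 : z * (2 * k + 1) = 2 := by
      have : (z : ℝ) * (2 * k + 1) = 2 := by rw [hz, hpow, div_mul_cancel₀ _ hk1.ne']
      exact_mod_cast this
    have : z = 2 := by nlinarith
    refine h2 (eq_two_of_pow_eq_two h (i := i + 1) ?_)
    rw [← hz, this, Int.cast_ofNat]
  have hgeo : ∀ s : ℝ, 0 ≤ s → s < 1 → ∀ K : ℝ, Summable fun n : ℕ => K * (s ^ n) ^ 2 :=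
    fun s hs hs1 K => by
      simp only [← pow_mul, fun n : ℕ => mul_comm n 2]
      simp only [pow_mul]
      exact (summable_geometric_of_lt_one (sq_nonneg s) (pow_lt_one₀ hs hs1 two_ne_zero)).mul_left K
  obtain ⟨cA, hcA, hA⟩ := exists_le_prod hA0 (fun j => Real.abs_cos_le_one _)
    ((hgeo r hr0 hr1 (π ^ 2 / 2 * C ^ 2)).of_nonneg_of_le
      (fun j => sub_nonneg.2 (Real.abs_cos_le_one _)) fun j => by
        refine (one_sub_abs_cos_le _ (round (θ ^ j))).trans ?_
        rw [mul_assoc, ← mul_pow]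
        exact mul_le_mul_of_nonneg_left (sq_le_sq' (abs_le.1 (hnear j)).1 (abs_le.1 (hnear j)).2)
          (by positivity))
  obtain ⟨cB, hcB, hB⟩ := exists_le_prod hB0 (fun j => Real.abs_cos_le_one _)
    ((hgeo θ⁻¹ (by positivity) (inv_lt_one_of_one_lt₀ hθ) (π ^ 2 / 2)).of_nonneg_of_le
      (fun j => sub_nonneg.2 (Real.abs_cos_le_one _)) fun j => by
        refine (one_sub_abs_cos_le _ 0).trans ?_
        rw [Int.cast_zero, sub_zero, inv_pow θ j]
        refine mul_le_mul_of_nonneg_left
          (pow_le_pow_left₀ (show (0 : ℝ) ≤ (θ ^ (j + 1))⁻¹ by positivity) ?_ 2)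
          (show (0 : ℝ) ≤ π ^ 2 / 2 by positivity)
        exact inv_anti₀ (by positivity) (pow_le_pow_right₀ hθ.le (Nat.le_succ j)))
  refine ⟨cA * cB, mul_pos hcA hcB, fun N => ?_⟩
  refine ge_of_tendsto ((charFun_eq hθ (π * θ ^ N)).norm)
    (eventually_atTop.2 ⟨N + 1, fun M hM => ?_⟩)
  rw [norm_prod]
  simp only [Complex.norm_real, Real.norm_eq_abs]
  obtain ⟨L, rfl⟩ := Nat.exists_eq_add_of_le hM
  rw [Finset.prod_range_add]
  refine mul_le_mul ((hA (N + 1)).trans_eq ?_) ((hB L).trans_eq ?_) hcB.le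
    (Finset.prod_nonneg fun n _ => abs_nonneg _)
  · rw [← Finset.prod_range_reflect]
    refine Finset.prod_congr rfl fun n hn => ?_
    have hle : n ≤ N := Nat.lt_succ_iff.1 (Finset.mem_range.1 hn)
    rw [show N + 1 - 1 - n = N - n by omega, pow_sub₀ θ hθ0.ne' hle]
    congr 2
    ring
  · refine Finset.prod_congr rfl fun i _ => ?_
    congr 2
    rw [show N + 1 + i = N + (i + 1) by omega, pow_add]
    field_simp
    ring

/-- **Erdős's theorem.** -/
theorem not_absolutelyContinuous {θ : ℝ} (h : FA.PisotCriterion.IsPisot θ) (h2 : θ ≠ 2) :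
    ¬bernoulliConvolution θ ≪ volume := fun hac => by
  obtain ⟨c, hc, hle⟩ := exists_le_norm_charFun h h2
  have : IsProbabilityMeasure (bernoulliConvolution θ) :=
    Measure.isProbabilityMeasure_map (measurable_signedSeries h.1).aemeasurable
  have hw : Tendsto (fun N : ℕ => -(θ ^ N / 2)) atTop (cocompact ℝ) :=
    (tendsto_neg_atTop_atBot.comp ((tendsto_pow_atTop_atTop_of_one_lt h.1).atTop_div_const
      two_pos)).mono_right atBot_le_cocompact
  have hRL := ((Real.tendsto_integral_exp_smul_cocompact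
    (fun v => ((((bernoulliConvolution θ).rnDeriv volume v).toReal : ℝ) : ℂ))).comp hw).norm
  rw [norm_zero] at hRL
  obtain ⟨N, hN⟩ := (hRL.eventually_lt_const hc).exists
  refine absurd (hle N) (not_le.2 (lt_of_eq_of_lt ?_ hN))
  simp only [Function.comp_apply]
  rw [charFun_apply_real, ← integral_rnDeriv_smul hac]
  congr 1
  refine integral_congr_ae (Eventually.of_forall fun v => ?_)
  simp only [Complex.real_smul, Circle.smul_def, Real.fourierChar_apply, smul_eq_mul]
  rw [mul_comm]
  congr 2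
  push_cast
  ring

theorem isPisot_goldenRatio : FA.PisotCriterion.IsPisot Real.goldenRatio := by
  have h0 : aeval Real.goldenRatio (X ^ 2 - X - 1 : ℤ[X]) = 0 := by simp [Real.goldenRatio_sq]
  have hm : (X ^ 2 - X - 1 : ℤ[X]).Monic := by monicity!
  have hint : IsIntegral ℤ Real.goldenRatio := ⟨_, hm, h0⟩
  refine ⟨Real.one_lt_goldenRatio, hint, fun z hz hne => ?_⟩
  obtain ⟨g, hg⟩ := minpoly.isIntegrallyClosed_dvd hint h0
  have e := congrArg (aeval z) hg
  simp only [map_mul, hz, zero_mul, map_sub, map_pow, map_one, aeval_X] at e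
  have hfac : (z - (Real.goldenRatio : ℂ)) * (z - (Real.goldenConj : ℂ)) = 0 := by
    have h1 : ((Real.goldenRatio : ℂ)) + (Real.goldenConj : ℂ) = 1 := by
      exact_mod_cast Real.goldenRatio_add_goldenConj
    have h2 : ((Real.goldenRatio : ℂ)) * (Real.goldenConj : ℂ) = -1 := by
      exact_mod_cast Real.goldenRatio_mul_goldenConj
    linear_combination e - z * h1 + h2
  rw [sub_eq_zero.1 ((mul_eq_zero.1 hfac).resolve_left (sub_ne_zero.2 hne)), Complex.norm_real,
    Real.norm_eq_abs, abs_lt]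
  exact ⟨Real.neg_one_lt_goldenConj, Real.goldenConj_neg.trans one_pos⟩

end FA.BernoulliConvolution

end
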