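import Fermat.Agent.BernoulliConvolution.ErdosKahane
import Mathlib.Analysis.Calculus.BumpFunction.InnerProduct
import Mathlib.Analysis.Distribution.SchwartzSpace.Fourier
import Mathlib.Analysis.SpecialFunctions.JapaneseBracket

/-!
# Smooth densities

A finite measure on the line whose characteristic function, times powers up to the `k`-th, is
integrable has a density of class `C^k`: the Fourier transform of the characteristic function. Both
measures have the same integral against smooth functions of compact support. With the decay near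
`1` this is Erdős's theorem of 1940.
-/

set_option autoImplicit false

noncomputable section

open MeasureTheory Filter Topology Real
open scoped ENNReal FourierTransform SchwartzMap

namespace FA.BernoulliConvolution

/-- The candidate density. -/
def fourierDensity (ν : Measure ℝ) : ℝ → ℂ := 𝓕 fun ξ : ℝ => charFun ν (2 * π * ξ)

theorem integral_smooth_eq (ν : Measure ℝ) [IsFiniteMeasure ν]
    (hint : Integrable fun t : ℝ => charFun ν t) {ψ : ℝ → ℂ} (hψc : HasCompactSupport ψ)
    (hψ : ContDiff ℝ (⊤ : ℕ∞) ψ) :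
    ∫ x, ψ x ∂ν = ∫ x, ψ x * fourierDensity ν x := by
  set Ψ : 𝓢(ℝ, ℂ) := hψc.toSchwartzMap hψ
  set h : 𝓢(ℝ, ℂ) := 𝓕⁻ Ψ
  set Φ : ℝ → ℂ := fun ξ => charFun ν (2 * π * ξ) with hΦ
  have hΦint : Integrable Φ := hint.comp_mul_left' (by positivity)
  have hh : ∀ x, 𝓕 (h : ℝ → ℂ) x = ψ x := fun x => by
    rw [← SchwartzMap.fourier_coe]
    simp [h, Ψ]
  have hneg : ∀ x, (h : ℝ → ℂ) (-x) = 𝓕 ψ x := fun x => by
    rw [SchwartzMap.fourierInv_coe, Real.fourierInv_eq_fourier_neg, neg_neg]
    rfl
  have h1 : ∫ x, ψ x ∂ν = ∫ ξ, h ξ * charFun ν (-(2 * π * ξ)) := by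
    calc ∫ x, ψ x ∂ν = ∫ x, 𝓕 (h : ℝ → ℂ) x • (1 : ℂ) ∂ν := by simp [hh]
      _ = ∫ ξ, h ξ • VectorFourier.fourierIntegral Real.fourierChar ν
            (innerₗ ℝ).flip (fun _ => (1 : ℂ)) ξ :=
          VectorFourier.integral_fourierIntegral_smul_eq_flip Real.continuous_fourierChar
            (by fun_prop) h.integrable (integrable_const _)
      _ = _ := by
          refine integral_congr_ae (Eventually.of_forall fun ξ => ?_)
          simp only [smul_eq_mul, VectorFourier.fourierIntegral, charFun_apply_real,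
            Real.fourierChar_apply, Circle.smul_def, LinearMap.flip_apply, innerₗ_apply_apply,
            RCLike.inner_apply, conj_trivial, mul_one]
          congr 1
          refine integral_congr_ae (Eventually.of_forall fun x => ?_)
          push_cast
          ring_nf
  rw [h1, ← integral_neg_eq_self]
  calc ∫ ξ, h (-ξ) * charFun ν (-(2 * π * -ξ)) = ∫ ξ, 𝓕 ψ ξ • Φ ξ := by
        simp [hneg, hΦ]
    _ = ∫ x, ψ x • 𝓕 Φ x := by
        have hflip : (innerₗ ℝ).flip = innerₗ ℝ := LinearMap.ext fun x => LinearMap.ext fun y => by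
          simp [mul_comm]
        have := VectorFourier.integral_fourierIntegral_smul_eq_flip (μ := (volume : Measure ℝ))
          (ν := (volume : Measure ℝ)) (L := innerₗ ℝ) Real.continuous_fourierChar (by fun_prop)
          (hψ.continuous.integrable_of_hasCompactSupport hψc) hΦint
        rw [hflip] at this
        exact this
    _ = _ := by simp [fourierDensity, hΦ]

theorem exists_smooth_approx_Icc (c r : ℝ) (hr : 0 < r) :
    ∃ f : ℕ → ℝ → ℝ, (∀ n, ContDiff ℝ (⊤ : ℕ∞) (f n) ∧ HasCompactSupport (f n)) ∧
      (∀ n x, 0 ≤ f n x ∧ f n x ≤ 1) ∧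
      (∀ n x, x ∉ Set.Icc (c - (r + 1)) (c + (r + 1)) → f n x = 0) ∧
      ∀ x, Tendsto (fun n => f n x) atTop (𝓝 ((Set.Icc (c - r) (c + r)).indicator 1 x)) := by
  set φ : ℕ → ContDiffBump c := fun n =>
    ⟨r, r + 1 / ((n : ℝ) + 1), hr, lt_add_of_pos_right r (by positivity)⟩
  refine ⟨fun n => φ n, fun n => ⟨(φ n).contDiff, (φ n).hasCompactSupport⟩,
    fun n x => ⟨(φ n).nonneg, (φ n).le_one⟩, fun n x hx => (φ n).zero_of_le_dist ?_, fun x => ?_⟩
  · have h1 : 1 / ((n : ℝ) + 1) ≤ 1 := by rw [div_le_one (by positivity)]; simp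
    rw [Set.mem_Icc, not_and_or, not_le, not_le] at hx
    rw [Real.dist_eq]
    show r + 1 / ((n : ℝ) + 1) ≤ _
    rcases hx with hx | hx
    · linarith [neg_le_abs (x - c)]
    · linarith [le_abs_self (x - c)]
  by_cases hx : x ∈ Set.Icc (c - r) (c + r)
  · rw [Set.indicator_of_mem hx, Pi.one_apply]
    refine tendsto_const_nhds.congr fun n => ((φ n).one_of_mem_closedBall ?_).symm
    rw [Real.closedBall_eq_Icc]
    exact hx
  · rw [Set.indicator_of_notMem hx]
    refine tendsto_const_nhds.congr' ?_
    have hd : r < dist x c := by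
      rw [Real.dist_eq]
      rw [Set.mem_Icc, not_and_or, not_le, not_le] at hx
      rcases hx with hx | hx
      · linarith [neg_le_abs (x - c)]
      · linarith [le_abs_self (x - c)]
    filter_upwards [(tendsto_one_div_add_atTop_nhds_zero_nat (𝕜 := ℝ)).eventually_lt_const
      (sub_pos.2 hd)] with n hn
    refine ((φ n).zero_of_le_dist ?_).symm
    show r + 1 / ((n : ℝ) + 1) ≤ _
    linarith

/-- A finite measure with integrable transform has a continuous density. -/
theorem eq_withDensity_fourierDensity (ν : Measure ℝ) [IsFiniteMeasure ν]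
    (hint : Integrable fun t : ℝ => charFun ν t) :
    ν = volume.withDensity (fun x => ENNReal.ofReal (fourierDensity ν x).re) ∧
      ∀ x, 0 ≤ (fourierDensity ν x).re := by
  have hΦ : Integrable fun ξ : ℝ => charFun ν (2 * π * ξ) := hint.comp_mul_left' (by positivity)
  have hc : Continuous (fourierDensity ν) :=
    VectorFourier.fourierIntegral_continuous Real.continuous_fourierChar (by fun_prop) hΦ
  set g : ℝ → ℝ := fun x => (fourierDensity ν x).re with hg
  have hgc : Continuous g := Complex.continuous_re.comp hc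
  have hIcc : ∀ a b : ℝ, a < b → ν.real (Set.Icc a b) = ∫ x in Set.Icc a b, g x := fun a b hab => by
    obtain ⟨f, hf, hf01, hf0, hflim⟩ := exists_smooth_approx_Icc ((a + b) / 2) ((b - a) / 2)
      (by linarith)
    have e : Set.Icc ((a + b) / 2 - (b - a) / 2) ((a + b) / 2 + (b - a) / 2) = Set.Icc a b := by
      ring_nf
    rw [e] at hflim
    have heq : ∀ n, ∫ x, f n x ∂ν = ∫ x, f n x * g x := fun n => by
      have h := congrArg Complex.re (integral_smooth_eq ν hint (ψ := fun x => (f n x : ℂ))
        ((hf n).2.comp_left Complex.ofReal_zero) (Complex.ofRealCLM.contDiff.comp (hf n).1))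
      rw [integral_complex_ofReal, Complex.ofReal_re] at h
      rw [h, ← RCLike.re_to_complex, ← integral_re]
      · simp [hg]
      · exact ((Complex.continuous_ofReal.comp (hf n).1.continuous).mul hc)
          |>.integrable_of_hasCompactSupport (((hf n).2.comp_left Complex.ofReal_zero).mul_right)
    have hL : Tendsto (fun n => ∫ x, f n x ∂ν) atTop (𝓝 (ν.real (Set.Icc a b))) := by
      rw [← integral_indicator_one measurableSet_Icc]
      refine tendsto_integral_of_dominated_convergence (fun _ => 1)
        (fun n => (hf n).1.continuous.aestronglyMeasurable) (integrable_const 1)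
        (fun n => Eventually.of_forall fun x => ?_) (Eventually.of_forall hflim)
      rw [Real.norm_of_nonneg (hf01 n x).1]
      exact (hf01 n x).2
    have hR : Tendsto (fun n => ∫ x, f n x * g x) atTop (𝓝 (∫ x in Set.Icc a b, g x)) := by
      rw [← integral_indicator measurableSet_Icc]
      set J := Set.Icc ((a + b) / 2 - ((b - a) / 2 + 1)) ((a + b) / 2 + ((b - a) / 2 + 1))
      refine tendsto_integral_of_dominated_convergence (J.indicator fun x => |g x|)
        (fun n => ((hf n).1.continuous.mul hgc).aestronglyMeasurable)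
        ((hgc.abs.continuousOn.integrableOn_Icc).integrable_indicator measurableSet_Icc)
        (fun n => Eventually.of_forall fun x => ?_) (Eventually.of_forall fun x => ?_)
      · by_cases hx : x ∈ J
        · rw [Set.indicator_of_mem hx, Real.norm_eq_abs, abs_mul, abs_of_nonneg (hf01 n x).1]
          exact mul_le_of_le_one_left (abs_nonneg _) (hf01 n x).2
        · rw [Set.indicator_of_notMem hx, hf0 n x hx, zero_mul, norm_zero]
      · have := (hflim x).mul_const (g x)
        by_cases hx : x ∈ Set.Icc a b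
        · rw [Set.indicator_of_mem hx, Pi.one_apply, one_mul] at this
          rwa [Set.indicator_of_mem hx]
        · rw [Set.indicator_of_notMem hx, zero_mul] at this
          rwa [Set.indicator_of_notMem hx]
    exact tendsto_nhds_unique (hL.congr heq) hR
  have hnn : ∀ x, 0 ≤ g x := fun x => by
    by_contra hlt
    rw [not_le] at hlt
    obtain ⟨η, hη, hneg⟩ := Metric.eventually_nhds_iff.1
      (hgc.continuousAt.eventually_lt continuousAt_const (show g x < g x / 2 by linarith))
    have h1 : ∫ t in Set.Icc x (x + η / 2), g t ≤ ∫ _t in Set.Icc x (x + η / 2), g x / 2 := by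
      refine setIntegral_mono_on hgc.continuousOn.integrableOn_Icc
        continuousOn_const.integrableOn_Icc measurableSet_Icc fun t ht => (hneg ?_).le
      rw [Real.dist_eq, abs_of_nonneg (by linarith [ht.1])]
      linarith [ht.2]
    rw [setIntegral_const, measureReal_def, Real.volume_Icc, smul_eq_mul,
      ENNReal.toReal_ofReal (by linarith), ← hIcc _ _ (by linarith)] at h1
    nlinarith [measureReal_nonneg (μ := ν) (s := Set.Icc x (x + η / 2))]
  refine ⟨?_, hnn⟩
  refine Measure.ext_of_Icc ν _ fun a b hab => ?_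
  rw [withDensity_apply _ measurableSet_Icc,
    ← ofReal_integral_eq_lintegral_ofReal hgc.continuousOn.integrableOn_Icc
      (Eventually.of_forall hnn), ← ofReal_measureReal]
  rcases hab.eq_or_lt with rfl | hlt
  · congr 1
    have hlim : Tendsto (fun n : ℕ => ∫ x in Set.Icc a (a + 1 / ((n : ℝ) + 1)), g x) atTop
        (𝓝 0) := by
      obtain ⟨M, hM⟩ := isCompact_Icc.exists_bound_of_continuousOn
        (hgc.continuousOn (s := Set.Icc a (a + 1)))
      refine squeeze_zero (fun n => setIntegral_nonneg measurableSet_Icc fun x _ => hnn x)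
        (g := fun n : ℕ => M * (1 / ((n : ℝ) + 1))) (fun n => ?_)
        (by simpa using (tendsto_one_div_add_atTop_nhds_zero_nat (𝕜 := ℝ)).const_mul M)
      refine (le_abs_self _).trans ((norm_setIntegral_le_of_norm_le_const measure_Icc_lt_top
        fun x hx => hM x ⟨hx.1, hx.2.trans (by
          have : 1 / ((n : ℝ) + 1) ≤ 1 := by rw [div_le_one (by positivity)]; simp
          linarith)⟩).trans_eq ?_)
      rw [measureReal_def, Real.volume_Icc, add_sub_cancel_left,
        ENNReal.toReal_ofReal (by positivity)]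
    rw [Set.Icc_self, setIntegral_measure_zero _ (measure_singleton a)]
    refine le_antisymm (ge_of_tendsto' hlim fun n => ?_) measureReal_nonneg
    rw [← hIcc a _ (lt_add_of_pos_right a (by positivity))]
    exact measureReal_mono (Set.singleton_subset_iff.2
      (Set.left_mem_Icc.2 (le_add_of_nonneg_right (by positivity))))
  · rw [hIcc a b hlt]

/-- **Smoothness.** -/
theorem exists_contDiff_density (ν : Measure ℝ) [IsFiniteMeasure ν] (k : ℕ)
    (hint : ∀ n ≤ k, Integrable fun t : ℝ => ‖t‖ ^ n * ‖charFun ν t‖) :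
    ∃ g : ℝ → ℝ, ContDiff ℝ k g ∧ (∀ x, 0 ≤ g x) ∧
      ν = volume.withDensity fun x => ENNReal.ofReal (g x) := by
  have h0 : Integrable fun t : ℝ => charFun ν t :=
    (integrable_norm_iff (measurable_charFun (μ := ν)).aestronglyMeasurable).1
      (by simpa using hint 0 k.zero_le)
  obtain ⟨h1, h2⟩ := eq_withDensity_fourierDensity ν h0
  refine ⟨fun x => (fourierDensity ν x).re, Complex.reCLM.contDiff.comp
    (Real.contDiff_fourier (N := k) fun n hn => ?_), h2, h1⟩
  have hn' : n ≤ k := by exact_mod_cast hn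
  refine (((hint n hn').comp_mul_left' (by positivity : (2 * π : ℝ) ≠ 0)).const_mul
    (((2 * π) ^ n)⁻¹)).congr (Eventually.of_forall fun x => ?_)
  simp only [norm_mul, Real.norm_eq_abs, abs_two, abs_of_pos pi_pos, mul_pow]
  field_simp

/-- **Erdős's theorem near `1`.** -/
theorem ae_contDiff_density_near_one (k : ℕ) :
    ∃ η : ℝ, 0 < η ∧ ∀ᵐ θ ∂(volume : Measure ℝ), θ ∈ Set.Ioo 1 (1 + η) →
      ∃ g : ℝ → ℝ, ContDiff ℝ k g ∧ (∀ x, 0 ≤ g x) ∧
        bernoulliConvolution θ = volume.withDensity fun x => ENNReal.ofReal (g x) := by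
  obtain ⟨η, hη, hae⟩ := ae_decay_near_one (k + 2)
  refine ⟨η, hη, ?_⟩
  filter_upwards [hae] with θ hθ hI
  obtain ⟨C, hC⟩ := hθ hI
  have := isProbabilityMeasure_bernoulliConvolution hI.1
  refine exists_contDiff_density _ k fun n hn => ?_
  have hdom : Integrable fun t : ℝ =>
      (max C 0 + 1) * 2 * ((1 : ℝ) + ‖t‖ ^ 2)⁻¹ := by
    simpa using integrable_inv_one_add_sq.const_mul ((max C 0 + 1) * 2)
  refine hdom.mono' (((continuous_norm.pow n).mul (continuous_charFun
    (μ := bernoulliConvolution θ)).norm).aestronglyMeasurable)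
      (Eventually.of_forall fun t => ?_)
  rw [Real.norm_of_nonneg (by positivity), Real.norm_eq_abs, le_mul_inv_iff₀ (by positivity)]
  rcases le_or_gt |t| 1 with ht | ht
  · calc |t| ^ n * ‖charFun (bernoulliConvolution θ) t‖ * (1 + |t| ^ 2) ≤ 1 * 1 * (1 + 1) := by
          gcongr
          · exact pow_le_one₀ (abs_nonneg t) ht
          · exact norm_charFun_le_one t
          · exact pow_le_one₀ (abs_nonneg t) ht
      _ ≤ _ := by nlinarith [le_max_right C 0]
  · have h1 := hC t ht.le
    rw [rpow_neg (abs_nonneg t), rpow_natCast, ← div_eq_mul_inv,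
      le_div_iff₀ (pow_pos (by linarith) _)] at h1
    have h2 : |t| ^ n * (1 + |t| ^ 2) ≤ 2 * |t| ^ (k + 2) := by
      have : |t| ^ n ≤ |t| ^ k := pow_le_pow_right₀ ht.le hn
      have : (1 : ℝ) ≤ |t| ^ 2 := one_le_pow₀ ht.le
      calc |t| ^ n * (1 + |t| ^ 2) ≤ |t| ^ k * (2 * |t| ^ 2) := by gcongr; linarith
        _ = _ := by rw [pow_add]; ring
    calc |t| ^ n * ‖charFun (bernoulliConvolution θ) t‖ * (1 + |t| ^ 2)
        = ‖charFun (bernoulliConvolution θ) t‖ * (|t| ^ n * (1 + |t| ^ 2)) := by ring
      _ ≤ ‖charFun (bernoulliConvolution θ) t‖ * (2 * |t| ^ (k + 2)) := by gcongr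
      _ ≤ _ := by nlinarith [le_max_left C 0, norm_nonneg (charFun (bernoulliConvolution θ) t)]

end FA.BernoulliConvolution

end
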