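import Mathlib.Analysis.Calculus.Deriv.MeanValue
import Mathlib.Analysis.Calculus.Deriv.Pow
import Mathlib.Analysis.Calculus.MeanValue
import Mathlib.Analysis.Normed.Group.Tannery
import Mathlib.Analysis.SpecificLimits.Normed
import Mathlib.MeasureTheory.Measure.Lebesgue.Basic

/-!
# Transversality

A power series `1 + ∑ b n * x ^ n` with `|b n| ≤ 1` crosses small values with slope below `-1/50`
on `(0, 16/25]` (Solomyak, Peres): it is compared with `1 - x - x² - x³ + x⁴/4 + x⁵ + x⁶ + ⋯`,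
which stays above `1/50` there and has slope below `-1/25`, and the coefficients of the difference
change sign once. Truncations avoid differentiating the series.
-/

set_option autoImplicit false

noncomputable section

open Finset Filter Topology MeasureTheory
open scoped ENNReal

namespace FA.BernoulliConvolution

/-- The coefficients of the comparison series. -/
def starCoeff (n : ℕ) : ℝ := if n = 0 then 1 else if n < 4 then -1 else if n = 4 then 1 / 4 else 1

/-- A truncated power series. -/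
def pEval (c : ℕ → ℝ) (N : ℕ) (x : ℝ) : ℝ := ∑ n ∈ range N, c n * x ^ n

/-- Its derivative. -/
def pDeriv (c : ℕ → ℝ) (N : ℕ) (x : ℝ) : ℝ := ∑ n ∈ range N, c n * (n * x ^ (n - 1))

theorem hasDerivAt_pEval (c : ℕ → ℝ) (N : ℕ) (x : ℝ) :
    HasDerivAt (pEval c N) (pDeriv c N x) x :=
  HasDerivAt.fun_sum fun n _ => (hasDerivAt_pow n x).const_mul (c n)

theorem continuous_pEval (c : ℕ → ℝ) (N : ℕ) : Continuous (pEval c N) :=
  continuous_iff_continuousAt.2 fun x => (hasDerivAt_pEval c N x).continuousAt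

theorem mul_pDeriv (c : ℕ → ℝ) (N : ℕ) (x : ℝ) :
    x * pDeriv c N x = ∑ n ∈ range N, (n : ℝ) * (c n * x ^ n) := by
  rw [pDeriv, mul_sum]
  refine sum_congr rfl fun n _ => ?_
  rcases Nat.eq_zero_or_pos n with rfl | hn
  · simp
  · rw [mul_left_comm (n : ℝ), mul_left_comm x, mul_left_comm x, ← pow_succ',
      Nat.sub_add_cancel hn]

theorem sum_add_five_pow_le {x : ℝ} (h0 : 0 ≤ x) (h1 : x < 1) (M : ℕ) :
    ∑ m ∈ range M, ((m : ℝ) + 5) * x ^ m ≤ 5 / (1 - x) + x / (1 - x) ^ 2 := by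
  have h : (1 - x) ≠ 0 := by linarith
  have e : ∑ m ∈ range M, ((m : ℝ) + 5) * x ^ m = 5 / (1 - x) + x / (1 - x) ^ 2 -
      x ^ M * (((M : ℝ) + 5) / (1 - x) + x / (1 - x) ^ 2) := by
    induction M with
    | zero => simp
    | succ M ih =>
      rw [sum_range_succ, ih, pow_succ]
      push_cast
      field_simp
      ring
  rw [e]
  have : 0 < 1 - x := by linarith
  have : 0 ≤ x ^ M * (((M : ℝ) + 5) / (1 - x) + x / (1 - x) ^ 2) := by positivity
  linarith

theorem pDeriv_starCoeff_le {N : ℕ} (hN : 5 ≤ N) {x : ℝ} (h0 : 0 ≤ x) (h1 : x ≤ 16 / 25) :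
    x * pDeriv starCoeff N x ≤ x * (-1 / 25) := by
  obtain ⟨M, rfl⟩ := Nat.exists_eq_add_of_le hN
  rw [mul_pDeriv, sum_range_add]
  have ht : ∑ m ∈ range M, ((5 + m : ℕ) : ℝ) * (starCoeff (5 + m) * x ^ (5 + m)) ≤
      x ^ 5 * (5 / (1 - 16 / 25) + 16 / 25 / (1 - 16 / 25) ^ 2) := by
    refine (sum_le_sum fun m _ => ?_).trans ((mul_sum (range M)
      (fun m => ((m : ℝ) + 5) * (16 / 25 : ℝ) ^ m) (x ^ 5)).ge.trans
      (mul_le_mul_of_nonneg_left (sum_add_five_pow_le (by norm_num) (by norm_num) M)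
        (pow_nonneg h0 5)))
    rw [starCoeff, if_neg (by omega), if_neg (by omega), if_neg (by omega), one_mul, pow_add]
    calc ((5 + m : ℕ) : ℝ) * (x ^ 5 * x ^ m) = x ^ 5 * (((m : ℝ) + 5) * x ^ m) := by
          push_cast; ring
      _ ≤ _ := by gcongr
  refine (add_le_add_right ht _).trans ?_
  simp only [sum_range_succ, sum_range_zero, starCoeff]
  norm_num
  nlinarith [mul_nonneg h0 h0, mul_nonneg (mul_nonneg h0 h0) (sub_nonneg.2 h1),
    pow_nonneg h0 3, mul_nonneg (pow_nonneg h0 4) (sub_nonneg.2 h1),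
    mul_nonneg (mul_nonneg h0 (sub_nonneg.2 h1)) (sub_nonneg.2 h1)]

theorem le_pEval_starCoeff {N : ℕ} (hN : 20 ≤ N) {x : ℝ} (h0 : 0 ≤ x) (h1 : x ≤ 16 / 25) :
    1 / 50 ≤ pEval starCoeff N x := by
  have hanti : AntitoneOn (pEval starCoeff N) (Set.Icc 0 (16 / 25)) := by
    refine antitoneOn_of_hasDerivWithinAt_nonpos (convex_Icc _ _)
      (continuous_pEval _ _).continuousOn
      (fun t _ => (hasDerivAt_pEval starCoeff N t).hasDerivWithinAt) fun t ht => ?_
    rw [interior_Icc, Set.mem_Ioo] at ht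
    nlinarith [pDeriv_starCoeff_le (show 5 ≤ N by omega) ht.1.le ht.2.le]
  refine le_trans ?_ (hanti ⟨h0, h1⟩ ⟨by norm_num, le_rfl⟩ h1)
  refine le_trans ?_ (sum_le_sum_of_subset_of_nonneg (s := range 20) (range_subset_range.2 hN)
    fun i _ hi => ?_)
  · simp only [sum_range_succ, sum_range_zero, starCoeff]
    norm_num
  · rw [mem_range] at hi
    rw [starCoeff, if_neg (by omega), if_neg (by omega), if_neg (by omega)]
    positivity

/-- **Transversality** for polynomials. -/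
theorem pDeriv_lt_of_pEval_lt {b : ℕ → ℝ} (hb0 : b 0 = 1) (hb : ∀ n, |b n| ≤ 1) {N : ℕ}
    (hN : 20 ≤ N) {x : ℝ} (h0 : 0 < x) (h1 : x ≤ 16 / 25) (hlt : pEval b N x < 1 / 50) :
    pDeriv b N x < -1 / 50 := by
  have key : x * pDeriv b N x - x * pDeriv starCoeff N x ≤
      4 * (pEval b N x - pEval starCoeff N x) := by
    rw [mul_pDeriv, mul_pDeriv, pEval, pEval, ← sum_sub_distrib, ← sum_sub_distrib, mul_sum]
    refine sum_le_sum fun n _ => ?_
    have h := abs_le.1 (hb n)
    have hp : 0 ≤ x ^ n := pow_nonneg h0.le n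
    rcases lt_trichotomy n 4 with hn | rfl | hn
    · have hc : 0 ≤ b n - starCoeff n := by
        rcases Nat.eq_zero_or_pos n with rfl | hn0
        · simp [starCoeff, hb0]
        · rw [starCoeff, if_neg (by omega), if_pos hn]
          linarith [h.1]
      have : (n : ℝ) ≤ 4 := by exact_mod_cast hn.le
      nlinarith [mul_nonneg (mul_nonneg (sub_nonneg.2 this) hc) hp]
    · push_cast
      linarith
    · have hc : 0 ≤ starCoeff n - b n := by
        rw [starCoeff, if_neg (by omega), if_neg (by omega), if_neg (by omega)]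
        linarith [h.2]
      have : (4 : ℝ) ≤ n := by exact_mod_cast hn.le
      nlinarith [mul_nonneg (mul_nonneg (sub_nonneg.2 this) hc) hp]
  nlinarith [pDeriv_starCoeff_le (show 5 ≤ N by omega) h0.le h1,
    le_pEval_starCoeff hN h0.le h1]

theorem pEval_le_sub {b : ℕ → ℝ} (hb0 : b 0 = 1) (hb : ∀ n, |b n| ≤ 1) {N : ℕ}
    (hN : 20 ≤ N) {x y : ℝ} (h0 : 0 < x) (hxy : x ≤ y) (h1 : y ≤ 16 / 25)
    (hlt : pEval b N x < 1 / 50) : pEval b N y ≤ pEval b N x - (y - x) / 50 := by
  refine image_le_of_deriv_right_lt_deriv_boundary' (continuous_pEval b N).continuousOn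
    (fun t _ => (hasDerivAt_pEval b N t).hasDerivWithinAt)
    (B := fun t => pEval b N x - (t - x) / 50) (B' := fun _ => -1 / 50) (by simp) (by fun_prop)
    (fun t _ => ?_) (fun t ht he => ?_) (Set.right_mem_Icc.2 hxy)
  · simpa [neg_div] using
      ((((hasDerivAt_id t).sub_const x).div_const 50).const_sub (pEval b N x)).hasDerivWithinAt
  · exact pDeriv_lt_of_pEval_lt hb0 hb hN (h0.trans_le ht.1) (ht.2.le.trans h1)
      (by rw [he]; linarith [ht.1])

theorem summable_bounded_pow {b : ℕ → ℝ} (hb : ∀ n, |b n| ≤ 1) {x : ℝ} (h0 : 0 ≤ x) (h1 : x < 1) :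
    Summable fun n => b n * x ^ n :=
  Summable.of_norm_bounded (summable_geometric_of_lt_one h0 h1) fun n => by
    rw [Real.norm_eq_abs, abs_mul, abs_pow, abs_of_nonneg h0]
    exact mul_le_of_le_one_left (by positivity) (hb n)

/-- **Transversality.** Below `1/50` the series falls with slope at most `-1/50`. -/
theorem tsum_le_sub {b : ℕ → ℝ} (hb0 : b 0 = 1) (hb : ∀ n, |b n| ≤ 1) {x y : ℝ} (h0 : 0 < x)
    (hxy : x ≤ y) (h1 : y ≤ 16 / 25) (hlt : ∑' n, b n * x ^ n < 1 / 50) :
    ∑' n, b n * y ^ n ≤ ∑' n, b n * x ^ n - (y - x) / 50 := by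
  have ht : ∀ z : ℝ, 0 ≤ z → z ≤ 16 / 25 →
      Tendsto (fun N => pEval b N z) atTop (𝓝 (∑' n, b n * z ^ n)) := fun z hz0 hz1 =>
    (summable_bounded_pow hb hz0 (by linarith)).hasSum.tendsto_sum_nat
  refine le_of_tendsto_of_tendsto (ht y (h0.le.trans hxy) h1)
    ((ht x h0.le (hxy.trans h1)).sub_const _) ?_
  filter_upwards [eventually_ge_atTop 20, (ht x h0.le (hxy.trans h1)).eventually_lt_const hlt]
    with N hN hN' using pEval_le_sub hb0 hb hN h0 hxy h1 hN'

/-- The parameters of small values form a small set. -/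
theorem volume_small_le {b : ℕ → ℝ} (hb0 : b 0 = 1) (hb : ∀ n, |b n| ≤ 1) {a : ℝ} (ha : 0 < a)
    (ρ : ℝ) :
    volume {x ∈ Set.Icc a (16 / 25) | |∑' n, b n * x ^ n| ≤ ρ} ≤ ENNReal.ofReal (100 * ρ) := by
  rcases lt_or_ge ρ (1 / 50) with hρ | hρ
  · refine (Real.volume_le_diam _).trans (Metric.ediam_le fun x hx y hy => ?_)
    rw [edist_dist, Real.dist_eq]
    refine ENNReal.ofReal_le_ofReal ?_
    wlog hxy : x ≤ y generalizing x y
    · rw [abs_sub_comm]
      exact this y hy x hx (le_of_not_ge hxy)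
    have hx2 := abs_le.1 hx.2
    have hy2 := abs_le.1 hy.2
    have := tsum_le_sub hb0 hb (ha.trans_le hx.1.1) hxy hy.1.2 (hx2.2.trans_lt hρ)
    rw [abs_sub_comm, abs_of_nonneg (sub_nonneg.2 hxy)]
    linarith
  · refine (measure_mono (Set.sep_subset _ _)).trans ?_
    rw [Real.volume_Icc]
    exact ENNReal.ofReal_le_ofReal (by linarith)

end FA.BernoulliConvolution

end
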