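import Fermat.Agent.BernoulliConvolution.Criterion
import Fermat.Agent.BernoulliConvolution.Garsia
import Fermat.Agent.BernoulliConvolution.Transversality
import Mathlib.MeasureTheory.Function.Jacobian

/-!
# Solomyak's theorem on an interval

For almost every `l ∈ (1/2, 16/25]` the law of `∑ ± l ^ n` is absolutely continuous (Solomyak,
after Peres and Solomyak). By transversality two words agreeing up to `k` give values within `r` of
each other on a set of parameters of measure `O(r l ^ (-k))`; the lower derivative of the law has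
finite integral, so it is finite almost surely, and differentiation of measures does the rest.
-/

set_option autoImplicit false

noncomputable section

open MeasureTheory Filter Topology Metric
open scoped ENNReal

namespace FA.BernoulliConvolution

/-- The parameter, confined to `[0, 16/25]`. -/
def clampParam (l : ℝ) : ℝ := max 0 (min l (16 / 25))

/-- The series at a confined parameter. -/
def paramSeries (l : ℝ) (ω : ℕ → Bool) : ℝ := ∑' n, coinSign (ω n) * clampParam l ^ n

theorem summable_paramSeries (l : ℝ) (ω : ℕ → Bool) :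
    Summable fun n => coinSign (ω n) * clampParam l ^ n :=
  summable_bounded_pow (fun n => (abs_coinSign _).le) (le_max_left _ _)
    ((max_le (by norm_num) (min_le_right _ _) : clampParam l ≤ 16 / 25).trans_lt (by norm_num))

theorem measurable_paramSeries :
    Measurable fun p : ℝ × (ℕ → Bool) => paramSeries p.1 p.2 := by
  refine measurable_of_tendsto_metrizable
    (f := fun N (p : ℝ × (ℕ → Bool)) =>
      ∑ n ∈ Finset.range N, coinSign (p.2 n) * clampParam p.1 ^ n) (fun N => ?_)
    (tendsto_pi_nhds.2 fun p => (summable_paramSeries p.1 p.2).hasSum.tendsto_sum_nat)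
  refine Finset.measurable_sum _ fun n _ => ?_
  exact ((measurable_of_finite coinSign).comp
    ((measurable_pi_apply n).comp measurable_snd)).mul
    (((by unfold clampParam; fun_prop : Measurable clampParam).comp measurable_fst).pow_const n)

theorem clampParam_eq {l : ℝ} (h0 : 0 ≤ l) (h1 : l ≤ 16 / 25) : clampParam l = l := by
  rw [clampParam, min_eq_left h1, max_eq_right h0]

theorem paramSeries_eq_signedSeries {l : ℝ} (h0 : 0 ≤ l) (h1 : l ≤ 16 / 25) :
    paramSeries l = signedSeries l⁻¹ := by
  funext ω
  rw [paramSeries, signedSeries, clampParam_eq h0 h1]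
  exact tsum_congr fun n => by rw [inv_pow, div_inv_eq_mul]

/-- The pairs of words agreeing up to `k`. -/
def agreeSet (k : ℕ) : Set ((ℕ → Bool) × (ℕ → Bool)) := {q | ∀ i < k, q.1 i = q.2 i}

theorem measurableSet_agreeSet (k : ℕ) : MeasurableSet (agreeSet k) := by
  rw [agreeSet, Set.ofPred_forall]
  refine MeasurableSet.iInter fun i => ?_
  by_cases hi : i < k
  · simp only [hi, forall_true_left]
    exact measurableSet_eq_fun ((measurable_pi_apply i).comp measurable_fst)
      ((measurable_pi_apply i).comp measurable_snd)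
  · simp [hi]

theorem prod_agreeSet (k : ℕ) :
    ((Measure.infinitePi fun _ : ℕ => coin).prod (Measure.infinitePi fun _ : ℕ => coin))
      (agreeSet k) = 2⁻¹ ^ k := by
  rw [Measure.prod_apply (measurableSet_agreeSet k)]
  have e : ∀ ω : ℕ → Bool, Prod.mk ω ⁻¹' agreeSet k =
      {ω' | (fun i : Fin k => ω' i) = fun i : Fin k => ω i} := fun ω => by
    ext ω'
    simp only [agreeSet, Set.mem_preimage, Set.mem_ofPred_eq, funext_iff]
    exact ⟨fun h i => (h i i.2).symm, fun h i hi => (h ⟨i, hi⟩).symm⟩
  simp only [e, infinitePi_coin_word, lintegral_const, measure_univ, mul_one]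

/-- **The key estimate.** The parameters at which two words give values within `r`. -/
theorem volume_close_le {a r : ℝ} (ha : 0 < a) (ha1 : a ≤ 1) (hr : 0 < r)
    (ω ω' : ℕ → Bool) :
    volume {l ∈ Set.Icc a (16 / 25) | |paramSeries l ω - paramSeries l ω'| ≤ r} ≤
      ∑' k : ℕ, (agreeSet k).indicator (fun _ => ENNReal.ofReal (50 * r / a ^ k)) (ω, ω') := by
  classical
  by_cases hne : ω = ω'
  · refine le_top.trans_eq (Eq.symm (top_le_iff.1 ?_))
    rw [← ENNReal.tsum_const_eq_top_of_ne_zero (α := ℕ)
      (ENNReal.ofReal_pos.2 (by positivity : 0 < 50 * r)).ne']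
    refine ENNReal.tsum_le_tsum fun k => ?_
    rw [Set.indicator_of_mem (show (ω, ω') ∈ agreeSet k from fun i _ => by rw [hne])]
    refine ENNReal.ofReal_le_ofReal ((le_div_iff₀ (pow_pos ha k)).2 ?_)
    exact mul_le_of_le_one_right (by positivity) (pow_le_one₀ ha.le ha1)
  · have hex : ∃ k, ω k ≠ ω' k := Function.ne_iff.1 hne
    set k := Nat.find hex with hk
    have hkne : ω k ≠ ω' k := Nat.find_spec hex
    have hkeq : ∀ i < k, ω i = ω' i := fun i hi => not_not.1 (Nat.find_min hex hi)
    refine le_trans ?_ (ENNReal.le_tsum k)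
    rw [Set.indicator_of_mem (show (ω, ω') ∈ agreeSet k from hkeq)]
    set d := coinSign (ω k) - coinSign (ω' k) with hd
    have hd2 : |d| = 2 := by
      rw [hd]
      cases h1 : ω k <;> cases h2 : ω' k <;> simp_all [coinSign] <;> norm_num
    have hd0 : d ≠ 0 := fun h => by simp [h] at hd2
    set b : ℕ → ℝ := fun m => (coinSign (ω (m + k)) - coinSign (ω' (m + k))) / d with hb
    have hb0 : b 0 = 1 := by simp [hb, ← hd, hd0]
    have hb1 : ∀ n, |b n| ≤ 1 := fun n => by
      rw [hb]
      simp only [abs_div, hd2]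
      rw [div_le_one two_pos]
      refine (abs_sub _ _).trans ?_
      norm_num [abs_coinSign]
    refine (measure_mono fun l hl => ?_).trans ((volume_small_le hb0 hb1 ha
      (r / (2 * a ^ k))).trans_eq (by congr 1; ring))
    refine ⟨hl.1, ?_⟩
    have hl0 : 0 < l := ha.trans_le hl.1.1
    have he : paramSeries l ω - paramSeries l ω' = d * l ^ k * ∑' n, b n * l ^ n := by
      rw [paramSeries, paramSeries,
        ← (summable_paramSeries l ω).tsum_sub (summable_paramSeries l ω'),
        clampParam_eq hl0.le hl.1.2,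
        ← ((summable_paramSeries l ω).sub (summable_paramSeries l ω')).congr
          (fun n => by rw [clampParam_eq hl0.le hl.1.2]) |>.sum_add_tsum_nat_add k,
        Finset.sum_eq_zero fun i hi => by rw [hkeq i (Finset.mem_range.1 hi), sub_self], zero_add,
        ← tsum_mul_left]
      refine tsum_congr fun n => ?_
      simp only [hb, pow_add]
      field_simp
    have hle := hl.2
    rw [he, abs_mul, abs_mul, hd2, abs_of_pos (pow_pos hl0 k)] at hle
    rw [le_div_iff₀ (by positivity)]
    calc |∑' n, b n * l ^ n| * (2 * a ^ k) ≤ |∑' n, b n * l ^ n| * (2 * l ^ k) := by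
          gcongr
          exact hl.1.1
      _ = 2 * l ^ k * |∑' n, b n * l ^ n| := mul_comm _ _
      _ ≤ r := hle

theorem ae_absolutelyContinuous_Icc {a : ℝ} (ha : 1 / 2 < a) :
    ∀ᵐ l ∂volume.restrict (Set.Icc a (16 / 25)), bernoulliConvolution l⁻¹ ≪ volume := by
  rcases lt_or_ge (16 / 25) a with h | h
  · simp [Set.Icc_eq_empty_of_lt h]
  set μ := Measure.infinitePi fun _ : ℕ => coin with hμ
  have hq : 0 ≤ 1 / (2 * a) := by positivity
  have hq1 : 1 / (2 * a) < 1 := by rw [div_lt_one (by linarith)]; linarith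
  have main := ae_absolutelyContinuous_of_close (μ := μ) measurable_paramSeries
    (volume.restrict (Set.Icc a (16 / 25))) (C := 50 / (1 - 1 / (2 * a))) fun r hr => by
    have h2 : ∀ q : (ℕ → Bool) × (ℕ → Bool), (volume.restrict (Set.Icc a (16 / 25)))
        {l | |paramSeries l q.1 - paramSeries l q.2| ≤ r} ≤
        ∑' k : ℕ, (agreeSet k).indicator (fun _ => ENNReal.ofReal (50 * r / a ^ k)) q := fun q => by
      rw [Measure.restrict_apply' measurableSet_Icc]
      refine (measure_mono fun l hl => ?_).trans
        (volume_close_le (by linarith) (by linarith) hr q.1 q.2)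
      exact ⟨hl.2, hl.1⟩
    refine (lintegral_mono h2).trans_eq ?_
    rw [lintegral_tsum fun k =>
      (measurable_const.indicator (measurableSet_agreeSet k)).aemeasurable]
    rw [div_mul_eq_mul_div, div_eq_mul_inv _ (1 - 1 / (2 * a)),
      ← tsum_geometric_of_lt_one hq hq1, ← tsum_mul_left,
      ENNReal.ofReal_tsum_of_nonneg (fun k => by positivity)
        ((summable_geometric_of_lt_one hq hq1).mul_left _)]
    refine tsum_congr fun k => ?_
    rw [lintegral_indicator_const (measurableSet_agreeSet k), prod_agreeSet,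
      ← ENNReal.ofReal_ofNat 2, ← ENNReal.ofReal_inv_of_pos two_pos,
      ← ENNReal.ofReal_pow (by positivity), ← ENNReal.ofReal_mul (by positivity)]
    congr 1
    rw [div_pow, one_pow, mul_pow, inv_pow]
    field_simp
  filter_upwards [main, ae_restrict_mem measurableSet_Icc] with l hl hmem
  rwa [bernoulliConvolution, ← paramSeries_eq_signedSeries (by linarith [hmem.1]) hmem.2]

/-- **Solomyak's theorem** on `(1/2, 16/25]`. -/
theorem ae_absolutelyContinuous :
    ∀ᵐ l ∂volume.restrict (Set.Ioc (1 / 2) (16 / 25 : ℝ)),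
      bernoulliConvolution l⁻¹ ≪ volume := by
  refine ae_restrict_of_ae_restrict_of_subset
    (t := ⋃ j : ℕ, Set.Icc (1 / 2 + 1 / ((j : ℝ) + 1)) (16 / 25)) (fun l hl => ?_) ?_
  · obtain ⟨j, hj⟩ := exists_nat_one_div_lt (sub_pos.2 hl.1)
    exact Set.mem_iUnion.2 ⟨j, by linarith, hl.2⟩
  · rw [ae_restrict_iUnion_iff]
    exact fun j => ae_absolutelyContinuous_Icc (lt_add_of_pos_right _ (by positivity))

/-- **Solomyak's theorem** for the bases `θ ∈ [25/16, 2)`. -/
theorem ae_absolutelyContinuous_base :
    ∀ᵐ θ ∂volume.restrict (Set.Ico (25 / 16) 2 : Set ℝ), bernoulliConvolution θ ≪ volume := by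
  have h := ae_absolutelyContinuous
  rw [ae_restrict_iff' measurableSet_Ioc, ae_iff] at h
  rw [ae_restrict_iff' measurableSet_Ico, ae_iff]
  set N : Set ℝ :=
    {l | ¬(l ∈ Set.Ioc (1 / 2) (16 / 25) → bernoulliConvolution l⁻¹ ≪ volume)}
  refine measure_mono_null (t := (fun l : ℝ => l⁻¹) '' N) (fun θ hθ => ?_) ?_
  · rw [Set.mem_ofPred_eq, Classical.not_imp] at hθ
    have hθ0 : 0 < θ := by linarith [hθ.1.1]
    refine ⟨θ⁻¹, ?_, inv_inv θ⟩
    simp only [N, Set.mem_ofPred_eq, Classical.not_imp, inv_inv]
    refine ⟨⟨?_, ?_⟩, hθ.2⟩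
    · rw [one_div, inv_lt_inv₀ two_pos hθ0]
      exact hθ.1.2
    · rw [inv_le_comm₀ hθ0 (by norm_num)]
      linarith [hθ.1.1]
  · refine addHaar_image_eq_zero_of_differentiableOn_of_addHaar_eq_zero volume (fun l hl => ?_) h
    simp only [N, Set.mem_ofPred_eq, Classical.not_imp] at hl
    exact (differentiableAt_inv (by linarith [hl.1.1])).differentiableWithinAt

end FA.BernoulliConvolution

end
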