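import Fermat.Agent.BernoulliConvolution.Transversality

/-!
# Transversality for thinned series

When every third coefficient vanishes transversality lasts up to `99 / 140 > 1 / √2` (Peres and
Solomyak). The comparison series has the coefficients `-1` up to a threshold `K` and `+1` after;
the terms of degree at most `K` are compared at `x` and at `99 / 140` by the power `K`.
-/

set_option autoImplicit false

noncomputable section

open Finset Filter Topology MeasureTheory
open scoped ENNReal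

namespace FA.BernoulliConvolution

/-- The comparison series, without the degrees congruent to `z` modulo `3`. -/
def thinStar (z K n : ℕ) : ℝ :=
  if n = 0 then 1 else if n % 3 = z then 0 else if n ≤ K then -1 else 1

theorem thinStar_le_one (z K n : ℕ) : thinStar z K n ≤ 1 := by
  unfold thinStar
  split_ifs <;> norm_num

theorem sum_tail_le {M N : ℕ} {x : ℝ} (h0 : 0 ≤ x) (h1 : x < 1) (c : ℕ → ℝ)
    (hc : ∀ n, c n ≤ 1) :
    ∑ n ∈ range N, ((M + n : ℕ) : ℝ) * (c (M + n) * x ^ (M + n)) ≤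
      x ^ M * ((M : ℝ) / (1 - x) + x / (1 - x) ^ 2) := by
  have hg : HasSum (fun n : ℕ => x ^ M * ((M : ℝ) * x ^ n + (n : ℝ) * x ^ n))
      (x ^ M * ((M : ℝ) / (1 - x) + x / (1 - x) ^ 2)) := by
    refine HasSum.mul_left _ (HasSum.add ?_ ?_)
    · rw [div_eq_mul_inv]
      exact (hasSum_geometric_of_lt_one h0 h1).mul_left _
    · exact hasSum_coe_mul_geometric_of_norm_lt_one (by rwa [Real.norm_of_nonneg h0])
  refine le_trans (sum_le_sum fun n _ => ?_) (sum_le_hasSum _ (fun n _ => by positivity) hg)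
  calc ((M + n : ℕ) : ℝ) * (c (M + n) * x ^ (M + n))
      ≤ ((M + n : ℕ) : ℝ) * (1 * x ^ (M + n)) := by gcongr; exact hc _
    _ = _ := by rw [pow_add]; push_cast; ring

/-- The head of the derivative at `99 / 140`. -/
def thinHead (z K : ℕ) : ℝ :=
  ∑ n ∈ range 32, (n : ℝ) * (thinStar z K n * (99 / 140) ^ n) +
    (99 / 140) ^ 32 * (32 / (1 - 99 / 140) + 99 / 140 / (1 - 99 / 140) ^ 2)

theorem mul_pDeriv_thinStar_le {z K N : ℕ} (hN : 32 ≤ N) {x : ℝ} (h0 : 0 ≤ x)
    (h1 : x ≤ 99 / 140) :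
    x * pDeriv (thinStar z K) N x ≤ (x / (99 / 140)) ^ K * thinHead z K := by
  set t := x / (99 / 140) with ht
  have ht0 : 0 ≤ t := by positivity
  have ht1 : t ≤ 1 := (div_le_one (by norm_num)).2 h1
  have hterm : ∀ n : ℕ, (n : ℝ) * (thinStar z K n * x ^ n) ≤
      t ^ K * ((n : ℝ) * (thinStar z K n * (99 / 140) ^ n)) := fun n => by
    rw [show x = t * (99 / 140) by rw [ht]; field_simp, mul_pow]
    rcases Nat.eq_zero_or_pos n with rfl | hn
    · simp
    · rw [show (n : ℝ) * (thinStar z K n * (t ^ n * (99 / 140) ^ n)) =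
        t ^ n * ((n : ℝ) * (thinStar z K n * (99 / 140) ^ n)) by ring]
      unfold thinStar
      rw [if_neg hn.ne']
      split_ifs with h2 h3
      · simp
      · exact mul_le_mul_of_nonpos_right (pow_le_pow_of_le_one ht0 ht1 h3)
          (by nlinarith [pow_nonneg (show (0 : ℝ) ≤ 99 / 140 by norm_num) n,
            (Nat.cast_nonneg n : (0 : ℝ) ≤ n)])
      · exact mul_le_mul_of_nonneg_right (pow_le_pow_of_le_one ht0 ht1 (not_le.1 h3).le)
          (by positivity)
  rw [mul_pDeriv]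
  refine (sum_le_sum fun n _ => hterm n).trans ?_
  rw [← mul_sum]
  refine mul_le_mul_of_nonneg_left ?_ (pow_nonneg ht0 K)
  obtain ⟨M, rfl⟩ := Nat.exists_eq_add_of_le hN
  rw [sum_range_add, thinHead]
  refine add_le_add_right ?_ _
  exact_mod_cast sum_tail_le (M := 32) (by norm_num) (by norm_num) (thinStar z K)
    (thinStar_le_one z K)

/-- What the comparison series must satisfy at `99 / 140`. -/
structure IsThinningStar (z K : ℕ) : Prop where
  le_32 : K < 32
  head : thinHead z K ≤ -(1 / 25)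
  small : 1 / 16 ≤ (7 / 10 : ℝ) ^ K
  value : 1 / 100 ≤ pEval (thinStar z K) 32 (99 / 140)

theorem thinStar_pDeriv_le {z K N : ℕ} (h : IsThinningStar z K) (hN : 32 ≤ N) {x : ℝ}
    (h0 : 1 / 2 ≤ x) (h1 : x ≤ 99 / 140) : x * pDeriv (thinStar z K) N x ≤ x * (-1 / 300) := by
  refine (mul_pDeriv_thinStar_le hN (by linarith) h1).trans ?_
  have ht : (7 / 10 : ℝ) ^ K ≤ (x / (99 / 140)) ^ K :=
    pow_le_pow_left₀ (by norm_num) (by rw [le_div_iff₀ (by norm_num)]; linarith) K
  nlinarith [h.head, h.small]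

theorem le_pEval_thinStar {z K N : ℕ} (h : IsThinningStar z K) (hN : 32 ≤ N) {x : ℝ}
    (h0 : 1 / 2 ≤ x) (h1 : x ≤ 99 / 140) : 1 / 100 ≤ pEval (thinStar z K) N x := by
  have hanti : AntitoneOn (pEval (thinStar z K) N) (Set.Icc (1 / 2) (99 / 140)) := by
    refine antitoneOn_of_hasDerivWithinAt_nonpos (convex_Icc _ _)
      (continuous_pEval _ _).continuousOn
      (fun t _ => (hasDerivAt_pEval (thinStar z K) N t).hasDerivWithinAt) fun t ht => ?_
    rw [interior_Icc, Set.mem_Ioo] at ht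
    nlinarith [thinStar_pDeriv_le h hN ht.1.le ht.2.le]
  refine le_trans ?_ (hanti ⟨h0, h1⟩ ⟨by norm_num, le_rfl⟩ h1)
  refine h.value.trans (sum_le_sum_of_subset_of_nonneg (range_subset_range.2 hN) fun i _ hi => ?_)
  rw [mem_range] at hi
  have := h.le_32
  unfold thinStar
  rw [if_neg (by omega)]
  split_ifs with h2 h3
  · simp
  · omega
  · positivity

theorem isThinningStar_two : IsThinningStar 2 4 where
  le_32 := by norm_num
  head := by simp only [thinHead, sum_range_succ, sum_range_zero, thinStar]; norm_num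
  small := by norm_num
  value := by simp only [pEval, sum_range_succ, sum_range_zero, thinStar]; norm_num

theorem isThinningStar_one : IsThinningStar 1 5 where
  le_32 := by norm_num
  head := by simp only [thinHead, sum_range_succ, sum_range_zero, thinStar]; norm_num
  small := by norm_num
  value := by simp only [pEval, sum_range_succ, sum_range_zero, thinStar]; norm_num

theorem exists_isThinningStar {z : ℕ} (hz : z = 1 ∨ z = 2) : ∃ K, IsThinningStar z K := by
  rcases hz with rfl | rfl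
  · exact ⟨5, isThinningStar_one⟩
  · exact ⟨4, isThinningStar_two⟩

theorem pDeriv_lt_of_pEval_lt_thin {z K : ℕ} (h : IsThinningStar z K) {b : ℕ → ℝ} (hb0 : b 0 = 1)
    (hb : ∀ n, |b n| ≤ 1) (hz : ∀ n, n % 3 = z → n ≠ 0 → b n = 0) {N : ℕ} (hN : 32 ≤ N) {x : ℝ}
    (h0 : 1 / 2 ≤ x) (h1 : x ≤ 99 / 140) (hlt : pEval b N x < 1 / 400) :
    pDeriv b N x < -1 / 400 := by
  have key : x * pDeriv b N x - x * pDeriv (thinStar z K) N x ≤
      K * (pEval b N x - pEval (thinStar z K) N x) := by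
    rw [mul_pDeriv, mul_pDeriv, pEval, pEval, ← sum_sub_distrib, ← sum_sub_distrib, mul_sum]
    refine sum_le_sum fun n _ => ?_
    have hbn := abs_le.1 (hb n)
    have hp : 0 ≤ x ^ n := pow_nonneg (by linarith) n
    unfold thinStar
    split_ifs with h2 h3 h4
    · simp [h2, hb0]
    · simp [hz n h3 h2]
    · have : (n : ℝ) ≤ K := by exact_mod_cast h4
      nlinarith [mul_nonneg (mul_nonneg (sub_nonneg.2 this)
        (by linarith [hbn.1] : 0 ≤ b n + 1)) hp]
    · have : (K : ℝ) ≤ n := by exact_mod_cast (not_le.1 h4).le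
      nlinarith [mul_nonneg (mul_nonneg (sub_nonneg.2 this)
        (by linarith [hbn.2] : 0 ≤ 1 - b n)) hp]
  have hneg : (K : ℝ) * (pEval b N x - pEval (thinStar z K) N x) ≤ 0 := by
    nlinarith [le_pEval_thinStar h hN h0 h1, (Nat.cast_nonneg K : (0 : ℝ) ≤ K)]
  nlinarith [thinStar_pDeriv_le h hN h0 h1]

theorem pEval_le_sub_thin {z K : ℕ} (h : IsThinningStar z K) {b : ℕ → ℝ} (hb0 : b 0 = 1)
    (hb : ∀ n, |b n| ≤ 1) (hz : ∀ n, n % 3 = z → n ≠ 0 → b n = 0) {N : ℕ} (hN : 32 ≤ N) {x y : ℝ}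
    (h0 : 1 / 2 ≤ x) (hxy : x ≤ y) (h1 : y ≤ 99 / 140) (hlt : pEval b N x < 1 / 400) :
    pEval b N y ≤ pEval b N x - (y - x) / 400 := by
  refine image_le_of_deriv_right_lt_deriv_boundary' (continuous_pEval b N).continuousOn
    (fun t _ => (hasDerivAt_pEval b N t).hasDerivWithinAt)
    (B := fun t => pEval b N x - (t - x) / 400) (B' := fun _ => -1 / 400) (by simp) (by fun_prop)
    (fun t _ => ?_) (fun t ht he => ?_) (Set.right_mem_Icc.2 hxy)
  · simpa [neg_div] using
      ((((hasDerivAt_id t).sub_const x).div_const 400).const_sub (pEval b N x)).hasDerivWithinAt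
  · exact pDeriv_lt_of_pEval_lt_thin h hb0 hb hz hN (h0.trans ht.1) (ht.2.le.trans h1)
      (by rw [he]; linarith [ht.1])

/-- **Transversality of thinned series.** -/
theorem volume_small_thin_le {z : ℕ} (hz' : z = 1 ∨ z = 2) {b : ℕ → ℝ} (hb0 : b 0 = 1)
    (hb : ∀ n, |b n| ≤ 1) (hz : ∀ n, n % 3 = z → n ≠ 0 → b n = 0) {a : ℝ} (ha : 1 / 2 ≤ a)
    (ρ : ℝ) :
    volume {x ∈ Set.Icc a (99 / 140) | |∑' n, b n * x ^ n| ≤ ρ} ≤ ENNReal.ofReal (800 * ρ) := by
  obtain ⟨K, h⟩ := exists_isThinningStar hz'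
  rcases lt_or_ge ρ (1 / 400) with hρ | hρ
  · refine (Real.volume_le_diam _).trans (Metric.ediam_le fun x hx y hy => ?_)
    rw [edist_dist, Real.dist_eq]
    refine ENNReal.ofReal_le_ofReal ?_
    wlog hxy : x ≤ y generalizing x y
    · rw [abs_sub_comm]
      exact this y hy x hx (le_of_not_ge hxy)
    have ht : ∀ u : ℝ, u ∈ Set.Icc a (99 / 140) →
        Tendsto (fun N => pEval b N u) atTop (𝓝 (∑' n, b n * u ^ n)) := fun u hu =>
      (summable_bounded_pow hb (by linarith [hu.1]) (by linarith [hu.2])).hasSum.tendsto_sum_nat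
    have hx2 := abs_le.1 hx.2
    have hy2 := abs_le.1 hy.2
    have hs : ∑' n, b n * y ^ n ≤ ∑' n, b n * x ^ n - (y - x) / 400 := by
      refine le_of_tendsto_of_tendsto (ht y hy.1) ((ht x hx.1).sub_const _) ?_
      filter_upwards [eventually_ge_atTop 32,
        (ht x hx.1).eventually_lt_const (hx2.2.trans_lt hρ)] with N hN hN' using
          pEval_le_sub_thin h hb0 hb hz hN (ha.trans hx.1.1) hxy hy.1.2 hN'
    rw [abs_sub_comm, abs_of_nonneg (sub_nonneg.2 hxy)]
    linarith
  · refine (measure_mono (Set.sep_subset _ _)).trans ?_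
    rw [Real.volume_Icc]
    exact ENNReal.ofReal_le_ofReal (by linarith)

end FA.BernoulliConvolution

end
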