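import Fermat.Agent.BernoulliConvolution.Split
import Fermat.Agent.BernoulliConvolution.Thinning

/-!
# Solomyak's theorem

For almost every `l ∈ (1/2, 1)` the law of `∑ ± l ^ n` is absolutely continuous. Up to `16 / 25`
this is transversality; up to `99 / 140` the series is thinned by every third term, which costs
`2 ^ (-2/3) < 16 / 25` in entropy and is a part of the whole; squaring brings the rest down.
-/

set_option autoImplicit false

noncomputable section

open MeasureTheory Filter Topology
open scoped ENNReal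

namespace FA.BernoulliConvolution

/-- The parameter, confined to `[0, 99/140]`. -/
def clampThin (l : ℝ) : ℝ := max 0 (min l (99 / 140))

/-- The indices kept. -/
def keptIndices : Set ℕ := {n | n % 3 ≠ 2}

instance : DecidablePred (· ∈ keptIndices) := fun n => inferInstanceAs (Decidable (n % 3 ≠ 2))

/-- The thinned series at a confined parameter. -/
def thinSeries (l : ℝ) (ω : ℕ → Bool) : ℝ :=
  weightedSeries (keptIndices.indicator 1) (clampThin l) ω

theorem abs_indicator_kept_le (n : ℕ) : |keptIndices.indicator (1 : ℕ → ℝ) n| ≤ 1 := by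
  by_cases h : n ∈ keptIndices <;> simp [h]

theorem clampThin_mem (l : ℝ) : 0 ≤ clampThin l ∧ clampThin l < 1 :=
  ⟨le_max_left _ _, max_lt one_pos ((min_le_right _ _).trans_lt (by norm_num))⟩

theorem measurable_thinSeries : Measurable fun p : ℝ × (ℕ → Bool) => thinSeries p.1 p.2 :=
  measurable_weightedSeries abs_indicator_kept_le (by unfold clampThin; fun_prop) clampThin_mem

/-- The pairs of words agreeing at the kept indices below `k`. -/
def agreeKept (k : ℕ) : Set ((ℕ → Bool) × (ℕ → Bool)) :=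
  {q | ∀ i ∈ (Finset.range k).filter (fun i => i % 3 ≠ 2), q.1 i = q.2 i}

theorem measurableSet_agreeKept (k : ℕ) : MeasurableSet (agreeKept k) := by
  rw [agreeKept, Set.ofPred_forall]
  refine MeasurableSet.iInter fun i => ?_
  by_cases hi : i ∈ (Finset.range k).filter fun i => i % 3 ≠ 2
  · simp only [hi, forall_true_left]
    exact measurableSet_eq_fun ((measurable_pi_apply i).comp measurable_fst)
      ((measurable_pi_apply i).comp measurable_snd)
  · simp [hi]

theorem card_kept (k : ℕ) : ((Finset.range k).filter fun i => i % 3 ≠ 2).card = k - k / 3 := by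
  induction k with
  | zero => simp
  | succ k ih =>
    rw [Finset.range_add_one, Finset.filter_insert]
    by_cases h : k % 3 = 2
    · rw [if_neg (not_not.2 h), ih]
      omega
    · rw [if_pos h, Finset.card_insert_of_notMem (by simp), ih]
      omega

theorem prod_agreeKept_le (k : ℕ) :
    ((Measure.infinitePi fun _ : ℕ => coin).prod (Measure.infinitePi fun _ : ℕ => coin))
      (agreeKept k) ≤ ENNReal.ofReal (2 * (63 / 100) ^ k) := by
  set s := (Finset.range k).filter fun i => i % 3 ≠ 2 with hs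
  rw [Measure.prod_apply (measurableSet_agreeKept k)]
  have e : ∀ ω : ℕ → Bool, Prod.mk ω ⁻¹' agreeKept k = Set.pi ↑s fun i => {ω i} := fun ω => by
    ext ω'
    simp [agreeKept, Set.mem_pi, hs, eq_comm]
  have hc : ∀ b : Bool, coin {b} = 2⁻¹ := fun b => by cases b <;> simp [coin]
  simp only [e, Measure.infinitePi_pi _ fun i _ => MeasurableSet.of_discrete, hc,
    Finset.prod_const, lintegral_const, measure_univ, mul_one]
  rw [hs, card_kept, ← ENNReal.ofReal_ofNat 2, ← ENNReal.ofReal_inv_of_pos two_pos,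
    ← ENNReal.ofReal_pow (by positivity)]
  refine ENNReal.ofReal_le_ofReal (le_of_pow_le_pow_left₀ three_ne_zero (by positivity) ?_)
  calc (((2 : ℝ)⁻¹) ^ (k - k / 3)) ^ 3 = (2 : ℝ)⁻¹ ^ (3 * (k - k / 3)) := by
        rw [← pow_mul, mul_comm]
    _ ≤ (2 : ℝ)⁻¹ ^ (2 * k - 1) :=
        pow_le_pow_of_le_one (by norm_num) (by norm_num) (by omega)
    _ ≤ 8 * ((2 : ℝ)⁻¹ ^ 2) ^ k := by
        rw [← pow_mul]
        rcases Nat.eq_zero_or_pos k with rfl | hk
        · norm_num
        · obtain ⟨j, hj⟩ : ∃ j, 2 * k = j + 1 := ⟨2 * k - 1, by omega⟩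
          rw [hj, Nat.add_sub_cancel, pow_succ]
          nlinarith [pow_nonneg (show (0 : ℝ) ≤ 2⁻¹ by norm_num) j]
    _ ≤ 8 * ((63 / 100 : ℝ) ^ 3) ^ k := by gcongr; norm_num
    _ = (2 * (63 / 100) ^ k) ^ 3 := by
        rw [mul_pow, ← pow_mul, ← pow_mul, mul_comm k 3]
        norm_num

/-- The parameters at which two thinned values are within `r`. -/
theorem volume_thin_close_le {r : ℝ} (hr : 0 < r) (ω ω' : ℕ → Bool) :
    volume {l ∈ Set.Icc (16 / 25) (99 / 140) | |thinSeries l ω - thinSeries l ω'| ≤ r} ≤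
      ∑' k : ℕ,
        (agreeKept k).indicator (fun _ => ENNReal.ofReal (400 * r / (16 / 25) ^ k)) (ω, ω') := by
  classical
  by_cases hall : ∀ i : ℕ, i % 3 ≠ 2 → ω i = ω' i
  · refine le_top.trans_eq (Eq.symm (top_le_iff.1 ?_))
    rw [← ENNReal.tsum_const_eq_top_of_ne_zero (α := ℕ)
      (ENNReal.ofReal_pos.2 (by positivity : 0 < 400 * r)).ne']
    refine ENNReal.tsum_le_tsum fun k => ?_
    rw [Set.indicator_of_mem (show (ω, ω') ∈ agreeKept k from fun i hi =>
      hall i (Finset.mem_filter.1 hi).2)]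
    refine ENNReal.ofReal_le_ofReal ((le_div_iff₀ (by positivity)).2 ?_)
    exact mul_le_of_le_one_right (by positivity) (pow_le_one₀ (by norm_num) (by norm_num))
  · push Not at hall
    have hex : ∃ k, k % 3 ≠ 2 ∧ ω k ≠ ω' k := hall
    set k := Nat.find hex with hk
    obtain ⟨hk2, hkne⟩ : k % 3 ≠ 2 ∧ ω k ≠ ω' k := Nat.find_spec hex
    have hkeq : ∀ i < k, i % 3 ≠ 2 → ω i = ω' i := fun i hi h2 => by
      by_contra hne
      exact Nat.find_min hex hi ⟨h2, hne⟩
    refine le_trans ?_ (ENNReal.le_tsum k)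
    rw [Set.indicator_of_mem (show (ω, ω') ∈ agreeKept k from fun i hi =>
      hkeq i (Finset.mem_range.1 (Finset.mem_filter.1 hi).1) (Finset.mem_filter.1 hi).2)]
    set d := coinSign (ω k) - coinSign (ω' k) with hd
    have hd2 : |d| = 2 := by
      rw [hd]
      cases h1 : ω k <;> cases h2 : ω' k <;> simp_all [coinSign] <;> norm_num
    have hd0 : d ≠ 0 := fun h => by simp [h] at hd2
    set b : ℕ → ℝ := fun m => keptIndices.indicator (1 : ℕ → ℝ) (m + k) *
      ((coinSign (ω (m + k)) - coinSign (ω' (m + k))) / d) with hb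
    have hb0 : b 0 = 1 := by simp [hb, ← hd, hd0, keptIndices, hk2]
    have hb1 : ∀ n, |b n| ≤ 1 := fun n => by
      rw [hb]
      simp only [abs_mul, abs_div, hd2]
      refine mul_le_one₀ (abs_indicator_kept_le _) (by positivity) ?_
      rw [div_le_one two_pos]
      refine (abs_sub _ _).trans ?_
      norm_num [abs_coinSign]
    have hz : ∀ n, n % 3 = 2 - k % 3 → n ≠ 0 → b n = 0 := fun n hn _ => by
      simp [hb, keptIndices, show (n + k) % 3 = 2 by omega]
    refine (measure_mono fun l hl => ?_).trans ((volume_small_thin_le (by omega) hb0 hb1 hz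
      (by norm_num : (1 : ℝ) / 2 ≤ 16 / 25) (r / (2 * (16 / 25) ^ k))).trans_eq (by congr 1; ring))
    refine ⟨hl.1, ?_⟩
    have hl0 : 0 < l := by linarith [hl.1.1]
    have hlc : clampThin l = l := by rw [clampThin, min_eq_left hl.1.2, max_eq_right hl0.le]
    have hs := fun v : ℕ → Bool =>
      summable_weightedSeries abs_indicator_kept_le hl0.le (by linarith [hl.1.2] : l < 1) v
    have he : thinSeries l ω - thinSeries l ω' = d * l ^ k * ∑' n, b n * l ^ n := by
      rw [thinSeries, thinSeries, hlc, weightedSeries, weightedSeries, ← (hs ω).tsum_sub (hs ω'),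
        ← ((hs ω).sub (hs ω')).sum_add_tsum_nat_add k,
        Finset.sum_eq_zero fun i hi => ?_, zero_add, ← tsum_mul_left]
      · refine tsum_congr fun n => ?_
        simp only [hb, pow_add]
        field_simp
      · by_cases h2 : i % 3 = 2
        · simp [keptIndices, h2]
        · rw [hkeq i (Finset.mem_range.1 hi) h2, sub_self]
    have hle := hl.2
    rw [he, abs_mul, abs_mul, hd2, abs_of_pos (pow_pos hl0 k)] at hle
    rw [le_div_iff₀ (by positivity)]
    calc |∑' n, b n * l ^ n| * (2 * (16 / 25) ^ k) ≤ |∑' n, b n * l ^ n| * (2 * l ^ k) := by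
          gcongr
          exact hl.1.1
      _ = 2 * l ^ k * |∑' n, b n * l ^ n| := mul_comm _ _
      _ ≤ r := hle

theorem ae_absolutelyContinuous_thin :
    ∀ᵐ l ∂volume.restrict (Set.Icc (16 / 25) (99 / 140 : ℝ)),
      bernoulliConvolution l⁻¹ ≪ volume := by
  have hq : (0 : ℝ) ≤ 63 / 64 := by norm_num
  have main := ae_absolutelyContinuous_of_close (μ := Measure.infinitePi fun _ : ℕ => coin)
    measurable_thinSeries
    (volume.restrict (Set.Icc (16 / 25) (99 / 140 : ℝ))) (C := 800 / (1 - 63 / 64)) fun r hr => by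
    have h2 : ∀ q : (ℕ → Bool) × (ℕ → Bool),
        (volume.restrict (Set.Icc (16 / 25) (99 / 140 : ℝ)))
          {l | |thinSeries l q.1 - thinSeries l q.2| ≤ r} ≤
        ∑' k : ℕ,
          (agreeKept k).indicator
            (fun _ => ENNReal.ofReal (400 * r / (16 / 25) ^ k)) q := fun q => by
      rw [Measure.restrict_apply' measurableSet_Icc]
      refine (measure_mono fun l hl => ?_).trans (volume_thin_close_le hr q.1 q.2)
      exact ⟨hl.2, hl.1⟩
    refine (lintegral_mono h2).trans ?_
    rw [lintegral_tsum fun k =>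
      (measurable_const.indicator (measurableSet_agreeKept k)).aemeasurable]
    rw [div_mul_eq_mul_div, div_eq_mul_inv _ (1 - 63 / 64 : ℝ),
      ← tsum_geometric_of_lt_one hq (by norm_num), ← tsum_mul_left,
      ENNReal.ofReal_tsum_of_nonneg (fun k => by positivity)
        ((summable_geometric_of_lt_one hq (by norm_num)).mul_left _)]
    refine ENNReal.tsum_le_tsum fun k => ?_
    rw [lintegral_indicator_const (measurableSet_agreeKept k)]
    refine (mul_le_mul_right (prod_agreeKept_le k) _).trans_eq ?_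
    rw [← ENNReal.ofReal_mul (by positivity)]
    congr 1
    rw [show (63 / 64 : ℝ) = 63 / 100 / (16 / 25) by norm_num, div_pow (63 / 100 : ℝ)]
    ring
  filter_upwards [main, ae_restrict_mem measurableSet_Icc] with l hl hmem
  refine absolutelyContinuous_of_part keptIndices (by linarith [hmem.1]) (by linarith [hmem.2]) ?_
  have e : thinSeries l = weightedSeries (keptIndices.indicator 1) l := by
    funext ω
    rw [thinSeries, clampThin, min_eq_left hmem.2, max_eq_right (by linarith [hmem.1])]
  rwa [← e]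

theorem ae_absolutelyContinuous_first :
    ∀ᵐ l ∂volume.restrict (Set.Ioc (1 / 2) (99 / 140 : ℝ)),
      bernoulliConvolution l⁻¹ ≪ volume := by
  refine ae_restrict_of_ae_restrict_of_subset
    (t := Set.Ioc (1 / 2) (16 / 25) ∪ Set.Icc (16 / 25) (99 / 140)) (fun l hl => ?_) ?_
  · rcases le_total l (16 / 25) with h | h
    · exact Or.inl ⟨hl.1, h⟩
    · exact Or.inr ⟨h, hl.2⟩
  · rw [ae_restrict_union_iff]
    exact ⟨ae_absolutelyContinuous, ae_absolutelyContinuous_thin⟩

theorem ae_absolutelyContinuous_iterate (j : ℕ) : ∀ᵐ l ∂(volume : Measure ℝ),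
    0 < l → l < 1 → l ^ 2 ^ j ∈ Set.Ioc (1 / 2 : ℝ) (99 / 140) →
      bernoulliConvolution l⁻¹ ≪ volume := by
  induction j with
  | zero =>
    filter_upwards [(ae_restrict_iff' measurableSet_Ioc).1 ae_absolutelyContinuous_first]
      with l hl _ _ hm
    exact hl (by simpa using hm)
  | succ j ih =>
    rw [ae_iff] at ih ⊢
    refine measure_mono_null (t := Real.sqrt '' {l : ℝ | ¬(0 < l → l < 1 →
      l ^ 2 ^ j ∈ Set.Ioc (1 / 2 : ℝ) (99 / 140) → bernoulliConvolution l⁻¹ ≪ volume)}) ?_ ?_
    · intro l hl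
      simp only [Set.mem_ofPred_eq, Classical.not_imp] at hl
      obtain ⟨h0, h1, hm, hnot⟩ := hl
      refine ⟨l ^ 2, ?_, Real.sqrt_sq h0.le⟩
      simp only [Set.mem_ofPred_eq, Classical.not_imp]
      exact ⟨by positivity, pow_lt_one₀ h0.le h1 two_ne_zero,
        by rwa [← pow_mul, ← pow_succ'], fun h => hnot (absolutelyContinuous_of_sq h0 h1 h)⟩
    · refine addHaar_image_eq_zero_of_differentiableOn_of_addHaar_eq_zero volume
        (fun l hl => ?_) ih
      simp only [Set.mem_ofPred_eq, Classical.not_imp] at hl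
      exact (Real.hasDerivAt_sqrt hl.1.ne').differentiableAt.differentiableWithinAt

/-- **Solomyak's theorem.** -/
theorem ae_absolutelyContinuous_full :
    ∀ᵐ l ∂volume.restrict (Set.Ioo (1 / 2) (1 : ℝ)), bernoulliConvolution l⁻¹ ≪ volume := by
  rw [ae_restrict_iff' measurableSet_Ioo]
  filter_upwards [ae_all_iff.2 ae_absolutelyContinuous_iterate] with l hl hm
  have h0 : 0 < l := by linarith [hm.1]
  have hex : ∃ j : ℕ, l ^ 2 ^ j ≤ 99 / 140 := by
    obtain ⟨n, hn⟩ := exists_pow_lt_of_lt_one (by norm_num : (0 : ℝ) < 99 / 140) hm.2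
    exact ⟨n, (pow_le_pow_of_le_one h0.le hm.2.le Nat.lt_two_pow_self.le).trans hn.le⟩
  refine hl (Nat.find hex) h0 hm.2 ⟨?_, Nat.find_spec hex⟩
  rcases h : Nat.find hex with _ | j
  · simpa using hm.1
  · have hj : 99 / 140 < l ^ 2 ^ j := not_le.1 (Nat.find_min hex (h ▸ Nat.lt_succ_self j))
    rw [pow_succ, pow_mul]
    nlinarith

/-- **Solomyak's theorem** in the base. -/
theorem ae_absolutelyContinuous_base_full :
    ∀ᵐ θ ∂volume.restrict (Set.Ioo 1 2 : Set ℝ), bernoulliConvolution θ ≪ volume := by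
  have h := ae_absolutelyContinuous_full
  rw [ae_restrict_iff' measurableSet_Ioo, ae_iff] at h
  rw [ae_restrict_iff' measurableSet_Ioo, ae_iff]
  refine measure_mono_null (t := (fun l : ℝ => l⁻¹) ''
    {l | ¬(l ∈ Set.Ioo (1 / 2) (1 : ℝ) → bernoulliConvolution l⁻¹ ≪ volume)}) (fun θ hθ => ?_) ?_
  · rw [Set.mem_ofPred_eq, Classical.not_imp] at hθ
    have hθ0 : 0 < θ := by linarith [hθ.1.1]
    refine ⟨θ⁻¹, ?_, inv_inv θ⟩
    simp only [Set.mem_ofPred_eq, Classical.not_imp, inv_inv]
    refine ⟨⟨?_, inv_lt_one_of_one_lt₀ hθ.1.1⟩, hθ.2⟩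
    rw [one_div, inv_lt_inv₀ two_pos hθ0]
    exact hθ.1.2
  · refine addHaar_image_eq_zero_of_differentiableOn_of_addHaar_eq_zero volume (fun l hl => ?_) h
    simp only [Set.mem_ofPred_eq, Classical.not_imp] at hl
    exact (differentiableAt_inv (by linarith [hl.1.1])).differentiableWithinAt

end FA.BernoulliConvolution

end
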