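import Fermat.Agent.BernoulliConvolution.Solomyak

/-!
# Splitting the series

The signs on a set of indices and those on its complement are independent, so the law of the series
is absolutely continuous once the law of the part on the set is. The even terms of the series at
`l` form the series at `l ^ 2`: absolute continuity passes from `l ^ 2` to `l`.
-/

set_option autoImplicit false

noncomputable section

open MeasureTheory Filter Topology
open scoped ENNReal

namespace FA.BernoulliConvolution

/-- The series with weights. -/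
def weightedSeries (w : ℕ → ℝ) (l : ℝ) (ω : ℕ → Bool) : ℝ := ∑' n, w n * coinSign (ω n) * l ^ n

theorem summable_weightedSeries {w : ℕ → ℝ} (hw : ∀ n, |w n| ≤ 1) {l : ℝ} (h0 : 0 ≤ l) (h1 : l < 1)
    (ω : ℕ → Bool) : Summable fun n => w n * coinSign (ω n) * l ^ n :=
  summable_bounded_pow (fun n => by rw [abs_mul, abs_coinSign, mul_one]; exact hw n) h0 h1

theorem measurable_weightedSeries {w : ℕ → ℝ} (hw : ∀ n, |w n| ≤ 1) {g : ℝ → ℝ}
    (hg : Measurable g) (h : ∀ l, 0 ≤ g l ∧ g l < 1) :
    Measurable fun p : ℝ × (ℕ → Bool) => weightedSeries w (g p.1) p.2 := by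
  refine measurable_of_tendsto_metrizable
    (f := fun N (p : ℝ × (ℕ → Bool)) =>
      ∑ n ∈ Finset.range N, w n * coinSign (p.2 n) * g p.1 ^ n) (fun N => ?_)
    (tendsto_pi_nhds.2 fun p =>
      (summable_weightedSeries hw (h p.1).1 (h p.1).2 p.2).hasSum.tendsto_sum_nat)
  refine Finset.measurable_sum _ fun n _ => ?_
  exact (((measurable_of_finite coinSign).comp
    ((measurable_pi_apply n).comp measurable_snd)).const_mul (w n)).mul
    ((hg.comp measurable_fst).pow_const n)

theorem measurable_weightedSeries_apply {w : ℕ → ℝ} (hw : ∀ n, |w n| ≤ 1) {l : ℝ} (h0 : 0 ≤ l)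
    (h1 : l < 1) : Measurable (weightedSeries w l) :=
  (measurable_weightedSeries hw (g := fun _ => l) measurable_const fun _ => ⟨h0, h1⟩).comp
    (measurable_prodMk_left (x := (0 : ℝ)))

/-- The word taking the indices of `A` from the first and the others from the second. -/
def combineWords (A : Set ℕ) [DecidablePred (· ∈ A)] (q : (ℕ → Bool) × (ℕ → Bool)) : ℕ → Bool :=
  fun n => if n ∈ A then q.1 n else q.2 n

theorem measurable_combineWords (A : Set ℕ) [DecidablePred (· ∈ A)] :
    Measurable (combineWords A) := measurable_pi_lambda _ fun n => by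
  by_cases h : n ∈ A
  · simp only [combineWords, if_pos h]
    exact (measurable_pi_apply n).comp measurable_fst
  · simp only [combineWords, if_neg h]
    exact (measurable_pi_apply n).comp measurable_snd

/-- Two independent words make one. -/
theorem map_combineWords (A : Set ℕ) [DecidablePred (· ∈ A)] :
    ((Measure.infinitePi fun _ : ℕ => coin).prod (Measure.infinitePi fun _ : ℕ => coin)).map
      (combineWords A) = Measure.infinitePi fun _ : ℕ => coin := by
  refine Measure.eq_infinitePi _ fun s t ht => ?_
  rw [Measure.map_apply (measurable_combineWords A)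
    (MeasurableSet.pi s.countable_toSet fun i _ => ht i)]
  have e : combineWords A ⁻¹' Set.pi s t =
      Set.pi ↑(s.filter (· ∈ A)) t ×ˢ Set.pi ↑(s.filter (· ∉ A)) t := by
    ext q
    simp only [Set.mem_preimage, Set.mem_pi, Set.mem_prod, Finset.mem_coe, Finset.mem_filter,
      combineWords]
    refine ⟨fun h => ⟨fun i hi => ?_, fun i hi => ?_⟩, fun h i hi => ?_⟩
    · simpa [hi.2] using h i hi.1
    · simpa [hi.2] using h i hi.1
    · by_cases hA : i ∈ A
      · simpa [hA] using h.1 i ⟨hi, hA⟩
      · simpa [hA] using h.2 i ⟨hi, hA⟩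
  rw [e, Measure.prod_prod, Measure.infinitePi_pi _ (fun i _ => ht i),
    Measure.infinitePi_pi _ (fun i _ => ht i), Finset.prod_filter_mul_prod_filter_not]

/-- **A part suffices.** -/
theorem absolutelyContinuous_of_part (A : Set ℕ) [DecidablePred (· ∈ A)] {l : ℝ} (h0 : 0 < l)
    (h1 : l < 1)
    (hA : (Measure.infinitePi fun _ : ℕ => coin).map
      (weightedSeries (A.indicator 1) l) ≪ volume) :
    bernoulliConvolution l⁻¹ ≪ volume := by
  set μ := Measure.infinitePi fun _ : ℕ => coin with hμ
  have hwA : ∀ n, |A.indicator (1 : ℕ → ℝ) n| ≤ 1 := fun n => by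
    by_cases h : n ∈ A <;> simp [h]
  have hwB : ∀ n, |Aᶜ.indicator (1 : ℕ → ℝ) n| ≤ 1 := fun n => by
    by_cases h : n ∈ A <;> simp [h]
  have hl1 : 1 < l⁻¹ := (one_lt_inv₀ h0).2 h1
  have hT := measurable_weightedSeries_apply hwA h0.le h1
  have hR := measurable_weightedSeries_apply hwB h0.le h1
  have hsplit : ∀ q : (ℕ → Bool) × (ℕ → Bool), signedSeries l⁻¹ (combineWords A q) =
      weightedSeries (A.indicator 1) l q.1 + weightedSeries (Aᶜ.indicator 1) l q.2 := fun q => by
    rw [signedSeries, weightedSeries, weightedSeries,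
      ← (summable_weightedSeries hwA h0.le h1 q.1).tsum_add
        (summable_weightedSeries hwB h0.le h1 q.2)]
    refine tsum_congr fun n => ?_
    by_cases h : n ∈ A <;> simp [combineWords, h, inv_pow, div_inv_eq_mul]
  refine Measure.AbsolutelyContinuous.mk fun N hN hN0 => ?_
  rw [bernoulliConvolution, ← map_combineWords A,
    Measure.map_map (measurable_signedSeries hl1) (measurable_combineWords A),
    Measure.map_apply ((measurable_signedSeries hl1).comp (measurable_combineWords A)) hN,
    Measure.prod_apply_symm (((measurable_signedSeries hl1).comp (measurable_combineWords A)) hN),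
    lintegral_eq_zero_iff (measurable_measure_prodMk_right
      (((measurable_signedSeries hl1).comp (measurable_combineWords A)) hN))]
  refine Eventually.of_forall fun ω₂ => ?_
  have h := hA (show volume ((fun x => x + weightedSeries (Aᶜ.indicator 1) l ω₂) ⁻¹' N) = 0 by
    rwa [measure_preimage_add_right])
  rw [Measure.map_apply hT ((measurable_add_const _) hN)] at h
  simp only [Pi.zero_apply]
  refine measure_mono_null (fun ω₁ hω => ?_) h
  simpa only [Set.mem_preimage, Function.comp_apply, hsplit] using hω

theorem map_evenWords :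
    (Measure.infinitePi fun _ : ℕ => coin).map (fun ω n => ω (2 * n)) =
      Measure.infinitePi fun _ : ℕ => coin := by
  have hinj : Function.Injective fun n : ℕ => 2 * n := fun a b h => by simpa using h
  refine Measure.eq_infinitePi _ fun s t ht => ?_
  rw [Measure.map_apply (measurable_pi_lambda _ fun n => measurable_pi_apply (2 * n))
    (MeasurableSet.pi s.countable_toSet fun i _ => ht i)]
  have e : (fun (ω : ℕ → Bool) n => ω (2 * n)) ⁻¹' Set.pi s t =
      Set.pi ↑(s.image (2 * ·)) fun i => t (i / 2) := by
    ext ω
    simp [Set.mem_pi]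
  rw [e, Measure.infinitePi_pi _ (fun i _ => ht _), Finset.prod_image fun a _ b _ h => hinj h]
  exact Finset.prod_congr rfl fun i _ => by simp

/-- **From `l ^ 2` to `l`.** -/
theorem absolutelyContinuous_of_sq {l : ℝ} (h0 : 0 < l) (h1 : l < 1)
    (h : bernoulliConvolution (l ^ 2)⁻¹ ≪ volume) : bernoulliConvolution l⁻¹ ≪ volume := by
  classical
  refine absolutelyContinuous_of_part {n | Even n} h0 h1 ?_
  have hl2 : 1 < (l ^ 2)⁻¹ := (one_lt_inv₀ (by positivity)).2 (pow_lt_one₀ h0.le h1 two_ne_zero)
  have e : weightedSeries ({n | Even n}.indicator 1) l =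
      signedSeries (l ^ 2)⁻¹ ∘ fun ω n => ω (2 * n) := by
    funext ω
    rw [Function.comp_apply, weightedSeries, signedSeries]
    rw [← Function.Injective.tsum_eq (g := fun n : ℕ => 2 * n) (fun a b h => by simpa using h)
      (fun n hn => ?_)]
    · refine tsum_congr fun n => ?_
      simp [inv_pow, pow_mul]
    · rcases Nat.even_or_odd n with ⟨k, rfl⟩ | ho
      · exact ⟨k, two_mul k⟩
      · simp [Nat.not_even_iff_odd.2 ho] at hn
  rw [e, ← Measure.map_map (measurable_signedSeries hl2)
    (measurable_pi_lambda _ fun n => measurable_pi_apply (2 * n)), map_evenWords]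
  exact h

end FA.BernoulliConvolution

end
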